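import Fermat.Agent.TW.GrpRing

/-!
# The data of a Taylor–Wiles level for the modularity lifting theorem (interface)
-/

set_option autoImplicit false

noncomputable section

namespace Fermat.Agent.StR

open Matrix IsLocalRing Fermat.Agent.TW

/-- The residual type of a non-minimal prime `q` (the residual representation is unramified at
`q`): `sc` if Frobenius acts as a scalar, `ns` otherwise. -/
inductive Ty : Type
  | sc : Ty
  | ns : Ty

/-- relative dimension of the Steinberg component -/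
def Ty.dl : Ty → ℕ
  | Ty.sc => 3
  | Ty.ns => 1

/-- A Frobenius matrix `Φ` and the logarithm `N` of a generator of tame inertia; `ε = ± 1` is the
sign of the Steinberg type. -/
structure QD {A : Type} [CommRing A] [IsLocalRing A] (ty : Ty) (q : ℕ) (ε : ℤ)
    (Φ N : Matrix (Fin 2) (Fin 2) A) : Prop where
  detΦ : Φ.det = q
  trN : N.trace = 0
  sqN : N * N = 0
  comm : Φ * N = (q : A) • (N * Φ)
  hN : ∀ a b, N a b ∈ maximalIdeal A
  hΦ : ty = Ty.sc → ∀ a b, (Φ - (ε : A) • (1 : Matrix (Fin 2) (Fin 2) A)) a b ∈ maximalIdeal A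
  hτ : ty = Ty.ns → Φ.trace - ε * (q + 1) ∈ maximalIdeal A ∧ Φ = !![0, -(q : A); 1, Φ.trace]

/-- the local parameters at `q` -/
def par {A : Type} [CommRing A] (ty : Ty) (q : ℕ) (ε : ℤ)
    (Φ N : Matrix (Fin 2) (Fin 2) A) : Set A :=
  match ty with
  | Ty.sc => {x | ∃ a b, x = N a b} ∪
      {x | ∃ a b, x = (Φ - (ε : A) • (1 : Matrix (Fin 2) (Fin 2) A)) a b}
  | Ty.ns => {x | ∃ a b, x = N a b} ∪ {Φ.trace - ε * (q + 1)}

/-- **The data at level `n`, without the point.** `t` = number of non-minimal primes `q j` (bad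
primes of `W` different from `p` at which the residual representation is unramified), `A` = trace
ring acting on everything, `V` = the module of level `N` (all `q j` divide `N`), `U j` = the module
of level `N / q j`, `M` = the module of minimal level (level `N / ∏ q j`); all these are free
modules over `GR O P = O[Δ_n]`, given by matrices. -/
structure MLev (O : Type) [CommRing O] [IsLocalRing O] (ϖ : O) (p r g t B : ℕ) (ty : Fin t → Ty)
    (q : Fin t → ℕ) (ε : Fin t → ℤ) (n : ℕ) where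
  A : Type
  [crA : CommRing A]
  [lrA : IsLocalRing A]
  [nrA : IsNoetherianRing A]
  [algA : Algebra O A]
  [finA : Module.Finite O A]
  [lhA : IsLocalHom (algebraMap O A)]
  resA : ∀ a : A, ∃ o : O, a - algebraMap O A o ∈ maximalIdeal A
  P : Fin r → ℕ
  hP : ∀ i, ∃ m, P i = p ^ m ∧ n ≤ m
  -- Galois data in the ring `A`
  Φ : Fin t → Matrix (Fin 2) (Fin 2) A
  N : Fin t → Matrix (Fin 2) (Fin 2) A
  qd : ∀ j, QD (ty j) (q j) (ε j) (Φ j) (N j)
  z : Fin g → A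
  hz : ∀ i, z i ∈ maximalIdeal A
  hgen : maximalIdeal A ≤ Ideal.span {algebraMap O A ϖ} ⊔ Ideal.span (Set.range z) ⊔
    Ideal.span {x | ∃ j, x ∈ par (ty j) (q j) (ε j) (Φ j) (N j)} ⊔ maximalIdeal A ^ 2
  -- the modules `V`, `U j`, `M`
  d : ℕ
  hd : d ≤ B
  f : A →ₐ[O] Matrix (Fin d) (Fin d) (GR O P)
  dU : Fin t → ℕ
  hdU : ∀ j, dU j ≤ B
  fU : ∀ j, A →ₐ[O] Matrix (Fin (dU j)) (Fin (dU j)) (GR O P)
  dM : ℕ
  hdM : 0 < dM ∧ dM ≤ B
  fM : A →ₐ[O] Matrix (Fin dM) (Fin dM) (GR O P)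
  -- degeneracy maps `i : U j × U j → V` (split injective) and `s : V → U j × U j` (split surjective)
  i1 : ∀ j, Matrix (Fin d) (Fin (dU j)) (GR O P)
  i2 : ∀ j, Matrix (Fin d) (Fin (dU j)) (GR O P)
  hi1 : ∀ j a, f a * i1 j = i1 j * fU j a
  hi2 : ∀ j a, f a * i2 j = i2 j * fU j a
  l1 : ∀ j, Matrix (Fin (dU j)) (Fin d) (GR O P)
  l2 : ∀ j, Matrix (Fin (dU j)) (Fin d) (GR O P)
  hl : ∀ j, l1 j * i1 j = 1 ∧ l1 j * i2 j = 0 ∧ l2 j * i1 j = 0 ∧ l2 j * i2 j = 1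
  s1 : ∀ j, Matrix (Fin (dU j)) (Fin d) (GR O P)
  s2 : ∀ j, Matrix (Fin (dU j)) (Fin d) (GR O P)
  hs1 : ∀ j a, fU j a * s1 j = s1 j * f a
  hs2 : ∀ j a, fU j a * s2 j = s2 j * f a
  k1 : ∀ j, Matrix (Fin d) (Fin (dU j)) (GR O P)
  k2 : ∀ j, Matrix (Fin d) (Fin (dU j)) (GR O P)
  hk : ∀ j, s1 j * k1 j = 1 ∧ s1 j * k2 j = 0 ∧ s2 j * k1 j = 0 ∧ s2 j * k2 j = 1
  hsi : ∀ j, s1 j * i1 j = fU j (q j + 1) ∧ s1 j * i2 j = fU j (Φ j).trace ∧
    s2 j * i1 j = fU j (Φ j).trace ∧ s2 j * i2 j = fU j (q j + 1)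
  -- `V / i (U j × U j)` is `q j`-new: it is killed by the cube of `(tr Φ)² - (q + 1)²`
  new : ∀ j, ∃ G1 G2 : Matrix (Fin (dU j)) (Fin d) (GR O P),
    f (((Φ j).trace ^ 2 - ((q j : A) + 1) ^ 2) ^ 3) = i1 j * G1 + i2 j * G2
  -- minimal level: a split injection `M → V`, unramified at all the `q j`
  j0 : Matrix (Fin d) (Fin dM) (GR O P)
  hj0 : ∀ a, f a * j0 = j0 * fM a
  l0 : Matrix (Fin dM) (Fin d) (GR O P)
  hl0 : l0 * j0 = 1
  hNM : ∀ j a b, fM (N j a b) = 0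
  -- diamond operators
  dia : ∀ i, ∃ a : A, f a = Matrix.scalar _ (GR.δ O P i) ∧
    (∀ j, fU j a = Matrix.scalar _ (GR.δ O P i)) ∧ fM a = Matrix.scalar _ (GR.δ O P i)

/-- **The data at level `n`, with the point** (cases: `W` good at `p`, and `W` multiplicative at `p`
with `ρbar` très ramifiée at `p`; then `p ∥ N`). `A` = joint trace ring (image of the Hecke algebra
in `End (V) × O`), `x` = the point of the curve, `h` = a Hecke operator which kills the module of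
level `N` without Taylor–Wiles primes, `x h = c` independent of `n`. -/
structure RLev (O : Type) [CommRing O] [IsLocalRing O] (ϖ : O) (p r g t B : ℕ) (ty : Fin t → Ty)
    (q : Fin t → ℕ) (ε : Fin t → ℤ) (c : O) (n : ℕ) extends MLev O ϖ p r g t B ty q ε n where
  x : letI := crA; letI := algA; A →ₐ[O] O
  hxΦ : ∀ j, x (Φ j).trace = ε j * (q j + 1)
  hxN : letI := crA; ∀ j, (N j * (Φ j - (ε j : A) • (1 : Matrix (Fin 2) (Fin 2) A))).map x = 0
  hxdia : ∀ i, ∃ a : A, f a = Matrix.scalar _ (GR.δ O P i) ∧ x a = 1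
  h : A
  hh : ∀ i j, f h i j ∈ Ideal.span (Set.range fun i => GR.δ O P i - 1)
  hx : x h = c

/-- **The data at level `n` for `W` multiplicative at `p` with `ρbar` peu ramifiée at `p`.**
The `MLev` part is the flat world: `A` = trace ring of the module `V` of level `N / p` (flat at
`p`); its first parameter `z 0` is `u = ψ(Φ_p)² - 1` where `ψ` is the unramified quotient
character at `p`, `T` = `T_p = ψ + p ψ⁻¹`. The new part: `A'` = joint trace ring of the module `V'`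
of level `N` (ordinary at `p`) and the curve. -/
structure XLev (O : Type) [CommRing O] [IsLocalRing O] (ϖ : O) (p r g t B : ℕ) (ty : Fin t → Ty)
    (q : Fin t → ℕ) (ε : Fin t → ℤ) (c : O) (n : ℕ) extends
    MLev O ϖ p r (g + 1) t B ty q ε n where
  A' : Type
  [crA' : CommRing A']
  [lrA' : IsLocalRing A']
  [nrA' : IsNoetherianRing A']
  [algA' : Algebra O A']
  [finA' : Module.Finite O A']
  [lhA' : IsLocalHom (algebraMap O A')]
  resA' : ∀ a : A', ∃ o : O, a - algebraMap O A' o ∈ maximalIdeal A'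
  π : letI := crA; letI := algA; A' →ₐ[O] A
  Φ' : Fin t → Matrix (Fin 2) (Fin 2) A'
  N' : Fin t → Matrix (Fin 2) (Fin 2) A'
  hΦ' : ∀ j, (Φ' j).map π = Φ j
  hN' : ∀ j, (N' j).map π = N j
  qd' : ∀ j, QD (ty j) (q j) (ε j) (Φ' j) (N' j)
  z' : Fin (g + 1) → A'
  hz' : ∀ i, π (z' i) = z i
  w : A'
  hw : w ∈ maximalIdeal A'
  hgen' : maximalIdeal A' ≤ Ideal.span {algebraMap O A' ϖ} ⊔ Ideal.span (Set.range z') ⊔
    Ideal.span {w} ⊔
    Ideal.span {x | ∃ j, x ∈ par (ty j) (q j) (ε j) (Φ' j) (N' j)} ⊔ maximalIdeal A' ^ 2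
  d' : ℕ
  hd' : d' ≤ B
  f' : A' →ₐ[O] Matrix (Fin d') (Fin d') (GR O P)
  I1 : Matrix (Fin d') (Fin d) (GR O P)
  I2 : Matrix (Fin d') (Fin d) (GR O P)
  hI1 : ∀ a, f' a * I1 = I1 * f (π a)
  hI2 : ∀ a, f' a * I2 = I2 * f (π a)
  L1 : Matrix (Fin d) (Fin d') (GR O P)
  L2 : Matrix (Fin d) (Fin d') (GR O P)
  hL : L1 * I1 = 1 ∧ L1 * I2 = 0 ∧ L2 * I1 = 0 ∧ L2 * I2 = 1
  S1 : Matrix (Fin d) (Fin d') (GR O P)
  S2 : Matrix (Fin d) (Fin d') (GR O P)
  hS1 : ∀ a, f (π a) * S1 = S1 * f' a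
  hS2 : ∀ a, f (π a) * S2 = S2 * f' a
  K1 : Matrix (Fin d') (Fin d) (GR O P)
  K2 : Matrix (Fin d') (Fin d) (GR O P)
  hK : S1 * K1 = 1 ∧ S1 * K2 = 0 ∧ S2 * K1 = 0 ∧ S2 * K2 = 1
  T : A
  hSI : S1 * I1 = f ((p : A) + 1) ∧ S1 * I2 = f T ∧ S2 * I1 = f T ∧ S2 * I2 = f ((p : A) + 1)
  hT : T ^ 2 - ((p : A) + 1) ^ 2 ∈ Ideal.span {z 0}
  -- `V' / i (V × V)` is `p`-new, hence killed by `u ^ 3`
  new' : ∃ G1 G2 : Matrix (Fin d) (Fin d') (GR O P), f' (z' 0 ^ 3) = I1 * G1 + I2 * G2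
  x : letI := crA'; letI := algA'; A' →ₐ[O] O
  hxu : x (z' 0) = 0
  hxΦ : ∀ j, x (Φ' j).trace = ε j * (q j + 1)
  hxN : letI := crA'; ∀ j, (N' j * (Φ' j - (ε j : A') • (1 : Matrix (Fin 2) (Fin 2) A'))).map x = 0
  dia' : ∀ i, ∃ a : A', f' a = Matrix.scalar _ (GR.δ O P i) ∧
    f (π a) = Matrix.scalar _ (GR.δ O P i) ∧ x a = 1
  h : A'
  hh : ∀ i j, f' h i j ∈ Ideal.span (Set.range fun i => GR.δ O P i - 1)
  hx : x h = c

end Fermat.Agent.StR
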