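import Fermat.Agent.StR.Out

/-!
# The modularity lifting theorem, abstract form (cases I and II)
-/

set_option autoImplicit false
set_option linter.unusedSectionVars false
set_option linter.style.haveILetI false

namespace Fermat.Agent.StR

open IsLocalRing Filter RingTheory.Sequence Module Fermat.Agent.Patch Fermat.Agent.TW Matrix

attribute [local instance] MLev.crA MLev.lrA MLev.nrA MLev.algA MLev.finA MLev.lhA

variable {O : Type} [CommRing O] [IsDomain O] [IsLocalRing O] [IsNoetherianRing O] [CharZero O]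
  [IsAdicComplete (maximalIdeal O) O] [Finite (ResidueField O)] {ϖ : O}
  (hϖ0 : ϖ ≠ 0) (hϖ : maximalIdeal O = Ideal.span {ϖ}) {p : ℕ} [hp : Fact p.Prime]
  (hpO : (p : O) ∈ maximalIdeal O)
  {t : ℕ} {ty : Fin t → Ty} {q : Fin t → ℕ} {ε : Fin t → ℤ} {g r B : ℕ}

section out

variable {P : Type} [CommRing P] [IsLocalRing P] [Algebra O P] {z : Fin g → P}
  {Φ N : Fin t → Matrix (Fin 2) (Fin 2) P}

theorem mapMatrix_scalar {T T' : Type} [CommRing T] [CommRing T'] (e : T →+* T') {d : ℕ} (x : T) :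
    e.mapMatrix (Matrix.scalar (Fin d) x) = Matrix.scalar (Fin d) (e x) := by
  refine Matrix.ext fun i j => ?_
  rw [RingHom.mapMatrix_apply, Matrix.map_apply, Matrix.scalar_apply, Matrix.scalar_apply,
    Matrix.diagonal_apply, Matrix.diagonal_apply]
  split_ifs
  · rfl
  · exact map_zero e

theorem algebraMap_scalar {T : Type} [CommRing T] [Algebra O T] {d : ℕ} (o : O) :
    algebraMap O (Matrix (Fin d) (Fin d) T) o = Matrix.scalar (Fin d) (algebraMap O T o) := by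
  rw [Matrix.algebraMap_eq_diagonal]
  rfl

include hϖ hpO in
/-- the flat/minimal part of the output of a level -/
theorem MLev.out {n n' : ℕ} (hn : n ≤ n') (X : MLev O ϖ p r g t B ty q ε n')
    (h : IsFD O ϖ g t ty q ε P z Φ N) :
    ∃ (J : Ideal (MvPowerSeries (Fin r) O)) (e : GR O X.P →+* MvPowerSeries (Fin r) O ⧸ J)
      (G : P →ₐ[O] X.A) (Y : MDat P (MvPowerSeries (Fin r) O ⧸ J) t ty q Φ N X.d X.dU X.dM),
      J ≤ maximalIdeal (MvPowerSeries (Fin r) O) ^ (n + 1) ∧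
      (∀ i, e (GR.δ O X.P i - 1) = Ideal.Quotient.mk J (MvPowerSeries.X i)) ∧
      (∀ o, e (algebraMap O _ o) = Ideal.Quotient.mk J (algebraMap O _ o)) ∧
      Function.Surjective G ∧ (∀ i, G (z i) = X.z i) ∧
      (∀ j, (Φ j).map G = X.Φ j ∧ (N j).map G = X.N j) ∧
      (∀ a, Y.ρ a = e.mapMatrix (X.f (G a))) ∧
      (∀ j a, Y.ρU j a = e.mapMatrix (X.fU j (G a))) ∧
      (∀ a, Y.ρM a = e.mapMatrix (X.fM (G a))) ∧
      (∀ s ∈ Patching.rs r ϖ, ∃ a, Y.ρ a = Matrix.scalar _ (Ideal.Quotient.mk J s) ∧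
        (∀ j, Y.ρU j a = Matrix.scalar _ (Ideal.Quotient.mk J s)) ∧
        Y.ρM a = Matrix.scalar _ (Ideal.Quotient.mk J s)) := by
  have hϖm : ϖ ∈ maximalIdeal O := by rw [hϖ]; exact Ideal.mem_span_singleton_self _
  obtain ⟨J, e, hJ, he1, he2⟩ := exists_GRJ (n := n) (n' := n') hϖ hpO hn X.P X.hP
  obtain ⟨D, hD1, hD2, hD3⟩ := X.exists_dat
  haveI : IsAdicComplete (maximalIdeal X.A) X.A :=
    IsLocalRing.isAdicComplete_of_module_finite (𝒪 := O)
  obtain ⟨G, hG1, hG2⟩ := h.univ X.A X.z X.hz X.Φ X.N fun j => (X.qd j).locI_le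
  have hGs : Function.Surjective G := h.surj hϖm (X.mem_of hϖm) G hG1 X.hz hG2 X.qd X.resA X.hgen
  let Y : MDat P (MvPowerSeries (Fin r) O ⧸ J) t ty q Φ N X.d X.dU X.dM :=
    (D.comp G.toRingHom (fun j => (hG2 j).1) (fun j => (hG2 j).2)).mapT e
  have hY1 : ∀ a, Y.ρ a = e.mapMatrix (X.f (G a)) := fun a => by
    change e.mapMatrix (D.ρ (G a)) = _
    rw [hD1]
    rfl
  have hY2 : ∀ j a, Y.ρU j a = e.mapMatrix (X.fU j (G a)) := fun j a => by
    change e.mapMatrix (D.ρU j (G a)) = _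
    rw [hD2]
    rfl
  have hY3 : ∀ a, Y.ρM a = e.mapMatrix (X.fM (G a)) := fun a => by
    change e.mapMatrix (D.ρM (G a)) = _
    rw [hD3]
    rfl
  refine ⟨J, e, G, Y, hJ, he1, he2, hGs, hG1, hG2, hY1, hY2, hY3, ?_⟩
  intro s hs
  rw [Patching.rs, List.mem_append, List.mem_map, List.mem_singleton] at hs
  obtain ⟨i, -, rfl⟩ | rfl := hs
  · obtain ⟨a, ha1, ha2, ha3⟩ := X.dia i
    obtain ⟨b, hb⟩ := hGs (a - 1)
    refine ⟨b, ?_, fun j => ?_, ?_⟩
    · rw [hY1, hb, map_sub, ha1, map_one, ← map_one (Matrix.scalar (Fin X.d)), ← map_sub,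
        mapMatrix_scalar, he1]
    · rw [hY2, hb, map_sub, ha2, map_one, ← map_one (Matrix.scalar (Fin (X.dU j))), ← map_sub,
        mapMatrix_scalar, he1]
    · rw [hY3, hb, map_sub, ha3, map_one, ← map_one (Matrix.scalar (Fin X.dM)), ← map_sub,
        mapMatrix_scalar, he1]
  · refine ⟨algebraMap O P ϖ, ?_, fun j => ?_, ?_⟩
    · rw [hY1, G.commutes, X.f.commutes, algebraMap_scalar, mapMatrix_scalar, he2]
    · rw [hY2, G.commutes, (X.fU j).commutes, algebraMap_scalar, mapMatrix_scalar, he2]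
    · rw [hY3, G.commutes, X.fM.commutes, algebraMap_scalar, mapMatrix_scalar, he2]

include hϖ hpO in
theorem RLev.out {c : O} {n n' : ℕ} (hn : n ≤ n') (X : RLev O ϖ p r g t B ty q ε c n')
    (h : IsFD O ϖ g t ty q ε P z Φ N) :
    ∃ (J : Ideal (MvPowerSeries (Fin r) O))
      (Y : MDat P (MvPowerSeries (Fin r) O ⧸ J) t ty q Φ N X.d X.dU X.dM) (x : P →+* O)
      (a : Fin r → P) (b : P),
      J ≤ maximalIdeal (MvPowerSeries (Fin r) O) ^ (n + 1) ∧
      (∀ s ∈ Patching.rs r ϖ, ∃ a, Y.ρ a = Matrix.scalar _ (Ideal.Quotient.mk J s) ∧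
        (∀ j, Y.ρU j a = Matrix.scalar _ (Ideal.Quotient.mk J s)) ∧
        Y.ρM a = Matrix.scalar _ (Ideal.Quotient.mk J s)) ∧
      (∀ j, ∀ y ∈ relQ (ty j) (q j) (Φ j) (N j), x y = 0) ∧
      (∀ j, ∀ y ∈ relC true (q j) (ε j) (Φ j) (N j), x y = 0) ∧
      (∀ i, Y.ρ (a i) = Matrix.scalar _ (Ideal.Quotient.mk J (MvPowerSeries.X i)) ∧
        x (a i) = 0) ∧
      (∀ i j, Y.ρ b i j ∈ (Ideal.span (Set.range MvPowerSeries.X)).map (Ideal.Quotient.mk J)) ∧
      x b = c := by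
  obtain ⟨J, e, G, Y, hJ, he1, he2, hGs, hG1, hG2, hY1, hY2, hY3, hdia⟩ :=
    X.toMLev.out hϖ hpO hn h
  choose a0 ha0 using X.hxdia
  choose a ha using fun i => hGs (a0 i - 1)
  obtain ⟨b, hb⟩ := hGs X.h
  let x : P →+* O := (X.x.comp G).toRingHom
  have hx : ∀ y, x y = X.x (G y) := fun _ => rfl
  refine ⟨J, Y, x, a, b, hJ, hdia, ?_, ?_, fun i => ⟨?_, ?_⟩, ?_, ?_⟩
  · intro j y hy
    have h1 := relQ_image G.toRingHom hy
    have h2 : (Φ j).map G.toRingHom = X.Φ j := (hG2 j).1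
    have h3 : (N j).map G.toRingHom = X.N j := (hG2 j).2
    rw [h2, h3] at h1
    have h4 := relQ_zero (X.qd j).rq h1
    have h5 : G y = 0 := h4
    rw [hx, h5, map_zero]
  · intro j
    rw [relC_map x]
    have h2 : (Φ j).map x = (X.Φ j).map X.x := by
      rw [← (hG2 j).1]
      rfl
    have h3 : (N j).map x = (X.N j).map X.x := by
      rw [← (hG2 j).2]
      rfl
    rw [h2, h3]
    refine ⟨fun _ => ?_, fun _ => ?_, fun h => Bool.noConfusion h⟩
    · exact (trace_map2 X.x.toRingHom (X.Φ j)).trans (X.hxΦ j)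
    · have h4 := X.hxN j
      have h5 : (X.N j).map X.x.toRingHom * ((X.Φ j).map X.x.toRingHom -
          (ε j : O) • (1 : Matrix (Fin 2) (Fin 2) O)) =
          (X.N j * (X.Φ j - (ε j : X.A) • (1 : Matrix (Fin 2) (Fin 2) X.A))).map
            X.x.toRingHom := by
        rw [← map_sub_smul_one, ← Matrix.map_mul]
      exact h5.trans h4
  · rw [hY1, ha, map_sub, (ha0 i).1, map_one, ← map_one (Matrix.scalar (Fin X.d)), ← map_sub,
      mapMatrix_scalar, he1]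
  · rw [hx, ha, map_sub, (ha0 i).2, map_one, sub_self]
  · intro i j
    rw [hY1, hb, RingHom.mapMatrix_apply, Matrix.map_apply]
    have h1 := Ideal.mem_map_of_mem e (X.hh i j)
    rw [Ideal.map_span, ← Set.range_comp] at h1
    rw [Ideal.map_span, ← Set.range_comp]
    have h2 : (e ∘ fun i => GR.δ O X.P i - 1) = (Ideal.Quotient.mk J ∘ MvPowerSeries.X) := by
      funext i
      exact he1 i
    rwa [h2] at h1
  · rw [hx, hb]
    exact X.hx

end out

include hϖ0 hϖ hpO in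
/-- **The modularity lifting theorem, abstract form (cases I and II).** -/
theorem lift_of_RLev (hq : ∀ j, ty j = Ty.sc → ϖ ∣ (q j : O) - 1) (hε : ∀ j, ε j ^ 2 = 1)
    (hq0 : ∀ j, q j ≠ 0) {c : O} (X : ∀ n, RLev O ϖ p r g t B ty q ε c n)
    (hr : g + ∑ j, (ty j).dl ≤ r) : c = 0 := by
  classical
  -- pigeonhole
  have hpig : ∃ (d : ℕ) (dU : Fin t → ℕ) (dM : ℕ), ∀ n, ∃ n', n ≤ n' ∧ (X n').d = d ∧
      (X n').dU = dU ∧ (X n').dM = dM := by
    obtain ⟨v, hv⟩ := exists_eventually_eq (α := Fin (B + 1) × (Fin t → Fin (B + 1)) × Fin (B + 1))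
      fun n => (⟨(X n).d, Nat.lt_succ_of_le (X n).hd⟩,
        fun j => ⟨(X n).dU j, Nat.lt_succ_of_le ((X n).hdU j)⟩,
        ⟨(X n).dM, Nat.lt_succ_of_le (X n).hdM.2⟩)
    refine ⟨v.1.1, fun j => (v.2.1 j).1, v.2.2.1, fun n => ?_⟩
    obtain ⟨n', h1, h2⟩ := ((hyper_of_atTop (eventually_ge_atTop n)).and hv).exists
    refine ⟨n', h1, ?_, ?_, ?_⟩
    · rw [← h2]
    · rw [← h2]
    · rw [← h2]
  obtain ⟨d, dU, dM, hpig⟩ := hpig
  obtain ⟨P, i1, i2, i3, z, Φ, N, hFD, hfin⟩ := exists_FD hϖ0 hϖ g t ty q ε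
  haveI := hFD.noe
  haveI := hFD.cpl
  let S := MvPowerSeries (Fin r) O
  have hdM : 0 < dM := by
    obtain ⟨n', -, -, -, h⟩ := hpig 0
    rw [← h]
    exact (X n').hdM.1
  have hlev : ∀ n, ∃ (J : Ideal S)
      (Y : MDat P (S ⧸ J) t ty q Φ N d dU dM) (x : P →+* O) (a : Fin r → P) (b : P),
      J ≤ maximalIdeal S ^ (n + 1) ∧
      (∀ s ∈ Patching.rs r ϖ, ∃ a, Y.ρ a = Matrix.scalar _ (Ideal.Quotient.mk J s) ∧
        (∀ j, Y.ρU j a = Matrix.scalar _ (Ideal.Quotient.mk J s)) ∧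
        Y.ρM a = Matrix.scalar _ (Ideal.Quotient.mk J s)) ∧
      (∀ j, ∀ y ∈ relQ (ty j) (q j) (Φ j) (N j), x y = 0) ∧
      (∀ j, ∀ y ∈ relC true (q j) (ε j) (Φ j) (N j), x y = 0) ∧
      (∀ i, Y.ρ (a i) = Matrix.scalar _ (Ideal.Quotient.mk J (MvPowerSeries.X i)) ∧
        x (a i) = 0) ∧
      (∀ i j, Y.ρ b i j ∈ (Ideal.span (Set.range MvPowerSeries.X)).map (Ideal.Quotient.mk J)) ∧
      x b = c := by
    intro n
    obtain ⟨n', hn, h1, h2, h3⟩ := hpig n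
    subst h1 h2 h3
    exact RLev.out hϖ hpO hn (X n') hFD
  choose J Y x a b hJ hdia hxQ hxC ha hb hc using hlev
  have hJ' : ∀ m, ∀ᶠ n in atTop, J n ≤ (maximalIdeal S) ^ m := by
    intro m
    filter_upwards [eventually_ge_atTop m] with n hn
    exact (hJ n).trans (Ideal.pow_le_pow_right (by omega))
  obtain ⟨Y', hY1, hY2, hY3⟩ := MDat.exists_lim hJ' Y
  have hreg := Patching.isWeaklyRegular_rs (R := O) (r := r) hϖ0
  have hmax := Patching.ofList_rs_eq_maximalIdeal (r := r) hϖ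
  have hrs : ∀ n, ∀ s ∈ Patching.rs r ϖ, ∃ a : P, (Y n).ρ a =
      Matrix.scalar (Fin d) (Ideal.Quotient.mk (J n) s) := fun n s hs => by
    obtain ⟨a, h1, -, -⟩ := hdia n s hs
    exact ⟨a, h1⟩
  have hG : Good Y'.ρ (Patching.rs r ϖ) := by
    rw [hY1]
    exact good_limHom hJ' hreg hmax _ hrs
  have hGU : ∀ j, Good (Y'.ρU j) (Patching.rs r ϖ) := by
    intro j
    rw [hY2]
    refine good_limHom hJ' hreg hmax _ fun n s hs => ?_
    obtain ⟨a, -, h1, -⟩ := hdia n s hs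
    exact ⟨a, h1 j⟩
  have hGM : Good Y'.ρM (Patching.rs r ϖ) := by
    rw [hY3]
    refine good_limHom hJ' hreg hmax _ fun n s hs => ?_
    obtain ⟨a, -, -, h1⟩ := hdia n s hs
    exact ⟨a, h1⟩
  obtain ⟨as, has⟩ := exists_lift_list (r := fun (a : P) (s : S) =>
      Y'.ρ a = Matrix.scalar _ s ∧ Y'.ρM a = Matrix.scalar _ s) (Patching.rs r ϖ) (by
    intro s hs
    choose a ha1 ha2 ha3 using fun n => hdia n s hs
    obtain ⟨L, hL⟩ := exists_LimP a
    refine ⟨L, ?_, ?_⟩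
    · rw [hY1]
      exact lim_scalar hJ' _ hL ha1
    · rw [hY3]
      exact lim_scalar hJ' _ hL ha3)
  have hlen : 1 + g + ∑ j, (ty j).dl ≤ (Patching.rs r ϖ).length := by
    rw [Patching.length_rs]
    omega
  obtain ⟨𝔮, h𝔮, hρ𝔮⟩ := Y'.chain hϖ0 hϖ hq hε hq0 hFD hdM hG hGU hGM has hlen
  have hdne : Nonempty (Fin d) := by
    by_contra hcon
    rw [not_nonempty_iff] at hcon
    have h1 := Y'.hl0
    have h2 : Y'.l0 * Y'.j0 = 0 := by
      refine Matrix.ext fun i j => ?_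
      rw [Matrix.mul_apply, Matrix.zero_apply]
      exact Finset.sum_eq_zero fun k _ => hcon.elim k
    rw [h2] at h1
    have h3 := congrFun (congrFun h1 ⟨0, hdM⟩) ⟨0, hdM⟩
    rw [Matrix.zero_apply, Matrix.one_apply_eq] at h3
    exact zero_ne_one h3
  have hlimpt : ∀ y : P, (∀ n, x n y = 0) → limPt x y = 0 := fun y hy =>
    limPt_eq x (LimS.const hbot y) hy
  have h𝔮x : 𝔮 ≤ RingHom.ker (limPt x) := by
    refine h𝔮.le _ (RingHom.ker_ne_top _) (fun j y hy => ?_) (fun j y hy => ?_)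
    · exact hlimpt y fun n => hxQ n j y hy
    · exact hlimpt y fun n => hxC n j y hy
  refine eq_zero_of_limit (κ := Fin d) hJ' hreg hmax (fun n => (Y n).ρ) hrs x
    (MvPowerSeries.X : Fin r → S) (fun i n => a n i) (fun i n => (ha n i).1)
    (fun i n => (ha n i).2) ?_ b (fun n i j => hb n i j) c hc
  intro y hy
  have h1 : Y'.ρ y = 0 := by rw [hY1]; exact hy
  exact h𝔮x (hρ𝔮 y h1)

end Fermat.Agent.StR
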