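import Mathlib
import Fermat.Agent.Patch.Dim

/-!
# Supports of modules with a long regular sequence
-/

set_option autoImplicit false
set_option linter.unusedSectionVars false
set_option linter.style.haveILetI false

namespace Fermat.Agent.StR

open IsLocalRing RingTheory.Sequence Module Fermat.Agent.Patch
open scoped Pointwise

universe u v

section reg

variable {P : Type u} [CommRing P] [IsLocalRing P] [IsNoetherianRing P]

/-- A nonzero submodule of a module with a regular sequence of length `n` has dimension `≥ n`. -/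
theorem length_le_supportDim (as : List P) (has : ∀ a ∈ as, a ∈ maximalIdeal P)
    (Q : Type v) [AddCommGroup Q] [Module P Q] [Module.Finite P Q] (hreg : IsWeaklyRegular Q as)
    (N : Submodule P Q) (hN : N ≠ ⊥) : (as.length : WithBot ℕ∞) ≤ supportDim P N := by
  induction as generalizing Q with
  | nil =>
    haveI : Nontrivial N := (Submodule.nontrivial_iff_ne_bot).2 hN
    haveI : Nonempty (Module.support P N) := nonempty_support_of_nontrivial.to_subtype
    have h0 : (0 : WithBot ℕ∞) ≤ supportDim P N := Order.krullDim_nonneg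
    simpa using h0
  | cons a as ih =>
    have ha : a ∈ maximalIdeal P := has a (List.mem_cons_self)
    rw [isWeaklyRegular_cons_iff] at hreg
    obtain ⟨hra, hreg'⟩ := hreg
    -- the saturation of `N`
    let f : ℕ → Submodule P Q := fun k => N.comap (LinearMap.lsmul P Q (a ^ k))
    have hf : ∀ k x, x ∈ f k ↔ a ^ k • x ∈ N := fun k x => Iff.rfl
    have hmono : Monotone f := by
      intro k l hkl x hx
      rw [hf] at hx ⊢
      obtain ⟨c, rfl⟩ := Nat.exists_eq_add_of_le hkl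
      rw [pow_add, mul_comm, mul_smul]
      exact N.smul_mem _ hx
    haveI : IsNoetherian P Q := isNoetherian_of_isNoetherianRing_of_finite P Q
    obtain ⟨k, hk⟩ := monotone_stabilizes_iff_noetherian.2 (inferInstance : IsNoetherian P Q)
      ⟨f, hmono⟩
    set Ns : Submodule P Q := f k with hNs
    have hNle : N ≤ Ns := by
      intro x hx
      rw [hNs, hf]
      exact N.smul_mem _ hx
    have hsat : ∀ x, a • x ∈ Ns → x ∈ Ns := by
      intro x hx
      have h1 : x ∈ f (k + 1) := by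
        rw [hf, pow_succ, mul_smul]
        exact hx
      have h2 := hk (k + 1) (Nat.le_succ k)
      change f k = f (k + 1) at h2
      rw [hNs, h2]
      exact h1
    have hNs0 : Ns ≠ ⊥ := fun h => hN (by rw [eq_bot_iff, ← h]; exact hNle)
    -- the image of the saturation in the quotient
    let π : Q →ₗ[P] QuotSMulTop a Q := Submodule.mkQ _
    let N2 : Submodule P (QuotSMulTop a Q) := Ns.map π
    have hπ : ∀ x, π x = 0 ↔ ∃ y, a • y = x := by
      intro x
      change Submodule.mkQ _ x = 0 ↔ _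
      rw [Submodule.mkQ_apply, Submodule.Quotient.mk_eq_zero, Submodule.mem_smul_pointwise_iff_exists]
      simp
    -- the equivalence with `Ns / a Ns`
    let g : Ns →ₗ[P] N2 := π.submoduleMap Ns
    have hgs : Function.Surjective g := π.submoduleMap_surjective Ns
    have hgk : LinearMap.ker g = a • (⊤ : Submodule P Ns) := by
      ext x
      rw [LinearMap.mem_ker, Submodule.mem_smul_pointwise_iff_exists]
      constructor
      · intro hx
        have h1 : π x = 0 := congrArg Subtype.val hx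
        obtain ⟨y, hy⟩ := (hπ _).1 h1
        have hy2 : y ∈ Ns := hsat y (by rw [hy]; exact x.2)
        exact ⟨⟨y, hy2⟩, trivial, Subtype.ext hy⟩
      · rintro ⟨y, -, rfl⟩
        apply Subtype.ext
        exact (hπ _).2 ⟨(y : Q), rfl⟩
    let e : QuotSMulTop a Ns ≃ₗ[P] N2 :=
      (Submodule.quotEquivOfEq _ _ hgk.symm).trans (g.quotKerEquivOfSurjective hgs)
    have hra' : IsSMulRegular Ns a := by
      intro x y hxy
      apply Subtype.ext
      exact hra (congrArg Subtype.val hxy)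
    haveI : Module.Finite P Ns := inferInstance
    have hN20 : N2 ≠ ⊥ := by
      intro h
      have h1 : (a • (⊤ : Submodule P Ns)) = ⊤ := by
        rw [← hgk, LinearMap.ker_eq_top]
        refine LinearMap.ext fun x => ?_
        have h2 : ∀ y ∈ N2, y = 0 := fun y hy => by rwa [h, Submodule.mem_bot] at hy
        exact Subtype.ext (h2 _ (g x).2)
      have h2 : (⊤ : Submodule P Ns) ≤ maximalIdeal P • (⊤ : Submodule P Ns) := by
        conv_lhs => rw [← h1]
        intro x hx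
        obtain ⟨y, -, rfl⟩ := (Submodule.mem_smul_pointwise_iff_exists _ _ _).1 hx
        exact Submodule.smul_mem_smul ha trivial
      have h3 : (⊤ : Submodule P Ns) = ⊥ :=
        Submodule.eq_bot_of_le_smul_of_le_jacobson_bot (maximalIdeal P) ⊤ Module.Finite.fg_top h2
          (maximalIdeal_le_jacobson _)
      apply hNs0
      rw [eq_bot_iff]
      intro x hx
      have h4 : (⟨x, hx⟩ : Ns) ∈ (⊤ : Submodule P Ns) := trivial
      rw [h3, Submodule.mem_bot] at h4
      exact congrArg Subtype.val h4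
    have h1 := ih (fun b hb => has b (List.mem_cons_of_mem _ hb)) (QuotSMulTop a Q) hreg' N2 hN20
    have h2 : supportDim P N2 + 1 = supportDim P Ns := by
      rw [← supportDim_eq_of_equiv e]
      exact supportDim_quotSMulTop_succ_eq_supportDim hra' ha
    -- `Ns` embeds into `N`
    have h3 : supportDim P Ns ≤ supportDim P N := by
      let ψ : Ns →ₗ[P] N := (LinearMap.lsmul P Q (a ^ k)).restrict (fun x hx => hx)
      refine supportDim_le_of_injective ψ ?_
      intro x y hxy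
      apply Subtype.ext
      have h4 : a ^ k • (x : Q) = a ^ k • (y : Q) := congrArg Subtype.val hxy
      exact hra.pow k h4
    calc ((a :: as).length : WithBot ℕ∞) = (as.length : WithBot ℕ∞) + 1 := by
          rw [List.length_cons]; push_cast; rfl
      _ ≤ supportDim P N2 + 1 := by gcongr
      _ = supportDim P Ns := h2
      _ ≤ supportDim P N := h3

/-- Submodules killed by a prime of the right dimension. -/
theorem annihilator_eq_of_le {as : List P} (has : ∀ a ∈ as, a ∈ maximalIdeal P)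
    {Q : Type v} [AddCommGroup Q] [Module P Q] [Module.Finite P Q] (hreg : IsWeaklyRegular Q as)
    (N : Submodule P Q) (hN : N ≠ ⊥) (𝔮 : Ideal P) [h𝔮 : 𝔮.IsPrime]
    (hdim : ringKrullDim (P ⧸ 𝔮) ≤ as.length) (h : ∀ b ∈ 𝔮, ∀ x ∈ N, b • x = 0) :
    annihilator P Q ≤ 𝔮 := by
  haveI : IsNoetherian P Q := isNoetherian_of_isNoetherianRing_of_finite P Q
  intro b hb
  by_contra hb𝔮
  have h1 := length_le_supportDim as has Q hreg N hN
  rw [supportDim_eq_ringKrullDim_quotient_annihilator] at h1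
  have hbN : b ∈ annihilator P N := by
    rw [mem_annihilator]
    intro x
    apply Subtype.ext
    exact (mem_annihilator.1 hb) x
  have h𝔮N : 𝔮 ≤ annihilator P N := by
    intro c hc
    rw [mem_annihilator]
    intro x
    apply Subtype.ext
    exact h c hc x x.2
  have h2 : ringKrullDim (P ⧸ annihilator P N) ≤
      ringKrullDim ((P ⧸ 𝔮) ⧸ Ideal.span {Ideal.Quotient.mk 𝔮 b}) := by
    refine ringKrullDim_le_of_surjective
      (Ideal.Quotient.lift (Ideal.span {Ideal.Quotient.mk 𝔮 b})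
        (Ideal.Quotient.factor h𝔮N) ?_) ?_
    · intro x hx
      obtain ⟨y, rfl⟩ := Ideal.mem_span_singleton.1 hx
      rw [map_mul, Ideal.Quotient.factor_mk, Ideal.Quotient.eq_zero_iff_mem.2 hbN, zero_mul]
    · exact Ideal.Quotient.lift_surjective_of_surjective _ _
        (Ideal.Quotient.factor_surjective h𝔮N)
  have h3 := ringKrullDim_quotient_succ_le_of_nonZeroDivisor (R := P ⧸ 𝔮)
    (r := Ideal.Quotient.mk 𝔮 b)
    (mem_nonZeroDivisors_of_ne_zero (fun h => hb𝔮 (Ideal.Quotient.eq_zero_iff_mem.1 h)))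
  have h4 : (as.length : WithBot ℕ∞) + 1 ≤ as.length :=
    calc (as.length : WithBot ℕ∞) + 1 ≤
          ringKrullDim ((P ⧸ 𝔮) ⧸ Ideal.span {Ideal.Quotient.mk 𝔮 b}) + 1 := by
          gcongr; exact h1.trans h2
      _ ≤ ringKrullDim (P ⧸ 𝔮) := h3
      _ ≤ as.length := hdim
  have h5 : (as.length + 1 : ℕ) ≤ as.length := by exact_mod_cast h4
  omega

/-- a prime-avoidance lemma -/
theorem exists_mul_mem {𝔭 J : Ideal P} [h𝔭 : 𝔭.IsPrime] {b : P}
    (h : ∀ 𝔯 : Ideal P, 𝔯.IsPrime → J ≤ 𝔯 → 𝔯 ≤ 𝔭 → b ∈ 𝔯) : ∃ s ∉ 𝔭, s * b ∈ J.radical := by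
  by_contra hcon
  push Not at hcon
  let M : Submonoid P :=
    { carrier := {x | ∃ s ∉ 𝔭, ∃ k : ℕ, x = s * b ^ k}
      one_mem' := ⟨1, fun h1 => h𝔭.ne_top (𝔭.eq_top_iff_one.2 h1), 0, by simp⟩
      mul_mem' := by
        rintro _ _ ⟨s, hs, k, rfl⟩ ⟨s', hs', k', rfl⟩
        exact ⟨s * s', fun h1 => (h𝔭.mem_or_mem h1).elim hs hs', k + k', by ring⟩ }
  have hdisj : Disjoint (J : Set P) M := by
    rw [Set.disjoint_left]
    rintro _ hx ⟨s, hs, k, rfl⟩
    apply hcon s hs
    refine ⟨k + 1, ?_⟩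
    have e : (s * b) ^ (k + 1) = (s ^ k * b) * (s * b ^ k) := by ring
    rw [e]
    exact J.mul_mem_left _ hx
  obtain ⟨𝔯, h1, h2, h3⟩ := Ideal.exists_le_prime_disjoint J M hdisj
  have h4 : b ∈ 𝔯 := by
    refine h 𝔯 h1 h2 ?_
    intro x hx
    by_contra hx2
    exact (Set.disjoint_left.1 h3) hx ⟨x, hx2, 0, by simp⟩
  exact (Set.disjoint_left.1 h3) h4
    ⟨1, fun h5 => h𝔭.ne_top (𝔭.eq_top_iff_one.2 h5), 1, by simp⟩

/-- **The component through a point.** -/
theorem annihilator_le_of_local {as : List P} (has : ∀ a ∈ as, a ∈ maximalIdeal P)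
    {Q : Type v} [AddCommGroup Q] [Module P Q] [Module.Finite P Q] (hreg : IsWeaklyRegular Q as)
    (𝔭 𝔮 : Ideal P) [h𝔭 : 𝔭.IsPrime] [h𝔮 : 𝔮.IsPrime] (hQ𝔭 : annihilator P Q ≤ 𝔭)
    (hdim : ringKrullDim (P ⧸ 𝔮) ≤ as.length)
    (h : ∀ 𝔯 : Ideal P, 𝔯.IsPrime → annihilator P Q ≤ 𝔯 → 𝔯 ≤ 𝔭 → 𝔮 ≤ 𝔯) :
    annihilator P Q ≤ 𝔮 := by
  classical
  obtain ⟨S, hS⟩ := (isNoetherianRing_iff_ideal_fg P).1 inferInstance 𝔮
  -- a common multiplier
  have h1 : ∀ b ∈ S, ∃ s ∉ 𝔭, s * b ∈ (annihilator P Q).radical := fun b hb =>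
    exists_mul_mem fun 𝔯 h1 h2 h3 => h 𝔯 h1 h2 h3 (by rw [← hS]; exact Ideal.subset_span hb)
  choose! s hs hs2 using h1
  let σ : P := ∏ b ∈ S, s b
  have hσ : σ ∉ 𝔭 := by
    intro hmem
    obtain ⟨b, hb, hb2⟩ := (Ideal.IsPrime.prod_mem_iff).1 hmem
    exact hs b hb hb2
  have hσb : Ideal.span {σ} * 𝔮 ≤ (annihilator P Q).radical := by
    rw [← hS, Ideal.span_mul_span', Ideal.span_le]
    rintro _ ⟨x, hx, b, hb, rfl⟩
    rw [Set.mem_singleton_iff] at hx
    subst hx
    have e : σ * b = (∏ c ∈ S.erase b, s c) * (s b * b) := by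
      change (∏ c ∈ S, s c) * b = _
      rw [← Finset.mul_prod_erase S s hb]
      ring
    simp only [SetLike.mem_coe]
    rw [e]
    exact Ideal.mul_mem_left _ _ (hs2 b hb)
  obtain ⟨m, hm⟩ := Ideal.exists_pow_le_of_le_radical_of_fg hσb
    ((isNoetherianRing_iff_ideal_fg P).1 inferInstance _)
  rw [mul_pow] at hm
  -- the submodule
  let Q1 : Submodule P Q := Ideal.span {σ ^ m} • ⊤
  have hQ1 : Q1 ≠ ⊥ := by
    intro h0
    have h2 : σ ^ m ∈ annihilator P Q := by
      rw [mem_annihilator]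
      intro x
      have h3 : σ ^ m • x ∈ Q1 := Submodule.smul_mem_smul (Ideal.mem_span_singleton_self _) trivial
      rwa [h0, Submodule.mem_bot] at h3
    exact hσ (h𝔭.mem_of_pow_mem _ (hQ𝔭 h2))
  have hkill : 𝔮 ^ m • Q1 = ⊥ := by
    rw [← mul_smul, eq_bot_iff]
    refine Submodule.smul_le.2 fun a ha x _ => ?_
    have h2 : a ∈ annihilator P Q := by
      apply hm
      rw [Ideal.span_singleton_pow, mul_comm]
      exact ha
    rw [mem_annihilator.1 h2, Submodule.mem_bot]
  have hex : ∃ j, 𝔮 ^ j • Q1 = ⊥ := ⟨m, hkill⟩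
  let j := Nat.find hex
  have hj : 𝔮 ^ j • Q1 = ⊥ := Nat.find_spec hex
  have hj0 : j ≠ 0 := by
    intro h0
    rw [h0, pow_zero, Ideal.one_eq_top, Submodule.top_smul] at hj
    exact hQ1 hj
  obtain ⟨i, hi⟩ := Nat.exists_eq_succ_of_ne_zero hj0
  have hi1 : 𝔮 ^ i • Q1 ≠ ⊥ := Nat.find_min hex (by rw [show Nat.find hex = j from rfl]; omega)
  refine annihilator_eq_of_le has hreg (𝔮 ^ i • Q1) hi1 𝔮 hdim fun b hb x hx => ?_
  have h4 : b • x ∈ 𝔮 • (𝔮 ^ i • Q1) := Submodule.smul_mem_smul hb hx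
  rw [← mul_smul, ← pow_succ', ← Nat.succ_eq_add_one, ← hi, hj, Submodule.mem_bot] at h4
  exact h4

/-- **The module of new forms is supported at the points where the operator degenerates.** -/
theorem annihilator_coker_le {U V : Type v} [AddCommGroup U] [Module P U] [Module.Finite P U]
    [AddCommGroup V] [Module P V]
    (i1 i2 : U →ₗ[P] V) (s1 s2 : V →ₗ[P] U) (hsurj : ∀ x y, ∃ v, s1 v = x ∧ s2 v = y) (α T : P)
    (h11 : ∀ x, s1 (i1 x) = α • x) (h12 : ∀ x, s1 (i2 x) = T • x)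
    (h21 : ∀ x, s2 (i1 x) = T • x) (h22 : ∀ x, s2 (i2 x) = α • x)
    (𝔭 : Ideal P) [h𝔭 : 𝔭.IsPrime] (hU : annihilator P U ≤ 𝔭) (hα : α ∉ 𝔭)
    (hD : T ^ 2 - α ^ 2 ∈ 𝔭) :
    annihilator P (V ⧸ (LinearMap.range i1 ⊔ LinearMap.range i2)) ≤ 𝔭 := by
  intro b hb
  by_contra hb𝔭
  have h1 : ∀ v : V, ∃ x y, b • v = i1 x + i2 y := by
    intro v
    have h2 := (mem_annihilator.1 hb) (Submodule.mkQ _ v)
    rw [← map_smul, Submodule.mkQ_apply, Submodule.Quotient.mk_eq_zero] at h2
    obtain ⟨_, ⟨x, rfl⟩, _, ⟨y, rfl⟩, h3⟩ := Submodule.mem_sup.1 h2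
    exact ⟨x, y, h3.symm⟩
  have h2 : ∀ x : U, ∃ x' : U, (α * b) • x = (T ^ 2 - α ^ 2) • x' := by
    intro x
    obtain ⟨v, hv1, hv2⟩ := hsurj x 0
    obtain ⟨x', y', h3⟩ := h1 v
    have e1 : b • x = α • x' + T • y' := by
      rw [← hv1, ← map_smul, h3, map_add, h11, h12]
    have e2 : T • x' + α • y' = 0 := by
      rw [← h21, ← h22, ← map_add, ← h3, map_smul, hv2, smul_zero]
    refine ⟨-x', ?_⟩
    have e3 : α • y' = -(T • x') := by
      rw [eq_neg_iff_add_eq_zero, add_comm]; exact e2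
    rw [mul_smul, e1, smul_add, smul_smul, smul_comm α T y', e3, smul_neg, smul_neg, smul_smul,
      sub_smul]
    rw [show α * α = α ^ 2 by ring, show T * T = T ^ 2 by ring]
    abel
  have h3 : (LinearMap.lsmul P U (α * b)).range ≤
      Ideal.span {T ^ 2 - α ^ 2} • (⊤ : Submodule P U) := by
    rintro _ ⟨x, rfl⟩
    obtain ⟨x', hx'⟩ := h2 x
    rw [LinearMap.lsmul_apply, hx']
    exact Submodule.smul_mem_smul (Ideal.mem_span_singleton_self _) trivial
  obtain ⟨q, hq, _, hq2, hq3⟩ :=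
    LinearMap.exists_monic_and_natDegree_eq_and_coeff_mem_pow_and_aeval_eq_zero P _ _ h3
  have h4 : q.eval (α * b) ∈ annihilator P U := by
    rw [mem_annihilator]
    intro v
    have h4 := LinearMap.congr_fun hq3 v
    have h5 : Polynomial.aeval (LinearMap.lsmul P U (α * b)) q =
        LinearMap.lsmul P U (q.eval (α * b)) := by
      have : LinearMap.lsmul P U (α * b) = Algebra.lsmul P P U (α * b) := rfl
      rw [this, Polynomial.aeval_algHom_apply]
      simp
      rfl
    rw [h5] at h4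
    exact h4
  have h5 := hU h4
  rw [Polynomial.eval_eq_sum_range, Finset.sum_range_succ] at h5
  have h6 : ∑ i ∈ Finset.range q.natDegree, q.coeff i * (α * b) ^ i ∈ 𝔭 := by
    refine Ideal.sum_mem _ fun i hi => ?_
    rw [Finset.mem_range] at hi
    have h8 : q.coeff i ∈ Ideal.span {T ^ 2 - α ^ 2} :=
      (Ideal.pow_le_self (by omega)) (hq2 i)
    exact Ideal.mul_mem_right _ _ ((Ideal.span_singleton_le_iff_mem 𝔭).2 hD h8)
  have h7 := (Ideal.add_mem_iff_right 𝔭 h6).1 h5
  have h8 : q.coeff q.natDegree = 1 := hq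
  rw [h8, one_mul] at h7
  exact (h𝔭.mem_or_mem (h𝔭.mem_of_pow_mem _ h7)).elim hα hb𝔭

/-- annihilators in the sequence `U × U → V → Q → 0` -/
theorem annihilator_le_or {U V : Type v} [AddCommGroup U] [Module P U]
    [AddCommGroup V] [Module P V] (i1 i2 : U →ₗ[P] V) (𝔮 : Ideal P) [h𝔮 : 𝔮.IsPrime]
    (hV : annihilator P V ≤ 𝔮)
    (hQ : ¬ annihilator P (V ⧸ (LinearMap.range i1 ⊔ LinearMap.range i2)) ≤ 𝔮) :
    annihilator P U ≤ 𝔮 := by
  intro a ha
  obtain ⟨b, hb, hb𝔮⟩ := SetLike.not_le_iff_exists.1 hQ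
  refine (h𝔮.mem_or_mem (hV ?_ : a * b ∈ 𝔮)).resolve_right hb𝔮
  rw [mem_annihilator]
  intro v
  have h2 := (mem_annihilator.1 hb) (Submodule.mkQ _ v)
  rw [← map_smul, Submodule.mkQ_apply, Submodule.Quotient.mk_eq_zero] at h2
  obtain ⟨_, ⟨x, rfl⟩, _, ⟨y, rfl⟩, h3⟩ := Submodule.mem_sup.1 h2
  rw [mul_smul, ← h3, smul_add, ← map_smul, ← map_smul, mem_annihilator.1 ha, mem_annihilator.1 ha,
    map_zero, map_zero, add_zero]

end reg

end Fermat.Agent.StR
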