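import Fermat.Agent.StR.Big
import Fermat.Agent.StR.Supp

/-!
# The chain of components
-/

set_option autoImplicit false
set_option linter.unusedSectionVars false
set_option linter.style.haveILetI false

namespace Fermat.Agent.StR

open IsLocalRing Matrix Module RingTheory.Sequence

section points

variable {O : Type} [CommRing O] [IsDomain O] [IsLocalRing O] [CharZero O] {ϖ : O}
  {ty : Ty} {q : ℕ} {ε : ℤ}

theorem q_mem' (hϖ : ϖ ∈ maximalIdeal O) (hq : ϖ ∣ (q : O) - 1) : (q : O) - 1 ∈ maximalIdeal O := by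
  obtain ⟨c, hc⟩ := hq
  rw [hc]
  exact Ideal.mul_mem_right _ _ hϖ

theorem exists_stPt' (hϖ : ϖ ∈ maximalIdeal O) (hq : ty = Ty.sc → ϖ ∣ (q : O) - 1)
    (hε : ε ^ 2 = 1) {w : O} (hw : w ∈ maximalIdeal O) :
    ∃ Φ N : Matrix (Fin 2) (Fin 2) O, LR true ty q ε Φ N ∧ (w ≠ 0 → ∃ i j, N i j ≠ 0) ∧
      (w = 0 → N = 0) := by
  cases ty
  · have hd := q_mem' hϖ (hq rfl)
    refine ⟨_, _, lr_sc_st (a := (q : O) - 1) (b := 0) (c := 0) (x := 0) (z := 0) (w := w)
      (d := (q : O) - 1) q ε (cast_sq hε O) rfl hd (zero_mem _) (zero_mem _) (zero_mem _)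
      (zero_mem _) hw hd (by ring) (by ring) (by ring) (by ring) (by ring) (by ring),
      fun h => ⟨0, 1, ?_⟩, fun h => ?_⟩
    · simpa using h
    · refine Matrix.ext fun i j => ?_
      subst h
      fin_cases i <;> fin_cases j <;> simp
  · refine ⟨_, _, lr_ns_st q ε (cast_sq hε O) hw, fun h => ⟨0, 0, h⟩, fun h => ?_⟩
    refine Matrix.ext fun i j => ?_
    subst h
    fin_cases i <;> fin_cases j <;> simp

theorem exists_stPt (hϖ0 : ϖ ≠ 0) (hϖ : ϖ ∈ maximalIdeal O) (hq : ty = Ty.sc → ϖ ∣ (q : O) - 1)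
    (hε : ε ^ 2 = 1) :
    ∃ Φ N : Matrix (Fin 2) (Fin 2) O, LR true ty q ε Φ N ∧ ∃ i j, N i j ≠ 0 := by
  obtain ⟨Φ, N, h1, h2, -⟩ := exists_stPt' hϖ hq hε hϖ
  exact ⟨Φ, N, h1, h2 hϖ0⟩

theorem exists_badPt (hϖ : ϖ ∈ maximalIdeal O) (hq : ty = Ty.sc → ϖ ∣ (q : O) - 1)
    (hε : ε ^ 2 = 1) : ∃ Φ : Matrix (Fin 2) (Fin 2) O, LR true ty q ε Φ 0 := by
  obtain ⟨Φ, N, h1, -, h2⟩ := exists_stPt' hϖ hq hε (zero_mem (maximalIdeal O))
  rw [h2 rfl] at h1
  exact ⟨Φ, h1⟩

theorem exists_urPt (hϖ0 : ϖ ≠ 0) (hϖ : ϖ ∈ maximalIdeal O) (hq : ty = Ty.sc → ϖ ∣ (q : O) - 1)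
    (hε : ε ^ 2 = 1) :
    ∃ Φ : Matrix (Fin 2) (Fin 2) O, LR false ty q ε Φ 0 ∧
      Φ.trace ^ 2 - ((q : O) + 1) ^ 2 ≠ 0 := by
  have e2 := cast_sq hε O
  -- choose the parameter
  have key : ∀ a b : O, a ∈ maximalIdeal O → b ∈ maximalIdeal O → a ≠ 0 → b ≠ 0 → a ≠ b →
      ∀ c : O, (a * (c + a) ≠ 0) ∨ (b * (c + b) ≠ 0) := by
    intro a b _ _ ha hb hab c
    by_contra hcon
    push Not at hcon
    have h1 := (mul_eq_zero.1 hcon.1).resolve_left ha
    have h2 := (mul_eq_zero.1 hcon.2).resolve_left hb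
    apply hab
    linear_combination h1 - h2
  have hu : ∀ x : O, x ∈ maximalIdeal O → x ≠ 1 := by
    rintro x hx rfl
    exact (Ideal.ne_top_iff_one _).1 (maximalIdeal.isMaximal O).ne_top hx
  have hϖ2 : ϖ ^ 2 ∈ maximalIdeal O := Ideal.pow_mem_of_mem _ hϖ 2 two_pos
  have hne : ϖ ≠ ϖ ^ 2 := by
    intro h
    have h1 : ϖ * (1 - ϖ) = 0 := by linear_combination h
    rcases mul_eq_zero.1 h1 with h2 | h2
    · exact hϖ0 h2
    · exact hu ϖ hϖ (by linear_combination -h2)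
  cases ty
  · -- scalar case: `b = c`, trace `ε (q + 1 + b c)`
    have h1 : ∀ b : O, b ∈ maximalIdeal O → ∃ Φ : Matrix (Fin 2) (Fin 2) O,
        LR false Ty.sc q ε Φ 0 ∧ Φ.trace = ε * (q + 1 + ϖ * b) := by
      intro b hb
      refine ⟨_, lr_sc_ur q ε e2 (zero_mem _) hϖ hb (e := q + ϖ * b) (by ring)
        (q_mem' hϖ (hq rfl)), ?_⟩
      rw [Matrix.trace_fin_two]
      m22
      ring
    have hsq : ∀ x : O, ((ε : O) * (q + 1 + x)) ^ 2 - ((q : O) + 1) ^ 2 =
        x * (2 * (q + 1) + x) := by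
      intro x
      linear_combination (q + 1 + x) ^ 2 * e2
    rcases key (ϖ * ϖ) (ϖ * ϖ ^ 2) (Ideal.mul_mem_left _ _ hϖ) (Ideal.mul_mem_left _ _ hϖ2)
      (mul_ne_zero hϖ0 hϖ0) (mul_ne_zero hϖ0 (pow_ne_zero 2 hϖ0))
      (fun h => hne (mul_left_cancel₀ hϖ0 h)) (2 * (q + 1)) with h2 | h2
    · obtain ⟨Φ, h3, h4⟩ := h1 ϖ hϖ
      refine ⟨Φ, h3, ?_⟩
      rw [h4, hsq]
      exact h2
    · obtain ⟨Φ, h3, h4⟩ := h1 (ϖ ^ 2) hϖ2
      refine ⟨Φ, h3, ?_⟩
      rw [h4, hsq]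
      exact h2
  · have h1 : ∀ x : O, x ∈ maximalIdeal O → ∃ Φ : Matrix (Fin 2) (Fin 2) O,
        LR false Ty.ns q ε Φ 0 ∧ Φ.trace = ε * (q + 1) + x := by
      intro x hx
      refine ⟨_, lr_ns_ur q ε hx, ?_⟩
      rw [Matrix.trace_fin_two]
      m22
      ring
    have hsq : ∀ x : O, ((ε : O) * (q + 1) + x) ^ 2 - ((q : O) + 1) ^ 2 =
        x * (2 * ε * (q + 1) + x) := by
      intro x
      linear_combination (q + 1) ^ 2 * e2
    rcases key ϖ (ϖ ^ 2) hϖ hϖ2 hϖ0 (pow_ne_zero 2 hϖ0) hne (2 * ε * (q + 1)) with h2 | h2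
    · obtain ⟨Φ, h3, h4⟩ := h1 ϖ hϖ
      refine ⟨Φ, h3, ?_⟩
      rw [h4, hsq]
      exact h2
    · obtain ⟨Φ, h3, h4⟩ := h1 (ϖ ^ 2) hϖ2
      refine ⟨Φ, h3, ?_⟩
      rw [h4, hsq]
      exact h2

end points

section dom

variable {B : Type} [CommRing B] [IsDomain B] {ty : Ty} {q : ℕ} {ε : ℤ}
  {Φ N : Matrix (Fin 2) (Fin 2) B}

theorem RQ.rc_true' (h : RQ ty q Φ N) (hε : ε ^ 2 = 1) (hq : (q : B) ≠ 0) (hq1 : (q : B) + 1 ≠ 0)
    (hne : Φ.trace + ε * (q + 1) ≠ 0)
    (hor : (∃ a b, N a b ≠ 0) ∨ Φ.trace ^ 2 - ((q : B) + 1) ^ 2 = 0) : RC true q ε Φ N := by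
  have e2 := cast_sq hε B
  have hD : Φ.trace ^ 2 - ((q : B) + 1) ^ 2 = 0 := by
    rcases hor with ⟨a, b, hab⟩ | h1
    · exact (mul_eq_zero.1 (h.D_mul hq a b)).resolve_right hab
    · exact h1
  refine h.rc_true hq1 ?_
  have h2 : (Φ.trace + ε * (q + 1)) * (Φ.trace - ε * (q + 1)) = 0 := by
    linear_combination hD - (q + 1) ^ 2 * e2
  exact sub_eq_zero.1 ((mul_eq_zero.1 h2).resolve_left hne)

theorem RQ.rc_false' (h : RQ ty q Φ N) (hq : (q : B) ≠ 0)
    (hD : Φ.trace ^ 2 - ((q : B) + 1) ^ 2 ≠ 0) : RC false q ε Φ N := by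
  refine ⟨fun h => Bool.noConfusion h, fun h => Bool.noConfusion h, fun _ => ?_⟩
  refine Matrix.ext fun a b => ?_
  exact (mul_eq_zero.1 (h.D_mul hq a b)).resolve_left hD

end dom

section chain

variable {O : Type} [CommRing O] [IsDomain O] [IsLocalRing O] [IsNoetherianRing O] [CharZero O]
  [IsAdicComplete (maximalIdeal O) O] {ϖ : O} {g t : ℕ} {ty : Fin t → Ty} {q : Fin t → ℕ}
  {ε : Fin t → ℤ} {P : Type} [CommRing P] [IsLocalRing P] [Algebra O P] {z : Fin g → P}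
  {Φ N : Fin t → Matrix (Fin 2) (Fin 2) P}

/-- points of the big ring -/
theorem IsFD.exists_pt (h : IsFD O ϖ g t ty q ε P z Φ N) (C : Fin t → Bool)
    (Φ' N' : Fin t → Matrix (Fin 2) (Fin 2) O)
    (hLR : ∀ j, LR (C j) (ty j) (q j) (ε j) (Φ' j) (N' j)) :
    ∃ x : P →ₐ[O] O, (∀ i, x (z i) = 0) ∧ ∀ j, (Φ j).map x = Φ' j ∧ (N j).map x = N' j :=
  h.univ O (fun _ => 0) (fun _ => zero_mem _) Φ' N' fun j => (hLR j).qd.locI_le

theorem IsComp.le_ker {C : Fin t → Bool} {𝔮 : Ideal P} (h : IsComp O g t ty q ε Φ N C 𝔮)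
    (x : P →ₐ[O] O) (hLR : ∀ j, LR (C j) (ty j) (q j) (ε j) ((Φ j).map x) ((N j).map x)) :
    𝔮 ≤ RingHom.ker x.toRingHom := by
  refine h.le _ (RingHom.ker_ne_top _) (fun j y hy => ?_) fun j y hy => ?_
  · exact (relQ_map x.toRingHom).2 (hLR j).qd.rq y hy
  · exact (relC_map x.toRingHom).2 (hLR j).rc y hy

variable (hϖ0 : ϖ ≠ 0) (hϖ : maximalIdeal O = Ideal.span {ϖ})
  (hq : ∀ j, ty j = Ty.sc → ϖ ∣ (q j : O) - 1) (hε : ∀ j, ε j ^ 2 = 1) (hq0 : ∀ j, q j ≠ 0)

include hϖ0 hϖ hq hε hq0 in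
/-- **One step of the chain** -/
theorem chain_step (h : IsFD O ϖ g t ty q ε P z Φ N)
    {V : Type} [AddCommGroup V] [Module P V] [Module.Finite P V]
    {U : Type} [AddCommGroup U] [Module P U] [Module.Finite P U] (j : Fin t)
    (i1 i2 : U →ₗ[P] V) (s1 s2 : V →ₗ[P] U)
    (hs : ∀ x y, ∃ v, s1 v = x ∧ s2 v = y)
    (h11 : ∀ x, s1 (i1 x) = ((q j : P) + 1) • x) (h12 : ∀ x, s1 (i2 x) = (Φ j).trace • x)
    (h21 : ∀ x, s2 (i1 x) = (Φ j).trace • x) (h22 : ∀ x, s2 (i2 x) = ((q j : P) + 1) • x)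
    {as : List P} (has : ∀ a ∈ as, a ∈ maximalIdeal P)
    (hlen : 1 + g + ∑ j, (ty j).dl ≤ as.length)
    (hreg : IsWeaklyRegular (V ⧸ (LinearMap.range i1 ⊔ LinearMap.range i2)) as)
    (hQV : ∀ j, relQ (ty j) (q j) (Φ j) (N j) ⊆ annihilator P V)
    (hD : ((Φ j).trace ^ 2 - ((q j : P) + 1) ^ 2) ^ 3 ∈
      annihilator P (V ⧸ (LinearMap.range i1 ⊔ LinearMap.range i2)))
    {C : Fin t → Bool} (hCj : C j = false) {𝔮 𝔮' : Ideal P}
    (h𝔮 : IsComp O g t ty q ε Φ N C 𝔮)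
    (h𝔮' : IsComp O g t ty q ε Φ N (Function.update C j true) 𝔮')
    (hV : annihilator P V ≤ 𝔮) : annihilator P V ≤ 𝔮' := by
  classical
  haveI := h.noe
  haveI := h.cpl
  haveI := h𝔮.prime
  haveI := h𝔮'.prime
  have hϖm : ϖ ∈ maximalIdeal O := by rw [hϖ]; exact Ideal.mem_span_singleton_self _
  have hVQ : annihilator P V ≤ annihilator P (V ⧸ (LinearMap.range i1 ⊔ LinearMap.range i2)) := by
    intro b hb
    rw [Module.mem_annihilator]
    intro v
    obtain ⟨v, rfl⟩ := Submodule.mkQ_surjective _ v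
    rw [← map_smul, Module.mem_annihilator.1 hb, map_zero]
  -- local points
  have hst := fun j => exists_stPt hϖ0 hϖm (hq j) (hε j)
  have hur := fun j => exists_urPt hϖ0 hϖm (hq j) (hε j)
  have hbad := fun j => exists_badPt hϖm (hq j) (hε j)
  choose Φs Ns hst1 hst2 using hst
  choose Φu hur1 hur2 using hur
  choose Φb hbad1 using hbad
  -- the generic point of the component `C`
  have htr : ∀ (x : P →ₐ[O] O) (i : Fin t), x (Φ i).trace = ((Φ i).map x).trace := fun x i =>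
    (trace_map2 x.toRingHom (Φ i)).symm
  have hD𝔮 : ¬ annihilator P (V ⧸ (LinearMap.range i1 ⊔ LinearMap.range i2)) ≤ 𝔮 := by
    intro hcon
    have h1 := Ideal.IsPrime.mem_of_pow_mem h𝔮.prime 3 (hcon hD)
    obtain ⟨y, -, hy⟩ := h.exists_pt C (fun i => if C i = true then Φs i else Φu i)
      (fun i => if C i = true then Ns i else 0) (fun i => by
        cases hi : C i
        · simpa using hur1 i
        · simpa using hst1 i)
    have h2 : 𝔮 ≤ RingHom.ker y.toRingHom := h𝔮.le_ker y fun i => by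
      rw [(hy i).1, (hy i).2]
      cases hi : C i
      · simpa using hur1 i
      · simpa using hst1 i
    have h3 : y ((Φ j).trace ^ 2 - ((q j : P) + 1) ^ 2) = 0 := h2 h1
    rw [map_sub, map_pow, map_pow, map_add, map_natCast, map_one, htr, (hy j).1, hCj] at h3
    exact hur2 j (by simpa using h3)
  have hU := annihilator_le_or i1 i2 𝔮 hV hD𝔮
  -- the point `𝔭`
  let C' := Function.update C j true
  have hC'j : C' j = true := Function.update_self _ _ _
  have hC'i : ∀ i, i ≠ j → C' i = C i := fun i hi => Function.update_of_ne hi _ _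
  let Φx : Fin t → Matrix (Fin 2) (Fin 2) O := fun i =>
    if i = j then Φb i else if C i = true then Φs i else Φu i
  let Nx : Fin t → Matrix (Fin 2) (Fin 2) O := fun i =>
    if i = j then 0 else if C i = true then Ns i else 0
  have hx1 : Φx j = Φb j := if_pos rfl
  have hx2 : Nx j = 0 := if_pos rfl
  have hx3 : ∀ i, i ≠ j → C i = true → Φx i = Φs i ∧ Nx i = Ns i := fun i hi hc => by
    simp only [Φx, Nx]
    rw [if_neg hi, if_neg hi, if_pos hc, if_pos hc]
    exact ⟨rfl, rfl⟩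
  have hx4 : ∀ i, i ≠ j → C i = false → Φx i = Φu i ∧ Nx i = 0 := fun i hi hc => by
    simp only [Φx, Nx]
    rw [if_neg hi, if_neg hi, if_neg (by rw [hc]; exact Bool.false_ne_true),
      if_neg (by rw [hc]; exact Bool.false_ne_true)]
    exact ⟨rfl, rfl⟩
  have hLR' : ∀ i, LR (C' i) (ty i) (q i) (ε i) (Φx i) (Nx i) := by
    intro i
    by_cases hi : i = j
    · subst hi
      rw [hC'j, hx1, hx2]
      exact hbad1 i
    · rw [hC'i i hi]
      cases hc : C i
      · rw [(hx4 i hi hc).1, (hx4 i hi hc).2]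
        exact hur1 i
      · rw [(hx3 i hi hc).1, (hx3 i hi hc).2]
        exact hst1 i
  obtain ⟨x, -, hx⟩ := h.exists_pt C' Φx Nx hLR'
  have h𝔮x : 𝔮 ≤ RingHom.ker x.toRingHom := h𝔮.le_ker x fun i => by
    rw [(hx i).1, (hx i).2]
    by_cases hi : i = j
    · subst hi
      rw [hCj, hx1, hx2]
      exact ⟨(hbad1 i).qd, fun h => Bool.noConfusion h, fun h => Bool.noConfusion h, fun _ => rfl⟩
    · have := hLR' i
      rwa [hC'i i hi] at this
  haveI h𝔭 : (RingHom.ker x.toRingHom).IsPrime := RingHom.ker_isPrime _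
  have hnat : ∀ n : ℕ, n ≠ 0 → (n : P) ∉ RingHom.ker x.toRingHom := by
    intro n hn hmem
    have h1 : x (n : P) = 0 := hmem
    rw [map_natCast] at h1
    exact hn (Nat.cast_eq_zero.1 h1)
  have hα : ∀ i, ((q i : P) + 1) ∉ RingHom.ker x.toRingHom := by
    intro i hmem
    refine hnat (q i + 1) (Nat.succ_ne_zero _) ?_
    push_cast
    exact hmem
  have hαO : ∀ i, ((q i : O) + 1) ≠ 0 := fun i h0 => by
    apply hα i
    change x ((q i : P) + 1) = 0
    rw [map_add, map_natCast, map_one]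
    exact h0
  have h2O : (2 : O) ≠ 0 := two_ne_zero
  have hDx : (Φ j).trace ^ 2 - ((q j : P) + 1) ^ 2 ∈ RingHom.ker x.toRingHom := by
    change x ((Φ j).trace ^ 2 - ((q j : P) + 1) ^ 2) = 0
    rw [map_sub, map_pow, map_pow, map_add, map_natCast, map_one, htr, (hx j).1, hx1,
      (hbad1 j).tr rfl]
    linear_combination (((q j : O) + 1) ^ 2) * cast_sq (hε j) O
  have hQ𝔭 := annihilator_coker_le i1 i2 s1 s2 hs ((q j : P) + 1) (Φ j).trace h11 h12 h21 h22
    (RingHom.ker x.toRingHom) (hU.trans h𝔮x) (hα j) hDx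
  refine hVQ.trans ?_
  refine annihilator_le_of_local has hreg (RingHom.ker x.toRingHom) 𝔮' hQ𝔭 ?_ ?_
  · refine h𝔮'.dim.trans ?_
    exact_mod_cast hlen
  · intro 𝔯 h𝔯 hQ𝔯 h𝔯𝔭
    haveI := h𝔯
    have hQ : ∀ i, relQ (ty i) (q i) (Φ i) (N i) ⊆ 𝔯 := fun i y hy => hQ𝔯 (hVQ (hQV i hy))
    refine h𝔮'.le 𝔯 h𝔯.ne_top hQ fun i y hy => ?_
    -- the relations over the domain `P ⧸ 𝔯`
    have hrq : RQ (ty i) (q i) ((Φ i).map (Ideal.Quotient.mk 𝔯)) ((N i).map (Ideal.Quotient.mk 𝔯)) :=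
      (relQ_map _).1 fun y hy => Ideal.Quotient.eq_zero_iff_mem.2 (hQ i hy)
    have hne0 : ∀ y : P, x y ≠ 0 → Ideal.Quotient.mk 𝔯 y ≠ 0 := by
      intro y hy h0
      exact hy (h𝔯𝔭 (Ideal.Quotient.eq_zero_iff_mem.1 h0))
    have hqB : ((q i : ℕ) : P ⧸ 𝔯) ≠ 0 := by
      have := hne0 (q i : P) (by rw [map_natCast]; exact Nat.cast_ne_zero.2 (hq0 i))
      rwa [map_natCast] at this
    have hq1B : ((q i : ℕ) : P ⧸ 𝔯) + 1 ≠ 0 := by
      have := hne0 ((q i : P) + 1) (by rw [map_add, map_natCast, map_one]; exact hαO i)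
      rwa [map_add, map_natCast, map_one] at this
    have htrB : ((Φ i).map (Ideal.Quotient.mk 𝔯)).trace = Ideal.Quotient.mk 𝔯 (Φ i).trace :=
      trace_map2 _ _
    have hsum : ((Φx i).trace = (ε i : O) * (q i + 1)) →
        ((Φ i).map (Ideal.Quotient.mk 𝔯)).trace + (ε i : P ⧸ 𝔯) * (q i + 1) ≠ 0 := by
      intro h1
      have h2 := hne0 ((Φ i).trace + (ε i : P) * (q i + 1)) (by
        rw [map_add, htr, (hx i).1, h1, map_mul, map_add, map_natCast, map_one, map_intCast]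
        have h3 : (ε i : O) * (q i + 1) + ε i * (q i + 1) = (2 * ε i) * (q i + 1) := by ring
        rw [h3]
        refine mul_ne_zero (mul_ne_zero h2O ?_) (hαO i)
        intro h4
        have h5 := cast_sq (hε i) O
        rw [h4] at h5
        simp at h5)
      rwa [map_add, map_mul, map_add, map_natCast, map_one, map_intCast, ← htrB] at h2
    have hrc : RC (C' i) (q i) (ε i) ((Φ i).map (Ideal.Quotient.mk 𝔯))
        ((N i).map (Ideal.Quotient.mk 𝔯)) := by
      by_cases hi : i = j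
      · subst hi
        rw [hC'j]
        refine hrq.rc_true' (hε i) hqB hq1B (hsum ?_) (Or.inr ?_)
        · rw [hx1]
          exact (hbad1 i).tr rfl
        · have h3 := Ideal.IsPrime.mem_of_pow_mem h𝔯 3 (hQ𝔯 hD)
          have h4 := Ideal.Quotient.eq_zero_iff_mem.2 h3
          rwa [map_sub, map_pow, map_pow, map_add, map_natCast, map_one, ← htrB] at h4
      · rw [hC'i i hi]
        cases hc : C i
        · refine hrq.rc_false' hqB ?_
          have h3 := hne0 ((Φ i).trace ^ 2 - ((q i : P) + 1) ^ 2) (by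
            rw [map_sub, map_pow, map_pow, map_add, map_natCast, map_one, htr, (hx i).1,
              (hx4 i hi hc).1]
            exact hur2 i)
          rwa [map_sub, map_pow, map_pow, map_add, map_natCast, map_one, ← htrB] at h3
        · refine hrq.rc_true' (hε i) hqB hq1B (hsum ?_) (Or.inl ?_)
          · rw [(hx3 i hi hc).1]
            exact (hst1 i).tr rfl
          · obtain ⟨a, b, hab⟩ := hst2 i
            refine ⟨a, b, ?_⟩
            rw [Matrix.map_apply]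
            apply hne0
            have h4 : x (N i a b) = (Nx i) a b := congrFun (congrFun (hx i).2 a) b
            rw [h4, (hx3 i hi hc).2]
            exact hab
    exact Ideal.Quotient.eq_zero_iff_mem.1 ((relC_map _).2 hrc y hy)

include hϖ0 hϖ hq hε hq0 in
/-- **The chain of components.** -/
theorem chain (h : IsFD O ϖ g t ty q ε P z Φ N)
    {V : Type} [AddCommGroup V] [Module P V] [Module.Finite P V]
    {U : Fin t → Type} [∀ j, AddCommGroup (U j)] [∀ j, Module P (U j)]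
    [∀ j, Module.Finite P (U j)]
    {M : Type} [AddCommGroup M] [Module P M] [Module.Finite P M] [Nontrivial M]
    (i1 i2 : ∀ j, U j →ₗ[P] V) (s1 s2 : ∀ j, V →ₗ[P] U j)
    (hs : ∀ j x y, ∃ v, s1 j v = x ∧ s2 j v = y)
    (h11 : ∀ j x, s1 j (i1 j x) = ((q j : P) + 1) • x)
    (h12 : ∀ j x, s1 j (i2 j x) = (Φ j).trace • x)
    (h21 : ∀ j x, s2 j (i1 j x) = (Φ j).trace • x)
    (h22 : ∀ j x, s2 j (i2 j x) = ((q j : P) + 1) • x)
    (j0 : M →ₗ[P] V) (hj0 : Function.Injective j0)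
    {as : List P} (has : ∀ a ∈ as, a ∈ maximalIdeal P)
    (hlen : 1 + g + ∑ j, (ty j).dl ≤ as.length)
    (hregM : IsWeaklyRegular M as)
    (hreg : ∀ j, IsWeaklyRegular (V ⧸ (LinearMap.range (i1 j) ⊔ LinearMap.range (i2 j))) as)
    (hQV : ∀ j, relQ (ty j) (q j) (Φ j) (N j) ⊆ annihilator P V)
    (hNM : ∀ j a b, N j a b ∈ annihilator P M)
    (hD : ∀ j, ((Φ j).trace ^ 2 - ((q j : P) + 1) ^ 2) ^ 3 ∈
      annihilator P (V ⧸ (LinearMap.range (i1 j) ⊔ LinearMap.range (i2 j)))) :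
    ∃ 𝔮 : Ideal P, IsComp O g t ty q ε Φ N (fun _ => true) 𝔮 ∧ annihilator P V ≤ 𝔮 := by
  classical
  haveI := h.noe
  have hVM : annihilator P V ≤ annihilator P M := by
    intro b hb
    rw [Module.mem_annihilator]
    intro m
    apply hj0
    rw [map_smul, Module.mem_annihilator.1 hb, map_zero]
  choose 𝔮 h𝔮 using fun C => exists_comp h hϖ0 hϖ hq hε C
  have key : ∀ s : Finset (Fin t), annihilator P V ≤ 𝔮 fun i => decide (i ∈ s) := by
    intro s
    induction s using Finset.induction_on with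
    | empty =>
      have h1 := h𝔮 fun i => decide (i ∈ (∅ : Finset (Fin t)))
      haveI := h1.prime
      refine hVM.trans (annihilator_eq_of_le has hregM ⊤ top_ne_bot _ ?_ ?_)
      · refine h1.dim.trans ?_
        exact_mod_cast hlen
      · intro b hb m _
        have h2 : (𝔮 fun i => decide (i ∈ (∅ : Finset (Fin t)))) ≤ annihilator P M := by
          refine h1.le _ ?_ (fun i => (hQV i).trans hVM) fun i => ?_
          · intro htop
            rw [Module.annihilator_eq_top_iff] at htop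
            exact not_subsingleton M htop
          · rintro y (⟨h3, -⟩ | ⟨-, a, b, rfl⟩)
            · simp at h3
            · exact hNM i a b
        exact Module.mem_annihilator.1 (h2 hb) m
    | insert j s hj ih =>
      have e1 : Function.update (fun i => decide (i ∈ s)) j true =
          fun i => decide (i ∈ insert j s) := by
        funext i
        by_cases hi : i = j
        · subst hi
          rw [Function.update_self]
          simp
        · rw [Function.update_of_ne hi]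
          simp [hi]
      have h1 := h𝔮 fun i => decide (i ∈ insert j s)
      refine chain_step hϖ0 hϖ hq hε hq0 h j (i1 j) (i2 j) (s1 j) (s2 j) (hs j) (h11 j) (h12 j)
        (h21 j) (h22 j) has hlen (hreg j) hQV (hD j) (C := fun i => decide (i ∈ s)) ?_
        (h𝔮 fun i => decide (i ∈ s)) ?_ ih
      · simpa using hj
      · rw [e1]
        exact h1
  have e1 : (fun i : Fin t => decide (i ∈ (Finset.univ : Finset (Fin t)))) = fun _ => true := by
    funext i
    simp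
  have h1 := key Finset.univ
  have h2 := h𝔮 fun i => decide (i ∈ (Finset.univ : Finset (Fin t)))
  rw [e1] at h1 h2
  exact ⟨_, h2, h1⟩

end chain

end Fermat.Agent.StR
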