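import Fermat.Agent.StR.Mod
import Fermat.Agent.StR.Chain

/-!
# The module data and its limit
-/

set_option autoImplicit false
set_option linter.unusedSectionVars false
set_option linter.style.haveILetI false

namespace Fermat.Agent.StR

open IsLocalRing Filter RingTheory.Sequence Module Fermat.Agent.Patch

/-- Modules over a ring `P` with local data, given by matrices over `T`. -/
structure MDat (P : Type) [CommRing P] (T : Type) [CommRing T] (t : ℕ) (ty : Fin t → Ty)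
    (q : Fin t → ℕ) (Φ N : Fin t → Matrix (Fin 2) (Fin 2) P) (d : ℕ) (dU : Fin t → ℕ)
    (dM : ℕ) where
  ρ : P →+* Matrix (Fin d) (Fin d) T
  ρU : ∀ j, P →+* Matrix (Fin (dU j)) (Fin (dU j)) T
  ρM : P →+* Matrix (Fin dM) (Fin dM) T
  i1 : ∀ j, Matrix (Fin d) (Fin (dU j)) T
  i2 : ∀ j, Matrix (Fin d) (Fin (dU j)) T
  l1 : ∀ j, Matrix (Fin (dU j)) (Fin d) T
  l2 : ∀ j, Matrix (Fin (dU j)) (Fin d) T
  s1 : ∀ j, Matrix (Fin (dU j)) (Fin d) T
  s2 : ∀ j, Matrix (Fin (dU j)) (Fin d) T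
  k1 : ∀ j, Matrix (Fin d) (Fin (dU j)) T
  k2 : ∀ j, Matrix (Fin d) (Fin (dU j)) T
  G1 : ∀ j, Matrix (Fin (dU j)) (Fin d) T
  G2 : ∀ j, Matrix (Fin (dU j)) (Fin d) T
  j0 : Matrix (Fin d) (Fin dM) T
  l0 : Matrix (Fin dM) (Fin d) T
  hi1 : ∀ j a, ρ a * i1 j = i1 j * ρU j a
  hi2 : ∀ j a, ρ a * i2 j = i2 j * ρU j a
  hl11 : ∀ j, l1 j * i1 j = 1
  hl12 : ∀ j, l1 j * i2 j = 0
  hl21 : ∀ j, l2 j * i1 j = 0
  hl22 : ∀ j, l2 j * i2 j = 1
  hs1 : ∀ j a, ρU j a * s1 j = s1 j * ρ a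
  hs2 : ∀ j a, ρU j a * s2 j = s2 j * ρ a
  hk11 : ∀ j, s1 j * k1 j = 1
  hk12 : ∀ j, s1 j * k2 j = 0
  hk21 : ∀ j, s2 j * k1 j = 0
  hk22 : ∀ j, s2 j * k2 j = 1
  hsi11 : ∀ j, s1 j * i1 j = ρU j ((q j : P) + 1)
  hsi12 : ∀ j, s1 j * i2 j = ρU j (Φ j).trace
  hsi21 : ∀ j, s2 j * i1 j = ρU j (Φ j).trace
  hsi22 : ∀ j, s2 j * i2 j = ρU j ((q j : P) + 1)
  new : ∀ j, ρ (((Φ j).trace ^ 2 - ((q j : P) + 1) ^ 2) ^ 3) = i1 j * G1 j + i2 j * G2 j
  hj0 : ∀ a, ρ a * j0 = j0 * ρM a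
  hl0 : l0 * j0 = 1
  hQ : ∀ j, ∀ x ∈ relQ (ty j) (q j) (Φ j) (N j), ρ x = 0
  hNM : ∀ j a b, ρM (N j a b) = 0

variable {t : ℕ} {ty : Fin t → Ty} {q : Fin t → ℕ}

/-- restriction along a homomorphism -/
def MDat.comp {P P₀ : Type} [CommRing P] [CommRing P₀] {T : Type} [CommRing T]
    {Φ N : Fin t → Matrix (Fin 2) (Fin 2) P} {d : ℕ} {dU : Fin t → ℕ} {dM : ℕ}
    (X : MDat P T t ty q Φ N d dU dM) (f : P₀ →+* P) {Φ₀ N₀ : Fin t → Matrix (Fin 2) (Fin 2) P₀}
    (hΦ : ∀ j, (Φ₀ j).map f = Φ j) (hN : ∀ j, (N₀ j).map f = N j) :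
    MDat P₀ T t ty q Φ₀ N₀ d dU dM where
  ρ := X.ρ.comp f
  ρU j := (X.ρU j).comp f
  ρM := X.ρM.comp f
  i1 := X.i1
  i2 := X.i2
  l1 := X.l1
  l2 := X.l2
  s1 := X.s1
  s2 := X.s2
  k1 := X.k1
  k2 := X.k2
  G1 := X.G1
  G2 := X.G2
  j0 := X.j0
  l0 := X.l0
  hi1 j a := X.hi1 j (f a)
  hi2 j a := X.hi2 j (f a)
  hl11 := X.hl11
  hl12 := X.hl12
  hl21 := X.hl21
  hl22 := X.hl22
  hs1 j a := X.hs1 j (f a)
  hs2 j a := X.hs2 j (f a)
  hk11 := X.hk11
  hk12 := X.hk12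
  hk21 := X.hk21
  hk22 := X.hk22
  hsi11 j := by
    have h : f ((q j : P₀) + 1) = (q j : P) + 1 := by rw [map_add, map_natCast, map_one]
    rw [X.hsi11, RingHom.comp_apply, h]
  hsi12 j := by
    rw [X.hsi12, RingHom.comp_apply, ← trace_map2, hΦ]
  hsi21 j := by
    rw [X.hsi21, RingHom.comp_apply, ← trace_map2, hΦ]
  hsi22 j := by
    have h : f ((q j : P₀) + 1) = (q j : P) + 1 := by rw [map_add, map_natCast, map_one]
    rw [X.hsi22, RingHom.comp_apply, h]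
  new j := by
    have h : f (((Φ₀ j).trace ^ 2 - ((q j : P₀) + 1) ^ 2) ^ 3) =
        ((Φ j).trace ^ 2 - ((q j : P) + 1) ^ 2) ^ 3 := by
      rw [map_pow, map_sub, map_pow, map_pow, map_add, map_natCast, map_one, ← trace_map2, hΦ]
    rw [← X.new, RingHom.comp_apply, h]
  hj0 a := X.hj0 (f a)
  hl0 := X.hl0
  hQ j x hx := by
    have h1 := relQ_image f hx
    rw [hΦ, hN] at h1
    exact X.hQ j _ h1
  hNM j a b := by
    have h : f (N₀ j a b) = N j a b := congrFun (congrFun (hN j) a) b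
    rw [RingHom.comp_apply, h]
    exact X.hNM j a b

section lim

variable {S : Type} [CommRing S] [IsLocalRing S] [IsNoetherianRing S]
  [IsAdicComplete (maximalIdeal S) S] [Finite (ResidueField S)]
variable {P : Type} [CommRing P] [IsLocalRing P] [IsNoetherianRing P]
  [IsAdicComplete (maximalIdeal P) P] [Finite (ResidueField P)]
variable {J : ℕ → Ideal S} (hJ : ∀ m, ∀ᶠ n in atTop, J n ≤ (maximalIdeal S) ^ m)
  {Φ N : Fin t → Matrix (Fin 2) (Fin 2) P} {d : ℕ} {dU : Fin t → ℕ} {dM : ℕ}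

theorem lim_scalar {κ : Type} [Fintype κ] [DecidableEq κ] (ρ : ∀ n, P →+* Matrix κ κ (S ⧸ J n))
    {a : ℕ → P} {L : P} (hL : LimP a L) {s : S}
    (h : ∀ n, ρ n (a n) = Matrix.scalar κ (Ideal.Quotient.mk (J n) s)) :
    limHom hJ ρ L = Matrix.scalar κ s := by
  refine (LimM_limHom hJ ρ hL).unique (LimM.const hJ (Matrix.scalar κ s)) ?_
  refine Eventually.of_forall fun n => ?_
  rw [h n]
  ext i j
  simp [Matrix.scalar_apply, Matrix.diagonal_apply]
  split_ifs <;> simp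

/-- **The limit of module data.** -/
theorem MDat.exists_lim (X : ∀ n, MDat P (S ⧸ J n) t ty q Φ N d dU dM) :
    ∃ Y : MDat P S t ty q Φ N d dU dM, Y.ρ = limHom hJ (fun n => (X n).ρ) ∧
      (∀ j, Y.ρU j = limHom hJ fun n => (X n).ρU j) ∧ Y.ρM = limHom hJ fun n => (X n).ρM := by
  choose i1 hi1 using fun j => exists_LimR hJ fun n => (X n).i1 j
  choose i2 hi2 using fun j => exists_LimR hJ fun n => (X n).i2 j
  choose l1 hl1 using fun j => exists_LimR hJ fun n => (X n).l1 j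
  choose l2 hl2 using fun j => exists_LimR hJ fun n => (X n).l2 j
  choose s1 hs1 using fun j => exists_LimR hJ fun n => (X n).s1 j
  choose s2 hs2 using fun j => exists_LimR hJ fun n => (X n).s2 j
  choose k1 hk1 using fun j => exists_LimR hJ fun n => (X n).k1 j
  choose k2 hk2 using fun j => exists_LimR hJ fun n => (X n).k2 j
  choose G1 hG1 using fun j => exists_LimR hJ fun n => (X n).G1 j
  choose G2 hG2 using fun j => exists_LimR hJ fun n => (X n).G2 j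
  obtain ⟨j0, hj0⟩ := exists_LimR hJ fun n => (X n).j0
  obtain ⟨l0, hl0⟩ := exists_LimR hJ fun n => (X n).l0
  have hρ := fun a => LimR.hom hJ (fun n => (X n).ρ) a
  have hρU := fun j a => LimR.hom hJ (fun n => (X n).ρU j) a
  have hρM := fun a => LimR.hom hJ (fun n => (X n).ρM) a
  exact ⟨{ ρ := limHom hJ (fun n => (X n).ρ)
           ρU := fun j => limHom hJ fun n => (X n).ρU j
           ρM := limHom hJ fun n => (X n).ρM
           i1 := i1, i2 := i2, l1 := l1, l2 := l2, s1 := s1, s2 := s2, k1 := k1, k2 := k2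
           G1 := G1, G2 := G2, j0 := j0, l0 := l0
           hi1 := fun j a => (LimR.mul hJ (hρ a) (hi1 j)).eq (LimR.mul hJ (hi1 j) (hρU j a))
             fun n => (X n).hi1 j a
           hi2 := fun j a => (LimR.mul hJ (hρ a) (hi2 j)).eq (LimR.mul hJ (hi2 j) (hρU j a))
             fun n => (X n).hi2 j a
           hl11 := fun j => (LimR.mul hJ (hl1 j) (hi1 j)).eq (LimR.one hJ) fun n => (X n).hl11 j
           hl12 := fun j => (LimR.mul hJ (hl1 j) (hi2 j)).eq (LimR.zero hJ) fun n => (X n).hl12 j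
           hl21 := fun j => (LimR.mul hJ (hl2 j) (hi1 j)).eq (LimR.zero hJ) fun n => (X n).hl21 j
           hl22 := fun j => (LimR.mul hJ (hl2 j) (hi2 j)).eq (LimR.one hJ) fun n => (X n).hl22 j
           hs1 := fun j a => (LimR.mul hJ (hρU j a) (hs1 j)).eq (LimR.mul hJ (hs1 j) (hρ a))
             fun n => (X n).hs1 j a
           hs2 := fun j a => (LimR.mul hJ (hρU j a) (hs2 j)).eq (LimR.mul hJ (hs2 j) (hρ a))
             fun n => (X n).hs2 j a
           hk11 := fun j => (LimR.mul hJ (hs1 j) (hk1 j)).eq (LimR.one hJ) fun n => (X n).hk11 j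
           hk12 := fun j => (LimR.mul hJ (hs1 j) (hk2 j)).eq (LimR.zero hJ) fun n => (X n).hk12 j
           hk21 := fun j => (LimR.mul hJ (hs2 j) (hk1 j)).eq (LimR.zero hJ) fun n => (X n).hk21 j
           hk22 := fun j => (LimR.mul hJ (hs2 j) (hk2 j)).eq (LimR.one hJ) fun n => (X n).hk22 j
           hsi11 := fun j => (LimR.mul hJ (hs1 j) (hi1 j)).eq (hρU j _) fun n => (X n).hsi11 j
           hsi12 := fun j => (LimR.mul hJ (hs1 j) (hi2 j)).eq (hρU j _) fun n => (X n).hsi12 j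
           hsi21 := fun j => (LimR.mul hJ (hs2 j) (hi1 j)).eq (hρU j _) fun n => (X n).hsi21 j
           hsi22 := fun j => (LimR.mul hJ (hs2 j) (hi2 j)).eq (hρU j _) fun n => (X n).hsi22 j
           new := fun j => (hρ _).eq ((LimR.mul hJ (hi1 j) (hG1 j)).add
             (LimR.mul hJ (hi2 j) (hG2 j))) fun n => (X n).new j
           hj0 := fun a => (LimR.mul hJ (hρ a) hj0).eq (LimR.mul hJ hj0 (hρM a))
             fun n => (X n).hj0 a
           hl0 := (LimR.mul hJ hl0 hj0).eq (LimR.one hJ) fun n => (X n).hl0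
           hQ := fun j x hx => (hρ x).eq (LimR.zero hJ) fun n => (X n).hQ j x hx
           hNM := fun j a b => (hρM _).eq (LimR.zero hJ) fun n => (X n).hNM j a b },
    rfl, fun _ => rfl, rfl⟩

end lim

section chain

variable {O : Type} [CommRing O] [IsDomain O] [IsLocalRing O] [IsNoetherianRing O] [CharZero O]
  [IsAdicComplete (maximalIdeal O) O] {ϖ : O} {g : ℕ} {ε : Fin t → ℤ}
variable {S : Type} [CommRing S] [IsLocalRing S] [IsNoetherianRing S]
  [IsAdicComplete (maximalIdeal S) S] [Finite (ResidueField S)]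
variable {P : Type} [CommRing P] [IsLocalRing P] [IsNoetherianRing P]
  [IsAdicComplete (maximalIdeal P) P] [Finite (ResidueField P)] [Algebra O P]
  {z : Fin g → P} {Φ N : Fin t → Matrix (Fin 2) (Fin 2) P} {d : ℕ} {dU : Fin t → ℕ} {dM : ℕ}
variable (hϖ0 : ϖ ≠ 0) (hϖ : maximalIdeal O = Ideal.span {ϖ})
  (hq : ∀ j, ty j = Ty.sc → ϖ ∣ (q j : O) - 1) (hε : ∀ j, ε j ^ 2 = 1) (hq0 : ∀ j, q j ≠ 0)

include hϖ0 hϖ hq hε hq0 in
/-- **The chain for module data.** -/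
theorem MDat.chain (h : IsFD O ϖ g t ty q ε P z Φ N) (Y : MDat P S t ty q Φ N d dU dM)
    (hdM : 0 < dM) {rs : List S} (hG : Good Y.ρ rs) (hGU : ∀ j, Good (Y.ρU j) rs)
    (hGM : Good Y.ρM rs) {as : List P}
    (has : List.Forall₂ (fun (a : P) (s : S) => Y.ρ a = Matrix.scalar _ s ∧
      Y.ρM a = Matrix.scalar _ s) as rs) (hlen : 1 + g + ∑ j, (ty j).dl ≤ rs.length) :
    ∃ 𝔮 : Ideal P, IsComp O g t ty q ε Φ N (fun _ => true) 𝔮 ∧ ∀ b, Y.ρ b = 0 → b ∈ 𝔮 := by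
  haveI : Nonempty (Fin dM) := ⟨⟨0, hdM⟩⟩
  haveI := finite_PMod hG
  haveI := fun j => finite_PMod (hGU j)
  haveI := finite_PMod hGM
  have hasm : ∀ a ∈ as, a ∈ maximalIdeal P := by
    intro a ha
    obtain ⟨i, hi, rfl⟩ := List.getElem_of_mem ha
    have h2 : i < rs.length := by rw [← has.length_eq]; exact hi
    refine hGM.mem_max (s := rs[i]) ?_ (has.get hi h2).2
    rw [← hGM.max]
    exact Ideal.subset_span (List.getElem_mem h2)
  have hlen' : 1 + g + ∑ j, (ty j).dl ≤ as.length := by rw [has.length_eq]; exact hlen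
  have hann : ∀ b, b ∈ annihilator P (PMod Y.ρ) ↔ Y.ρ b = 0 := fun b => mem_annihilator_iff Y.ρ
  obtain ⟨𝔮, h1, h2⟩ := StR.chain (V := PMod Y.ρ) (U := fun j => PMod (Y.ρU j)) (M := PMod Y.ρM)
    hϖ0 hϖ hq hε hq0 h
    (fun j => mlin (Y.i1 j) (Y.hi1 j)) (fun j => mlin (Y.i2 j) (Y.hi2 j))
    (fun j => mlin (Y.s1 j) (Y.hs1 j)) (fun j => mlin (Y.s2 j) (Y.hs2 j))
    (fun j x y => by
      refine ⟨show PMod Y.ρ from ((Y.k1 j).mulVec (show Fin (dU j) → S from x) +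
        (Y.k2 j).mulVec (show Fin (dU j) → S from y)), ?_, ?_⟩
      · have e : ∀ x y : Fin (dU j) → S, (Y.s1 j).mulVec ((Y.k1 j).mulVec x + (Y.k2 j).mulVec y) =
            x := fun x y => by
          rw [Matrix.mulVec_add, Matrix.mulVec_mulVec, Matrix.mulVec_mulVec, Y.hk11, Y.hk12,
            Matrix.one_mulVec, Matrix.zero_mulVec, add_zero]
        exact e x y
      · have e : ∀ x y : Fin (dU j) → S, (Y.s2 j).mulVec ((Y.k1 j).mulVec x + (Y.k2 j).mulVec y) =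
            y := fun x y => by
          rw [Matrix.mulVec_add, Matrix.mulVec_mulVec, Matrix.mulVec_mulVec, Y.hk21, Y.hk22,
            Matrix.one_mulVec, Matrix.zero_mulVec, zero_add]
        exact e x y)
    (fun j x => by
      have e : ∀ x : Fin (dU j) → S, (Y.s1 j).mulVec ((Y.i1 j).mulVec x) =
          (Y.ρU j ((q j : P) + 1)).mulVec x := fun x => by
        rw [Matrix.mulVec_mulVec, Y.hsi11]
      exact e x)
    (fun j x => by
      have e : ∀ x : Fin (dU j) → S, (Y.s1 j).mulVec ((Y.i2 j).mulVec x) =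
          (Y.ρU j (Φ j).trace).mulVec x := fun x => by
        rw [Matrix.mulVec_mulVec, Y.hsi12]
      exact e x)
    (fun j x => by
      have e : ∀ x : Fin (dU j) → S, (Y.s2 j).mulVec ((Y.i1 j).mulVec x) =
          (Y.ρU j (Φ j).trace).mulVec x := fun x => by
        rw [Matrix.mulVec_mulVec, Y.hsi21]
      exact e x)
    (fun j x => by
      have e : ∀ x : Fin (dU j) → S, (Y.s2 j).mulVec ((Y.i2 j).mulVec x) =
          (Y.ρU j ((q j : P) + 1)).mulVec x := fun x => by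
        rw [Matrix.mulVec_mulVec, Y.hsi22]
      exact e x)
    (mlin Y.j0 Y.hj0)
    (by
      intro x y hxy
      have e : ∀ x : Fin dM → S, Y.l0.mulVec (Y.j0.mulVec x) = x := fun x => by
        rw [Matrix.mulVec_mulVec, Y.hl0, Matrix.one_mulVec]
      have hxy' : Y.j0.mulVec (show Fin dM → S from x) = Y.j0.mulVec (show Fin dM → S from y) := hxy
      have := congrArg (Y.l0.mulVec) hxy'
      rw [e, e] at this
      exact this)
    hasm hlen' (reg_self hG.reg (has.imp fun _ _ h => h.2))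
    (fun j => reg_coker (Y.i1 j) (Y.i2 j) (Y.hi1 j) (Y.hi2 j) (Y.l1 j) (Y.l2 j) (Y.hl11 j)
      (Y.hl12 j) (Y.hl21 j) (Y.hl22 j) hG.reg (has.imp fun _ _ h => h.1))
    (fun j x hx => (hann x).2 (Y.hQ j x hx))
    (fun j a b => (mem_annihilator_iff Y.ρM).2 (Y.hNM j a b))
    (fun j => by
      rw [Module.mem_annihilator]
      intro v
      obtain ⟨v, rfl⟩ := Submodule.mkQ_surjective _ v
      rw [← map_smul, Submodule.mkQ_apply, Submodule.Quotient.mk_eq_zero]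
      have e : ∀ v : Fin d → S, (Y.ρ (((Φ j).trace ^ 2 - ((q j : P) + 1) ^ 2) ^ 3)).mulVec v =
          (Y.i1 j).mulVec ((Y.G1 j).mulVec v) + (Y.i2 j).mulVec ((Y.G2 j).mulVec v) := fun v => by
        rw [Y.new, Matrix.add_mulVec, Matrix.mulVec_mulVec, Matrix.mulVec_mulVec]
      have e' : (((Φ j).trace ^ 2 - ((q j : P) + 1) ^ 2) ^ 3 • v : PMod Y.ρ) =
          mlin (Y.i1 j) (Y.hi1 j) ((Y.G1 j).mulVec (show Fin d → S from v)) +
          mlin (Y.i2 j) (Y.hi2 j) ((Y.G2 j).mulVec (show Fin d → S from v)) := e v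
      rw [e']
      exact Submodule.add_mem_sup ⟨_, rfl⟩ ⟨_, rfl⟩)
  exact ⟨𝔮, h1, fun b hb => h2 ((hann b).2 hb)⟩

end chain

end Fermat.Agent.StR
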