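import Fermat.Agent.StR.Comp0
import Fermat.Agent.StR.Lim

/-!
# The step at `p` (case III)
-/

set_option autoImplicit false
set_option linter.unusedSectionVars false
set_option linter.style.haveILetI false

namespace Fermat.Agent.StR

open IsLocalRing Filter RingTheory.Sequence Module Fermat.Agent.Patch Matrix

/-- The data of the step at `p`, given by matrices over `T`. -/
structure XDat (P : Type) [CommRing P] (T : Type) [CommRing T] (u α τ : P) {d d' : ℕ}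
    (ρ : P →+* Matrix (Fin d) (Fin d) T) (ρ' : P →+* Matrix (Fin d') (Fin d') T) where
  I1 : Matrix (Fin d') (Fin d) T
  I2 : Matrix (Fin d') (Fin d) T
  L1 : Matrix (Fin d) (Fin d') T
  L2 : Matrix (Fin d) (Fin d') T
  S1 : Matrix (Fin d) (Fin d') T
  S2 : Matrix (Fin d) (Fin d') T
  K1 : Matrix (Fin d') (Fin d) T
  K2 : Matrix (Fin d') (Fin d) T
  G1 : Matrix (Fin d) (Fin d') T
  G2 : Matrix (Fin d) (Fin d') T
  hI1 : ∀ a, ρ' a * I1 = I1 * ρ a
  hI2 : ∀ a, ρ' a * I2 = I2 * ρ a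
  hL11 : L1 * I1 = 1
  hL12 : L1 * I2 = 0
  hL21 : L2 * I1 = 0
  hL22 : L2 * I2 = 1
  hS1 : ∀ a, ρ a * S1 = S1 * ρ' a
  hS2 : ∀ a, ρ a * S2 = S2 * ρ' a
  hK11 : S1 * K1 = 1
  hK12 : S1 * K2 = 0
  hK21 : S2 * K1 = 0
  hK22 : S2 * K2 = 1
  hSI11 : S1 * I1 = ρ α
  hSI12 : S1 * I2 = ρ τ
  hSI21 : S2 * I1 = ρ τ
  hSI22 : S2 * I2 = ρ α
  new : ρ' (u ^ 3) = I1 * G1 + I2 * G2

section lim

variable {S : Type} [CommRing S] [IsLocalRing S] [IsNoetherianRing S]
  [IsAdicComplete (maximalIdeal S) S] [Finite (ResidueField S)]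
variable {P : Type} [CommRing P] [IsLocalRing P] [IsNoetherianRing P]
  [IsAdicComplete (maximalIdeal P) P] [Finite (ResidueField P)]
variable {J : ℕ → Ideal S} (hJ : ∀ m, ∀ᶠ n in atTop, J n ≤ (maximalIdeal S) ^ m)
  {d d' : ℕ}

theorem XDat.exists_lim {u α : P} {τ : ℕ → P} {τ₀ : P} (hτ : LimP τ τ₀)
    {ρ : ∀ n, P →+* Matrix (Fin d) (Fin d) (S ⧸ J n)}
    {ρ' : ∀ n, P →+* Matrix (Fin d') (Fin d') (S ⧸ J n)}
    (X : ∀ n, XDat P (S ⧸ J n) u α (τ n) (ρ n) (ρ' n)) :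
    Nonempty (XDat P S u α τ₀ (limHom hJ ρ) (limHom hJ ρ')) := by
  obtain ⟨I1, hI1⟩ := exists_LimR hJ fun n => (X n).I1
  obtain ⟨I2, hI2⟩ := exists_LimR hJ fun n => (X n).I2
  obtain ⟨L1, hL1⟩ := exists_LimR hJ fun n => (X n).L1
  obtain ⟨L2, hL2⟩ := exists_LimR hJ fun n => (X n).L2
  obtain ⟨S1, hS1⟩ := exists_LimR hJ fun n => (X n).S1
  obtain ⟨S2, hS2⟩ := exists_LimR hJ fun n => (X n).S2
  obtain ⟨K1, hK1⟩ := exists_LimR hJ fun n => (X n).K1
  obtain ⟨K2, hK2⟩ := exists_LimR hJ fun n => (X n).K2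
  obtain ⟨G1, hG1⟩ := exists_LimR hJ fun n => (X n).G1
  obtain ⟨G2, hG2⟩ := exists_LimR hJ fun n => (X n).G2
  have hρ := fun a => LimR.hom hJ ρ a
  have hρ' := fun a => LimR.hom hJ ρ' a
  have hρτ : LimR J (fun n => ρ n (τ n)) (limHom hJ ρ τ₀) := LimM_limHom hJ ρ hτ
  exact ⟨{ I1 := I1, I2 := I2, L1 := L1, L2 := L2, S1 := S1, S2 := S2, K1 := K1, K2 := K2
           G1 := G1, G2 := G2
           hI1 := fun a => (LimR.mul hJ (hρ' a) hI1).eq (LimR.mul hJ hI1 (hρ a))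
             fun n => (X n).hI1 a
           hI2 := fun a => (LimR.mul hJ (hρ' a) hI2).eq (LimR.mul hJ hI2 (hρ a))
             fun n => (X n).hI2 a
           hL11 := (LimR.mul hJ hL1 hI1).eq (LimR.one hJ) fun n => (X n).hL11
           hL12 := (LimR.mul hJ hL1 hI2).eq (LimR.zero hJ) fun n => (X n).hL12
           hL21 := (LimR.mul hJ hL2 hI1).eq (LimR.zero hJ) fun n => (X n).hL21
           hL22 := (LimR.mul hJ hL2 hI2).eq (LimR.one hJ) fun n => (X n).hL22
           hS1 := fun a => (LimR.mul hJ (hρ a) hS1).eq (LimR.mul hJ hS1 (hρ' a))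
             fun n => (X n).hS1 a
           hS2 := fun a => (LimR.mul hJ (hρ a) hS2).eq (LimR.mul hJ hS2 (hρ' a))
             fun n => (X n).hS2 a
           hK11 := (LimR.mul hJ hS1 hK1).eq (LimR.one hJ) fun n => (X n).hK11
           hK12 := (LimR.mul hJ hS1 hK2).eq (LimR.zero hJ) fun n => (X n).hK12
           hK21 := (LimR.mul hJ hS2 hK1).eq (LimR.zero hJ) fun n => (X n).hK21
           hK22 := (LimR.mul hJ hS2 hK2).eq (LimR.one hJ) fun n => (X n).hK22
           hSI11 := (LimR.mul hJ hS1 hI1).eq (hρ _) fun n => (X n).hSI11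
           hSI12 := (LimR.mul hJ hS1 hI2).eq hρτ fun n => (X n).hSI12
           hSI21 := (LimR.mul hJ hS2 hI1).eq hρτ fun n => (X n).hSI21
           hSI22 := (LimR.mul hJ hS2 hI2).eq (hρ _) fun n => (X n).hSI22
           new := (hρ' _).eq ((LimR.mul hJ hI1 hG1).add (LimR.mul hJ hI2 hG2))
             fun n => (X n).new }⟩

end lim

section lying

variable {S : Type} [CommRing S] [IsLocalRing S] [IsNoetherianRing S]
  [IsAdicComplete (maximalIdeal S) S] [Finite (ResidueField S)]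
variable {P : Type} [CommRing P] [IsLocalRing P] [IsNoetherianRing P]
  [IsAdicComplete (maximalIdeal P) P] [Finite (ResidueField P)]
variable {P' : Type} [CommRing P'] [IsLocalRing P'] [IsNoetherianRing P']
  [IsAdicComplete (maximalIdeal P') P'] [Finite (ResidueField P')]

/-- lying over for the annihilator of a module which is finite over a smaller ring -/
theorem exists_prime_over {d : ℕ} (ρ : P' →+* Matrix (Fin d) (Fin d) S) (ι : P →+* P')
    [Module.Finite P (PMod (ρ.comp ι))] (𝔭 : Ideal P) [h𝔭 : 𝔭.IsPrime]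
    (h : ∀ b, ρ (ι b) = 0 → b ∈ 𝔭) :
    ∃ 𝔭' : Ideal P', 𝔭'.IsPrime ∧ (∀ b, ρ b = 0 → b ∈ 𝔭') ∧ 𝔭'.comap ι = 𝔭 := by
  letI : Algebra P (P' ⧸ RingHom.ker ρ) := ((Ideal.Quotient.mk (RingHom.ker ρ)).comp ι).toAlgebra
  have halg : ∀ b, algebraMap P (P' ⧸ RingHom.ker ρ) b = Ideal.Quotient.mk _ (ι b) := fun _ => rfl
  haveI : Algebra.IsIntegral P (P' ⧸ RingHom.ker ρ) := by
    constructor
    intro y
    obtain ⟨b, rfl⟩ := Ideal.Quotient.mk_surjective y
    have hcomm : ∀ a, (ρ.comp ι) a * ρ b = ρ b * (ρ.comp ι) a := fun a => by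
      rw [RingHom.comp_apply, ← map_mul, mul_comm, map_mul]
    let L : PMod (ρ.comp ι) →ₗ[P] PMod (ρ.comp ι) := mlin (ρ b) hcomm
    obtain ⟨f, hf, hL⟩ := LinearMap.exists_monic_and_aeval_eq_zero P L
    refine ⟨f, hf, ?_⟩
    have key : ∀ (f : Polynomial P) (v : Fin d → S),
        (Polynomial.aeval L f) (show PMod (ρ.comp ι) from v) =
          (ρ (f.eval₂ ι b)).mulVec v := by
      intro f
      induction f using Polynomial.induction_on' with
      | add f g hf hg =>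
        intro v
        rw [map_add, LinearMap.add_apply, hf, hg, Polynomial.eval₂_add, map_add,
          Matrix.add_mulVec]
        rfl
      | monomial n a =>
        have hpow : ∀ (n : ℕ) (v : Fin d → S), (L ^ n) (show PMod (ρ.comp ι) from v) =
            ((ρ b) ^ n).mulVec v := by
          intro n
          induction n with
          | zero =>
            intro v
            rw [pow_zero, pow_zero, Matrix.one_mulVec]
            rfl
          | succ n ih =>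
            intro v
            rw [pow_succ', pow_succ', Module.End.mul_apply, ih, ← Matrix.mulVec_mulVec]
            rfl
        intro v
        rw [Polynomial.aeval_monomial, Polynomial.eval₂_monomial, map_mul, map_pow,
          ← Matrix.mulVec_mulVec, ← hpow, Module.End.mul_apply]
        rfl
    have h2 : f.eval₂ ι b ∈ RingHom.ker ρ := by
      rw [RingHom.mem_ker]
      refine Matrix.ext fun i j => ?_
      have h3 := key f (Pi.single j 1)
      rw [hL] at h3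
      have h4 : (0 : Fin d → S) = (ρ (f.eval₂ ι b)).mulVec (Pi.single j 1) := h3
      have h5 := congrFun h4 i
      rw [Matrix.mulVec_single_one] at h5
      exact h5.symm
    have h3 : f.eval₂ (algebraMap P (P' ⧸ RingHom.ker ρ)) (Ideal.Quotient.mk _ b) =
        Ideal.Quotient.mk _ (f.eval₂ ι b) := by
      rw [Polynomial.hom_eval₂]
      rfl
    rw [h3]
    exact Ideal.Quotient.eq_zero_iff_mem.2 h2
  obtain ⟨Q, -, hQ1, hQ2⟩ := Ideal.exists_ideal_over_prime_of_isIntegral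
    (S := P' ⧸ RingHom.ker ρ) 𝔭 (⊥ : Ideal (P' ⧸ RingHom.ker ρ)) (by
      intro b hb
      rw [Ideal.mem_comap, Ideal.mem_bot, halg, Ideal.Quotient.eq_zero_iff_mem] at hb
      exact h b hb)
  haveI := hQ1
  refine ⟨Q.comap (Ideal.Quotient.mk _), inferInstance, fun b hb => ?_, ?_⟩
  · rw [Ideal.mem_comap, Ideal.Quotient.eq_zero_iff_mem.2 (show b ∈ RingHom.ker ρ from hb)]
    exact zero_mem _
  · rw [← hQ2]
    rfl

end lying

section pstep

variable {O : Type} [CommRing O] [IsDomain O] [IsLocalRing O] [IsNoetherianRing O] [CharZero O]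
  [IsAdicComplete (maximalIdeal O) O] {ϖ : O} {g t : ℕ} {ty : Fin t → Ty} {q : Fin t → ℕ}
  {ε : Fin t → ℤ}
variable {S : Type} [CommRing S] [IsLocalRing S] [IsNoetherianRing S]
  [IsAdicComplete (maximalIdeal S) S] [Finite (ResidueField S)]
variable {P : Type} [CommRing P] [IsLocalRing P] [IsNoetherianRing P]
  [IsAdicComplete (maximalIdeal P) P] [Finite (ResidueField P)] [Algebra O P]
  {z : Fin (g + 1) → P} {Φ N : Fin t → Matrix (Fin 2) (Fin 2) P}
variable {P' : Type} [CommRing P'] [IsLocalRing P'] [IsNoetherianRing P']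
  [IsAdicComplete (maximalIdeal P') P'] [Finite (ResidueField P')] [Algebra O P']
  {z' : Fin (g + 1 + 1) → P'} {Φ' N' : Fin t → Matrix (Fin 2) (Fin 2) P'}
variable (hϖ0 : ϖ ≠ 0) (hϖ : maximalIdeal O = Ideal.span {ϖ})
  (hq : ∀ j, ty j = Ty.sc → ϖ ∣ (q j : O) - 1) (hε : ∀ j, ε j ^ 2 = 1) (hq0 : ∀ j, q j ≠ 0)

include hϖ0 hϖ hq hε hq0 in
/-- **The step at `p`.** -/
theorem pstep (h : IsFD O ϖ (g + 1) t ty q ε P z Φ N)
    (h' : IsFD O ϖ (g + 1 + 1) t ty q ε P' z' Φ' N') (ι : P →ₐ[O] P')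
    (hι0 : ι (z 0) = z' 0) (hι : ∀ j, (Φ j).map ι = Φ' j ∧ (N j).map ι = N' j)
    {d d' : ℕ} (hd : Nonempty (Fin d)) {ρ : P' →+* Matrix (Fin d) (Fin d) S}
    {ρ' : P' →+* Matrix (Fin d') (Fin d') S} {p : ℕ} {τ c : P'}
    (Z : XDat P' S (z' 0) ((p : P') + 1) τ ρ ρ')
    (hτ : ρ (τ ^ 2 - ((p : P') + 1) ^ 2 - c * z' 0) = 0) {rs : List S}
    (hG : Good ρ rs) (hG' : Good ρ' rs) (hGι : Good (ρ.comp ι.toRingHom) rs)
    {as : List P'} (has : List.Forall₂ (fun (a : P') (s : S) => ρ' a = Matrix.scalar _ s) as rs)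
    {𝔮 : Ideal P} (h𝔮 : IsComp O (g + 1) t ty q ε Φ N (fun _ => true) 𝔮)
    (hρ𝔮 : ∀ b, ρ (ι b) = 0 → b ∈ 𝔮)
    (hQ : ∀ j, ∀ y ∈ relQ (ty j) (q j) (Φ' j) (N' j), ρ' y = 0)
    (hlen : 1 + (g + 1) + ∑ j, (ty j).dl ≤ rs.length)
    (x : P' →+* O) (hx0 : x (z' 0) = 0)
    (hxQ : ∀ j, ∀ y ∈ relQ (ty j) (q j) (Φ' j) (N' j), x y = 0)
    (hxC : ∀ j, ∀ y ∈ relC true (q j) (ε j) (Φ' j) (N' j), x y = 0)
    (b : P') (hb : ρ' b = 0) : x b = 0 := by
  classical
  have hϖm : ϖ ∈ maximalIdeal O := by rw [hϖ]; exact Ideal.mem_span_singleton_self _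
  haveI := finite_PMod hG
  haveI := finite_PMod hG'
  haveI := finite_PMod hGι
  have hd' : Nonempty (Fin d') := by
    by_contra hcon
    rw [not_nonempty_iff] at hcon
    obtain ⟨i⟩ := hd
    have h1 := Z.hL11
    have h2 : Z.L1 * Z.I1 = 0 := by
      refine Matrix.ext fun i j => ?_
      rw [Matrix.mul_apply, Matrix.zero_apply]
      exact Finset.sum_eq_zero fun k _ => hcon.elim k
    rw [h2] at h1
    have h3 := congrFun (congrFun h1 i) i
    rw [Matrix.zero_apply, Matrix.one_apply_eq] at h3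
    exact zero_ne_one h3
  -- the point
  have hst := fun j => exists_stPt hϖ0 hϖm (hq j) (hε j)
  choose Φs Ns hst1 hst2 using hst
  obtain ⟨x₀, hx₀z, hx₀⟩ := h.exists_pt (fun _ => true) Φs Ns hst1
  have h𝔮x : 𝔮 ≤ RingHom.ker x₀.toRingHom := h𝔮.le_ker x₀ fun i => by
    rw [(hx₀ i).1, (hx₀ i).2]
    exact hst1 i
  haveI h𝔭 : (RingHom.ker x₀.toRingHom).IsPrime := RingHom.ker_isPrime _
  obtain ⟨𝔭, h𝔭1, h𝔭2, h𝔭3⟩ := exists_prime_over ρ ι.toRingHom (RingHom.ker x₀.toRingHom)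
    fun b hb => h𝔮x (hρ𝔮 b hb)
  haveI := h𝔭1
  have hmem : ∀ y : P, ι y ∈ 𝔭 ↔ x₀ y = 0 := by
    intro y
    have h1 : y ∈ 𝔭.comap ι.toRingHom ↔ y ∈ RingHom.ker x₀.toRingHom := by rw [h𝔭3]
    exact h1
  have hz0 : z' 0 ∈ 𝔭 := by
    rw [← hι0, hmem]
    exact hx₀z 0
  have hα : ((p : P') + 1) ∉ 𝔭 := by
    have h1 : ι ((p : P) + 1) = (p : P') + 1 := by rw [map_add, map_natCast, map_one]
    rw [← h1, hmem, map_add, map_natCast, map_one]
    exact_mod_cast Nat.succ_ne_zero p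
  have hD : τ ^ 2 - ((p : P') + 1) ^ 2 ∈ 𝔭 := by
    have h1 := h𝔭2 _ hτ
    have h2 := add_mem h1 (Ideal.mul_mem_left _ c hz0)
    rwa [sub_add_cancel] at h2
  let i1 : PMod ρ →ₗ[P'] PMod ρ' := mlin Z.I1 Z.hI1
  let i2 : PMod ρ →ₗ[P'] PMod ρ' := mlin Z.I2 Z.hI2
  have hcok : annihilator P' (PMod ρ' ⧸ (LinearMap.range i1 ⊔ LinearMap.range i2)) ≤ 𝔭 := by
    refine annihilator_coker_le i1 i2 (mlin Z.S1 Z.hS1) (mlin Z.S2 Z.hS2) ?_ ((p : P') + 1) τ
      ?_ ?_ ?_ ?_ 𝔭 ?_ hα hD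
    · intro x y
      refine ⟨show PMod ρ' from (Z.K1.mulVec (show Fin d → S from x) +
        Z.K2.mulVec (show Fin d → S from y)), ?_, ?_⟩
      · have e : ∀ x y : Fin d → S, Z.S1.mulVec (Z.K1.mulVec x + Z.K2.mulVec y) = x := fun x y => by
          rw [Matrix.mulVec_add, Matrix.mulVec_mulVec, Matrix.mulVec_mulVec, Z.hK11, Z.hK12,
            Matrix.one_mulVec, Matrix.zero_mulVec, add_zero]
        exact e x y
      · have e : ∀ x y : Fin d → S, Z.S2.mulVec (Z.K1.mulVec x + Z.K2.mulVec y) = y := fun x y => by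
          rw [Matrix.mulVec_add, Matrix.mulVec_mulVec, Matrix.mulVec_mulVec, Z.hK21, Z.hK22,
            Matrix.one_mulVec, Matrix.zero_mulVec, zero_add]
        exact e x y
    · intro x
      have e : ∀ x : Fin d → S, Z.S1.mulVec (Z.I1.mulVec x) = (ρ ((p : P') + 1)).mulVec x :=
        fun x => by rw [Matrix.mulVec_mulVec, Z.hSI11]
      exact e x
    · intro x
      have e : ∀ x : Fin d → S, Z.S1.mulVec (Z.I2.mulVec x) = (ρ τ).mulVec x :=
        fun x => by rw [Matrix.mulVec_mulVec, Z.hSI12]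
      exact e x
    · intro x
      have e : ∀ x : Fin d → S, Z.S2.mulVec (Z.I1.mulVec x) = (ρ τ).mulVec x :=
        fun x => by rw [Matrix.mulVec_mulVec, Z.hSI21]
      exact e x
    · intro x
      have e : ∀ x : Fin d → S, Z.S2.mulVec (Z.I2.mulVec x) = (ρ ((p : P') + 1)).mulVec x :=
        fun x => by rw [Matrix.mulVec_mulVec, Z.hSI22]
      exact e x
    · intro b hb
      exact h𝔭2 b ((mem_annihilator_iff ρ).1 hb)
  have hasm : ∀ a ∈ as, a ∈ maximalIdeal P' := by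
    intro a ha
    obtain ⟨i, hi, rfl⟩ := List.getElem_of_mem ha
    have h2 : i < rs.length := by rw [← has.length_eq]; exact hi
    refine hG'.mem_max (s := rs[i]) ?_ (has.get hi h2)
    rw [← hG'.max]
    exact Ideal.subset_span (List.getElem_mem h2)
  have hreg : IsWeaklyRegular (PMod ρ' ⧸ (LinearMap.range i1 ⊔ LinearMap.range i2)) as :=
    reg_coker Z.I1 Z.I2 Z.hI1 Z.hI2 Z.L1 Z.L2 Z.hL11 Z.hL12 Z.hL21 Z.hL22 hG'.reg has
  have hVQ : annihilator P' (PMod ρ') ≤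
      annihilator P' (PMod ρ' ⧸ (LinearMap.range i1 ⊔ LinearMap.range i2)) := by
    intro b hb
    rw [Module.mem_annihilator]
    intro v
    obtain ⟨v, rfl⟩ := Submodule.mkQ_surjective _ v
    rw [← map_smul, Module.mem_annihilator.1 hb, map_zero]
  have hu : z' 0 ^ 3 ∈
      annihilator P' (PMod ρ' ⧸ (LinearMap.range i1 ⊔ LinearMap.range i2)) := by
    rw [Module.mem_annihilator]
    intro v
    obtain ⟨v, rfl⟩ := Submodule.mkQ_surjective _ v
    rw [← map_smul, Submodule.mkQ_apply, Submodule.Quotient.mk_eq_zero]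
    have e : ∀ v : Fin d' → S, (ρ' (z' 0 ^ 3)).mulVec v =
        Z.I1.mulVec (Z.G1.mulVec v) + Z.I2.mulVec (Z.G2.mulVec v) := fun v => by
      rw [Z.new, Matrix.add_mulVec, Matrix.mulVec_mulVec, Matrix.mulVec_mulVec]
    have e' : (z' 0 ^ 3 • v : PMod ρ') = i1 (Z.G1.mulVec (show Fin d' → S from v)) +
        i2 (Z.G2.mulVec (show Fin d' → S from v)) := e v
    rw [e']
    exact Submodule.add_mem_sup ⟨_, rfl⟩ ⟨_, rfl⟩
  obtain ⟨𝔮', h𝔮'1, h𝔮'2, h𝔮'3⟩ := exists_comp0 h' hϖ0 hϖ hq hε (fun _ => true)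
  haveI := h𝔮'1
  have hlen' : 1 + (g + 1) + ∑ j, (ty j).dl ≤ as.length := by rw [has.length_eq]; exact hlen
  have hfin : annihilator P' (PMod ρ' ⧸ (LinearMap.range i1 ⊔ LinearMap.range i2)) ≤ 𝔮' := by
    refine annihilator_le_of_local hasm hreg 𝔭 𝔮' hcok (h𝔮'2.trans (by exact_mod_cast hlen')) ?_
    intro 𝔯 h𝔯 hQ𝔯 h𝔯𝔭
    haveI := h𝔯
    have hQr : ∀ i, relQ (ty i) (q i) (Φ' i) (N' i) ⊆ 𝔯 := fun i y hy =>
      hQ𝔯 (hVQ ((mem_annihilator_iff ρ').2 (hQ i y hy)))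
    refine h𝔮'3 𝔯 h𝔯.ne_top (Ideal.IsPrime.mem_of_pow_mem h𝔯 3 (hQ𝔯 hu)) hQr fun i y hy => ?_
    have hrq : RQ (ty i) (q i) ((Φ' i).map (Ideal.Quotient.mk 𝔯))
        ((N' i).map (Ideal.Quotient.mk 𝔯)) :=
      (relQ_map _).1 fun y hy => Ideal.Quotient.eq_zero_iff_mem.2 (hQr i hy)
    have hne0 : ∀ y : P, x₀ y ≠ 0 → Ideal.Quotient.mk 𝔯 (ι y) ≠ 0 := by
      intro y hy h0
      exact hy ((hmem y).1 (h𝔯𝔭 (Ideal.Quotient.eq_zero_iff_mem.1 h0)))
    have hqO : ((q i : O)) ≠ 0 := Nat.cast_ne_zero.2 (hq0 i)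
    have hq1O : ((q i : O) + 1) ≠ 0 := by exact_mod_cast Nat.succ_ne_zero (q i)
    have hqB : ((q i : ℕ) : P' ⧸ 𝔯) ≠ 0 := by
      have := hne0 (q i : P) (by rw [map_natCast]; exact hqO)
      rwa [map_natCast, map_natCast] at this
    have hq1B : ((q i : ℕ) : P' ⧸ 𝔯) + 1 ≠ 0 := by
      have := hne0 ((q i : P) + 1) (by rw [map_add, map_natCast, map_one]; exact hq1O)
      rwa [map_add, map_natCast, map_one, map_add, map_natCast, map_one] at this
    have htrι : ι (Φ i).trace = (Φ' i).trace := by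
      rw [← (hι i).1]
      exact (trace_map2 ι.toRingHom (Φ i)).symm
    have htr₀ : x₀ (Φ i).trace = (Φs i).trace := by
      rw [← (hx₀ i).1]
      exact (trace_map2 x₀.toRingHom (Φ i)).symm
    have htrB : ((Φ' i).map (Ideal.Quotient.mk 𝔯)).trace = Ideal.Quotient.mk 𝔯 (Φ' i).trace :=
      trace_map2 _ _
    have hsum : ((Φ' i).map (Ideal.Quotient.mk 𝔯)).trace + (ε i : P' ⧸ 𝔯) * (q i + 1) ≠ 0 := by
      have h2 := hne0 ((Φ i).trace + (ε i : P) * (q i + 1)) (by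
        rw [map_add, htr₀, (hst1 i).tr rfl, map_mul, map_add, map_natCast, map_one, map_intCast]
        have h3 : (ε i : O) * (q i + 1) + ε i * (q i + 1) = (2 * ε i) * (q i + 1) := by ring
        rw [h3]
        refine mul_ne_zero (mul_ne_zero two_ne_zero ?_) hq1O
        intro h4
        have h5 := cast_sq (hε i) O
        rw [h4] at h5
        simp at h5)
      have h3 : ι ((Φ i).trace + (ε i : P) * (q i + 1)) =
          (Φ' i).trace + (ε i : P') * (q i + 1) := by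
        rw [map_add, htrι, map_mul, map_add, map_natCast, map_one, map_intCast]
      rwa [h3, map_add, map_mul, map_add, map_natCast, map_one, map_intCast, ← htrB] at h2
    have hrc : RC true (q i) (ε i) ((Φ' i).map (Ideal.Quotient.mk 𝔯))
        ((N' i).map (Ideal.Quotient.mk 𝔯)) := by
      refine hrq.rc_true' (hε i) hqB hq1B hsum (Or.inl ?_)
      obtain ⟨a, b, hab⟩ := hst2 i
      refine ⟨a, b, ?_⟩
      have h4 : x₀ (N i a b) = Ns i a b := congrFun (congrFun (hx₀ i).2 a) b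
      have h5 : ι (N i a b) = N' i a b := congrFun (congrFun (hι i).2 a) b
      rw [Matrix.map_apply, ← h5]
      apply hne0
      rw [h4]
      exact hab
    exact Ideal.Quotient.eq_zero_iff_mem.1 ((relC_map _).2 hrc y hy)
  have hx𝔮 : 𝔮' ≤ RingHom.ker x :=
    h𝔮'3 _ (RingHom.ker_ne_top _) hx0 (fun j y hy => hxQ j y hy) (fun j y hy => hxC j y hy)
  exact hx𝔮 (hfin (hVQ ((mem_annihilator_iff ρ').2 hb)))

end pstep

end Fermat.Agent.StR
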