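import Fermat.Agent.StR.FinR
import Fermat.Agent.StR.PStep

/-!
# The modularity lifting theorem, abstract form (case III)
-/

set_option autoImplicit false
set_option linter.unusedSectionVars false
set_option linter.style.haveILetI false

namespace Fermat.Agent.StR

open IsLocalRing Filter RingTheory.Sequence Module Fermat.Agent.Patch Fermat.Agent.TW Matrix

attribute [local instance] MLev.crA MLev.lrA MLev.nrA MLev.algA MLev.finA MLev.lhA
attribute [local instance] XLev.crA' XLev.lrA' XLev.nrA' XLev.algA' XLev.finA' XLev.lhA'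

variable {O : Type} [CommRing O] [IsDomain O] [IsLocalRing O] [IsNoetherianRing O] [CharZero O]
  [IsAdicComplete (maximalIdeal O) O] [Finite (ResidueField O)] {ϖ : O}
  (hϖ0 : ϖ ≠ 0) (hϖ : maximalIdeal O = Ideal.span {ϖ}) {p : ℕ} [hp : Fact p.Prime]
  (hpO : (p : O) ∈ maximalIdeal O)
  {t : ℕ} {ty : Fin t → Ty} {q : Fin t → ℕ} {ε : Fin t → ℤ} {g r B : ℕ}

theorem XLev.mem_of {c : O} {n : ℕ} (X : XLev O ϖ p r g t B ty q ε c n) {o : O}
    (ho : o ∈ maximalIdeal O) : algebraMap O X.A' o ∈ maximalIdeal X.A' := by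
  rw [mem_maximalIdeal, mem_nonunits_iff]
  intro hu
  exact (mem_nonunits_iff.1 ((mem_maximalIdeal _).1 ho))
    (isUnit_of_map_unit (algebraMap O X.A') o hu)

section out

variable {P : Type} [CommRing P] [IsLocalRing P] [Algebra O P] {z : Fin (g + 1) → P}
  {Φ N : Fin t → Matrix (Fin 2) (Fin 2) P}
variable {P' : Type} [CommRing P'] [IsLocalRing P'] [Algebra O P'] {z' : Fin (g + 1 + 1) → P'}
  {Φ' N' : Fin t → Matrix (Fin 2) (Fin 2) P'}

include hϖ hpO in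
theorem XLev.out {c : O} {n n' : ℕ} (hn : n ≤ n') (X : XLev O ϖ p r g t B ty q ε c n')
    (h : IsFD O ϖ (g + 1) t ty q ε P z Φ N) (h' : IsFD O ϖ (g + 1 + 1) t ty q ε P' z' Φ' N')
    (ι : P →ₐ[O] P') (hιz : ∀ i, ι (z i) = z' i.castSucc)
    (hι : ∀ j, (Φ j).map ι = Φ' j ∧ (N j).map ι = N' j) :
    ∃ (J : Ideal (MvPowerSeries (Fin r) O))
      (Y : MDat P' (MvPowerSeries (Fin r) O ⧸ J) t ty q Φ' N' X.d X.dU X.dM)
      (ρ' : P' →+* Matrix (Fin X.d') (Fin X.d') (MvPowerSeries (Fin r) O ⧸ J)) (τ c₀ : P')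
      (_ : XDat P' (MvPowerSeries (Fin r) O ⧸ J) (z' 0) ((p : P') + 1) τ Y.ρ ρ')
      (x : P' →+* O) (a : Fin r → P') (b : P'),
      J ≤ maximalIdeal (MvPowerSeries (Fin r) O) ^ (n + 1) ∧
      Y.ρ (τ ^ 2 - ((p : P') + 1) ^ 2 - c₀ * z' 0) = 0 ∧
      (∀ s ∈ Patching.rs r ϖ, ∃ a : P, Y.ρ (ι a) = Matrix.scalar _ (Ideal.Quotient.mk J s) ∧
        (∀ j, Y.ρU j (ι a) = Matrix.scalar _ (Ideal.Quotient.mk J s)) ∧
        Y.ρM (ι a) = Matrix.scalar _ (Ideal.Quotient.mk J s)) ∧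
      (∀ s ∈ Patching.rs r ϖ, ∃ a : P', ρ' a = Matrix.scalar _ (Ideal.Quotient.mk J s)) ∧
      (∀ j, ∀ y ∈ relQ (ty j) (q j) (Φ' j) (N' j), ρ' y = 0) ∧
      x (z' 0) = 0 ∧
      (∀ j, ∀ y ∈ relQ (ty j) (q j) (Φ' j) (N' j), x y = 0) ∧
      (∀ j, ∀ y ∈ relC true (q j) (ε j) (Φ' j) (N' j), x y = 0) ∧
      (∀ i, ρ' (a i) = Matrix.scalar _ (Ideal.Quotient.mk J (MvPowerSeries.X i)) ∧
        x (a i) = 0) ∧
      (∀ i j, ρ' b i j ∈ (Ideal.span (Set.range MvPowerSeries.X)).map (Ideal.Quotient.mk J)) ∧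
      x b = c := by
  have hϖm : ϖ ∈ maximalIdeal O := by rw [hϖ]; exact Ideal.mem_span_singleton_self _
  obtain ⟨J, e, hJ, he1, he2⟩ := exists_GRJ (n := n) (n' := n') hϖ hpO hn X.P X.hP
  obtain ⟨D, hD1, hD2, hD3⟩ := X.toMLev.exists_dat
  haveI : IsAdicComplete (maximalIdeal X.A) X.A :=
    IsLocalRing.isAdicComplete_of_module_finite (𝒪 := O)
  haveI : IsAdicComplete (maximalIdeal X.A') X.A' :=
    IsLocalRing.isAdicComplete_of_module_finite (𝒪 := O)
  -- `P' → A'`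
  let zw : Fin (g + 1 + 1) → X.A' := Fin.snoc X.z' X.w
  have hzw1 : ∀ i : Fin (g + 1), zw i.castSucc = X.z' i := fun i => Fin.snoc_castSucc _ _ _
  have hzw2 : zw (Fin.last _) = X.w := Fin.snoc_last _ _
  have hπloc : ∀ y : X.A', X.π y ∈ maximalIdeal X.A → y ∈ maximalIdeal X.A' := by
    intro y hy
    rw [mem_maximalIdeal, mem_nonunits_iff] at hy ⊢
    exact fun hu => hy (hu.map X.π)
  have hzwm : ∀ i, zw i ∈ maximalIdeal X.A' := by
    intro i
    refine Fin.lastCases ?_ (fun i => ?_) i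
    · rw [hzw2]
      exact X.hw
    · rw [hzw1]
      apply hπloc
      rw [X.hz']
      exact X.hz i
  obtain ⟨G', hG'1, hG'2⟩ := h'.univ X.A' zw hzwm X.Φ' X.N' fun j => (X.qd' j).locI_le
  have hG's : Function.Surjective G' := by
    refine h'.surj hϖm (X.mem_of hϖm) G' hG'1 hzwm hG'2 X.qd' X.resA' (X.hgen'.trans ?_)
    refine sup_le_sup (sup_le_sup (sup_le (sup_le_sup le_rfl ?_) (le_trans ?_ le_sup_right))
      le_rfl) le_rfl
    · refine Ideal.span_mono ?_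
      rintro _ ⟨i, rfl⟩
      exact ⟨i.castSucc, hzw1 i⟩
    · rw [Ideal.span_le, Set.singleton_subset_iff]
      exact Ideal.subset_span ⟨Fin.last _, hzw2⟩
  let f₁ : P' →ₐ[O] X.A := X.π.comp G'
  have hf₁ : ∀ y, f₁ y = X.π (G' y) := fun _ => rfl
  have hf₁Φ : ∀ j, (Φ' j).map f₁ = X.Φ j := by
    intro j
    rw [← X.hΦ', ← (hG'2 j).1]
    rfl
  have hf₁N : ∀ j, (N' j).map f₁ = X.N j := by
    intro j
    rw [← X.hN', ← (hG'2 j).2]
    rfl
  let G : P →ₐ[O] X.A := f₁.comp ι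
  have hG : ∀ y, G y = f₁ (ι y) := fun _ => rfl
  have hG1 : ∀ i, G (z i) = X.z i := by
    intro i
    rw [hG, hιz, hf₁, hG'1, hzw1, X.hz']
  have hG2 : ∀ j, (Φ j).map G = X.Φ j ∧ (N j).map G = X.N j := by
    intro j
    constructor
    · rw [← hf₁Φ, ← (hι j).1]
      rfl
    · rw [← hf₁N, ← (hι j).2]
      rfl
  have hGs : Function.Surjective G :=
    h.surj hϖm (X.toMLev.mem_of hϖm) G hG1 X.hz hG2 X.qd X.resA X.hgen
  let Y : MDat P' (MvPowerSeries (Fin r) O ⧸ J) t ty q Φ' N' X.d X.dU X.dM :=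
    (D.comp f₁.toRingHom hf₁Φ hf₁N).mapT e
  have hY1 : ∀ a, Y.ρ a = e.mapMatrix (X.f (f₁ a)) := fun a => by
    change e.mapMatrix (D.ρ (f₁ a)) = _
    rw [hD1]
    rfl
  have hY2 : ∀ j a, Y.ρU j a = e.mapMatrix (X.fU j (f₁ a)) := fun j a => by
    change e.mapMatrix (D.ρU j (f₁ a)) = _
    rw [hD2]
    rfl
  have hY3 : ∀ a, Y.ρM a = e.mapMatrix (X.fM (f₁ a)) := fun a => by
    change e.mapMatrix (D.ρM (f₁ a)) = _
    rw [hD3]
    rfl
  let ρ' : P' →+* Matrix (Fin X.d') (Fin X.d') (MvPowerSeries (Fin r) O ⧸ J) :=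
    e.mapMatrix.comp (X.f'.comp G').toRingHom
  have hρ' : ∀ a, ρ' a = e.mapMatrix (X.f' (G' a)) := fun _ => rfl
  obtain ⟨τ₀, hτ₀⟩ := hGs X.T
  obtain ⟨cA, hcA⟩ := Ideal.mem_span_singleton'.1 X.hT
  obtain ⟨c₀, hc₀⟩ := hGs cA
  have hz'0 : f₁ (z' 0) = X.z 0 := by
    have h1 := hG1 0
    rw [hG, hιz] at h1
    exact h1
  have hG'0 : G' (z' 0) = X.z' 0 := by
    have h1 := hG'1 (Fin.castSucc 0)
    rw [hzw1] at h1
    exact h1
  have hα : f₁ ((p : P') + 1) = (p : X.A) + 1 := by rw [map_add, map_natCast, map_one]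
  obtain ⟨GG1, GG2, hGG⟩ := X.new'
  let Z : XDat P' (MvPowerSeries (Fin r) O ⧸ J) (z' 0) ((p : P') + 1) (ι τ₀) Y.ρ ρ' :=
    { I1 := X.I1.map e
      I2 := X.I2.map e
      L1 := X.L1.map e
      L2 := X.L2.map e
      S1 := X.S1.map e
      S2 := X.S2.map e
      K1 := X.K1.map e
      K2 := X.K2.map e
      G1 := GG1.map e
      G2 := GG2.map e
      hI1 := fun a => by
        rw [hρ', hY1]
        exact mul_map2 (X.hI1 (G' a))
      hI2 := fun a => by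
        rw [hρ', hY1]
        exact mul_map2 (X.hI2 (G' a))
      hL11 := (mul_map X.hL.1).trans (Matrix.map_one _ (map_zero e) (map_one e))
      hL12 := (mul_map X.hL.2.1).trans (Matrix.map_zero _ (map_zero e))
      hL21 := (mul_map X.hL.2.2.1).trans (Matrix.map_zero _ (map_zero e))
      hL22 := (mul_map X.hL.2.2.2).trans (Matrix.map_one _ (map_zero e) (map_one e))
      hS1 := fun a => by
        rw [hρ', hY1]
        exact mul_map2 (X.hS1 (G' a))
      hS2 := fun a => by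
        rw [hρ', hY1]
        exact mul_map2 (X.hS2 (G' a))
      hK11 := (mul_map X.hK.1).trans (Matrix.map_one _ (map_zero e) (map_one e))
      hK12 := (mul_map X.hK.2.1).trans (Matrix.map_zero _ (map_zero e))
      hK21 := (mul_map X.hK.2.2.1).trans (Matrix.map_zero _ (map_zero e))
      hK22 := (mul_map X.hK.2.2.2).trans (Matrix.map_one _ (map_zero e) (map_one e))
      hSI11 := by
        rw [hY1, hα]
        exact mul_map X.hSI.1
      hSI12 := by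
        rw [hY1, ← hG, hτ₀]
        exact mul_map X.hSI.2.1
      hSI21 := by
        rw [hY1, ← hG, hτ₀]
        exact mul_map X.hSI.2.2.1
      hSI22 := by
        rw [hY1, hα]
        exact mul_map X.hSI.2.2.2
      new := by
        rw [hρ', map_pow G', hG'0, hGG, RingHom.mapMatrix_apply, Matrix.map_add _ (map_add e),
          Matrix.map_mul, Matrix.map_mul] }
  choose a0 ha0 using X.dia'
  choose a ha using fun i => hG's (a0 i - 1)
  obtain ⟨b, hb⟩ := hG's X.h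
  let x : P' →+* O := (X.x.comp G').toRingHom
  have hx : ∀ y, x y = X.x (G' y) := fun _ => rfl
  have hρ'a : ∀ i, ρ' (a i) = Matrix.scalar _ (Ideal.Quotient.mk J (MvPowerSeries.X i)) := by
    intro i
    rw [hρ', ha, map_sub, (ha0 i).1, map_one, ← map_one (Matrix.scalar (Fin X.d')), ← map_sub,
      mapMatrix_scalar, he1]
  refine ⟨J, Y, ρ', ι τ₀, ι c₀, Z, x, a, b, hJ, ?_, ?_, ?_, ?_, ?_, ?_, ?_, fun i => ⟨hρ'a i, ?_⟩,
    ?_, ?_⟩
  · have h1 : f₁ (ι τ₀ ^ 2 - ((p : P') + 1) ^ 2 - ι c₀ * z' 0) = 0 := by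
      rw [map_sub, map_sub, map_pow, map_pow, map_mul, ← hG, ← hG, hτ₀, hc₀, hα, hz'0, ← hcA,
        sub_self]
    rw [hY1, h1, map_zero, map_zero]
  · intro s hs
    rw [Patching.rs, List.mem_append, List.mem_map, List.mem_singleton] at hs
    obtain ⟨i, -, rfl⟩ | rfl := hs
    · obtain ⟨a, ha1, ha2, ha3⟩ := X.dia i
      obtain ⟨b, hb⟩ := hGs (a - 1)
      refine ⟨b, ?_, fun j => ?_, ?_⟩
      · rw [hY1, ← hG, hb, map_sub, ha1, map_one, ← map_one (Matrix.scalar (Fin X.d)), ← map_sub,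
          mapMatrix_scalar, he1]
      · rw [hY2, ← hG, hb, map_sub, ha2, map_one, ← map_one (Matrix.scalar (Fin (X.dU j))),
          ← map_sub, mapMatrix_scalar, he1]
      · rw [hY3, ← hG, hb, map_sub, ha3, map_one, ← map_one (Matrix.scalar (Fin X.dM)), ← map_sub,
          mapMatrix_scalar, he1]
    · refine ⟨algebraMap O P ϖ, ?_, fun j => ?_, ?_⟩
      · rw [hY1, ← hG, G.commutes, X.f.commutes, algebraMap_scalar, mapMatrix_scalar, he2]
      · rw [hY2, ← hG, G.commutes, (X.fU j).commutes, algebraMap_scalar, mapMatrix_scalar, he2]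
      · rw [hY3, ← hG, G.commutes, X.fM.commutes, algebraMap_scalar, mapMatrix_scalar, he2]
  · intro s hs
    rw [Patching.rs, List.mem_append, List.mem_map, List.mem_singleton] at hs
    obtain ⟨i, -, rfl⟩ | rfl := hs
    · exact ⟨a i, hρ'a i⟩
    · refine ⟨algebraMap O P' ϖ, ?_⟩
      rw [hρ', G'.commutes, X.f'.commutes, algebraMap_scalar, mapMatrix_scalar, he2]
  · intro j y hy
    have h1 := relQ_image G'.toRingHom hy
    have h2 : (Φ' j).map G'.toRingHom = X.Φ' j := (hG'2 j).1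
    have h3 : (N' j).map G'.toRingHom = X.N' j := (hG'2 j).2
    rw [h2, h3] at h1
    have h5 : G' y = 0 := relQ_zero (X.qd' j).rq h1
    rw [hρ', h5, map_zero, map_zero]
  · rw [hx, hG'0]
    exact X.hxu
  · intro j y hy
    have h1 := relQ_image G'.toRingHom hy
    have h2 : (Φ' j).map G'.toRingHom = X.Φ' j := (hG'2 j).1
    have h3 : (N' j).map G'.toRingHom = X.N' j := (hG'2 j).2
    rw [h2, h3] at h1
    have h5 : G' y = 0 := relQ_zero (X.qd' j).rq h1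
    rw [hx, h5, map_zero]
  · intro j
    rw [relC_map x]
    have h2 : (Φ' j).map x = (X.Φ' j).map X.x := by
      rw [← (hG'2 j).1]
      rfl
    have h3 : (N' j).map x = (X.N' j).map X.x := by
      rw [← (hG'2 j).2]
      rfl
    rw [h2, h3]
    refine ⟨fun _ => ?_, fun _ => ?_, fun h => Bool.noConfusion h⟩
    · exact (trace_map2 X.x.toRingHom (X.Φ' j)).trans (X.hxΦ j)
    · have h4 := X.hxN j
      have h5 : (X.N' j).map X.x.toRingHom * ((X.Φ' j).map X.x.toRingHom -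
          (ε j : O) • (1 : Matrix (Fin 2) (Fin 2) O)) =
          (X.N' j * (X.Φ' j - (ε j : X.A') • (1 : Matrix (Fin 2) (Fin 2) X.A'))).map
            X.x.toRingHom := by
        rw [← map_sub_smul_one, ← Matrix.map_mul]
      exact h5.trans h4
  · rw [hx, ha, map_sub, (ha0 i).2.2, map_one, sub_self]
  · intro i j
    rw [hρ', hb, RingHom.mapMatrix_apply, Matrix.map_apply]
    have h1 := Ideal.mem_map_of_mem e (X.hh i j)
    rw [Ideal.map_span, ← Set.range_comp] at h1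
    rw [Ideal.map_span, ← Set.range_comp]
    have h2 : (e ∘ fun i => GR.δ O X.P i - 1) = (Ideal.Quotient.mk J ∘ MvPowerSeries.X) := by
      funext i
      exact he1 i
    rwa [h2] at h1
  · rw [hx, hb]
    exact X.hx

end out

include hϖ0 hϖ hpO in
/-- **The modularity lifting theorem, abstract form (case III).** -/
theorem lift_of_XLev (hq : ∀ j, ty j = Ty.sc → ϖ ∣ (q j : O) - 1) (hε : ∀ j, ε j ^ 2 = 1)
    (hq0 : ∀ j, q j ≠ 0) {c : O} (X : ∀ n, XLev O ϖ p r g t B ty q ε c n)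
    (hr : (g + 1) + ∑ j, (ty j).dl ≤ r) : c = 0 := by
  classical
  -- pigeonhole
  have hpig : ∃ (d : ℕ) (dU : Fin t → ℕ) (dM : ℕ) (d' : ℕ), ∀ n, ∃ n', n ≤ n' ∧ (X n').d = d ∧
      (X n').dU = dU ∧ (X n').dM = dM ∧ (X n').d' = d' := by
    obtain ⟨v, hv⟩ := exists_eventually_eq
      (α := Fin (B + 1) × (Fin t → Fin (B + 1)) × Fin (B + 1) × Fin (B + 1))
      fun n => (⟨(X n).d, Nat.lt_succ_of_le (X n).hd⟩,
        fun j => ⟨(X n).dU j, Nat.lt_succ_of_le ((X n).hdU j)⟩,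
        ⟨(X n).dM, Nat.lt_succ_of_le (X n).hdM.2⟩, ⟨(X n).d', Nat.lt_succ_of_le (X n).hd'⟩)
    refine ⟨v.1.1, fun j => (v.2.1 j).1, v.2.2.1.1, v.2.2.2.1, fun n => ?_⟩
    obtain ⟨n', h1, h2⟩ := ((hyper_of_atTop (eventually_ge_atTop n)).and hv).exists
    refine ⟨n', h1, ?_, ?_, ?_, ?_⟩
    · rw [← h2]
    · rw [← h2]
    · rw [← h2]
    · rw [← h2]
  obtain ⟨d, dU, dM, d', hpig⟩ := hpig
  obtain ⟨P, i1, i2, i3, z, Φ, N, hFD, hfin⟩ := exists_FD hϖ0 hϖ (g + 1) t ty q ε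
  obtain ⟨P', k1, k2, k3, z', Φ', N', hFD', hfin'⟩ := exists_FD hϖ0 hϖ (g + 1 + 1) t ty q ε
  haveI := hFD.noe
  haveI := hFD.cpl
  haveI := hFD'.noe
  haveI := hFD'.cpl
  obtain ⟨ι, hιz, hι⟩ := hFD.univ P' (fun i => z' i.castSucc) (fun i => hFD'.hz _) Φ' N'
    fun j => hFD'.hl j
  have hϖm : ϖ ∈ maximalIdeal O := by rw [hϖ]; exact Ideal.mem_span_singleton_self _
  have hιloc : ∀ x ∈ maximalIdeal P, ι x ∈ maximalIdeal P' :=
    hFD.local ι (hFD'.loc _ hϖm) (fun i => by rw [hιz]; exact hFD'.hz _)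
      (fun j => by rw [(hι j).1, (hι j).2]; exact hFD'.hl j)
  let S := MvPowerSeries (Fin r) O
  have hdM : 0 < dM := by
    obtain ⟨n', -, -, -, h, -⟩ := hpig 0
    rw [← h]
    exact (X n').hdM.1
  have hlev : ∀ n, ∃ (J : Ideal S)
      (Y : MDat P' (S ⧸ J) t ty q Φ' N' d dU dM)
      (ρ' : P' →+* Matrix (Fin d') (Fin d') (S ⧸ J)) (τ c₀ : P')
      (_ : XDat P' (S ⧸ J) (z' 0) ((p : P') + 1) τ Y.ρ ρ')
      (x : P' →+* O) (a : Fin r → P') (b : P'),
      J ≤ maximalIdeal S ^ (n + 1) ∧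
      Y.ρ (τ ^ 2 - ((p : P') + 1) ^ 2 - c₀ * z' 0) = 0 ∧
      (∀ s ∈ Patching.rs r ϖ, ∃ a : P, Y.ρ (ι a) = Matrix.scalar _ (Ideal.Quotient.mk J s) ∧
        (∀ j, Y.ρU j (ι a) = Matrix.scalar _ (Ideal.Quotient.mk J s)) ∧
        Y.ρM (ι a) = Matrix.scalar _ (Ideal.Quotient.mk J s)) ∧
      (∀ s ∈ Patching.rs r ϖ, ∃ a : P', ρ' a = Matrix.scalar _ (Ideal.Quotient.mk J s)) ∧
      (∀ j, ∀ y ∈ relQ (ty j) (q j) (Φ' j) (N' j), ρ' y = 0) ∧
      x (z' 0) = 0 ∧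
      (∀ j, ∀ y ∈ relQ (ty j) (q j) (Φ' j) (N' j), x y = 0) ∧
      (∀ j, ∀ y ∈ relC true (q j) (ε j) (Φ' j) (N' j), x y = 0) ∧
      (∀ i, ρ' (a i) = Matrix.scalar _ (Ideal.Quotient.mk J (MvPowerSeries.X i)) ∧
        x (a i) = 0) ∧
      (∀ i j, ρ' b i j ∈ (Ideal.span (Set.range MvPowerSeries.X)).map (Ideal.Quotient.mk J)) ∧
      x b = c := by
    intro n
    obtain ⟨n', hn, h1, h2, h3, h4⟩ := hpig n
    subst h1 h2 h3 h4
    exact XLev.out hϖ hpO hn (X n') hFD hFD' ι hιz hι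
  choose J Y ρ' τ c₀ Z x a b hJ hτ hdia hdia' hρQ hx0 hxQ hxC ha hb hc using hlev
  have hJ' : ∀ m, ∀ᶠ n in atTop, J n ≤ (maximalIdeal S) ^ m := by
    intro m
    filter_upwards [eventually_ge_atTop m] with n hn
    exact (hJ n).trans (Ideal.pow_le_pow_right (by omega))
  obtain ⟨Y', hY1, hY2, hY3⟩ := MDat.exists_lim hJ' Y
  obtain ⟨τ₁, hτ₁⟩ := exists_LimP τ
  obtain ⟨c₁, hc₁⟩ := exists_LimP c₀
  obtain ⟨Z'⟩ := XDat.exists_lim hJ' hτ₁ Z
  have hreg := Patching.isWeaklyRegular_rs (R := O) (r := r) hϖ0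
  have hmax := Patching.ofList_rs_eq_maximalIdeal (r := r) hϖ
  have hG : Good Y'.ρ (Patching.rs r ϖ) := by
    rw [hY1]
    refine good_limHom hJ' hreg hmax _ fun n s hs => ?_
    obtain ⟨a, h1, -, -⟩ := hdia n s hs
    exact ⟨ι a, h1⟩
  have hGU : ∀ j, Good (Y'.ρU j) (Patching.rs r ϖ) := by
    intro j
    rw [hY2]
    refine good_limHom hJ' hreg hmax _ fun n s hs => ?_
    obtain ⟨a, -, h1, -⟩ := hdia n s hs
    exact ⟨ι a, h1 j⟩
  have hGM : Good Y'.ρM (Patching.rs r ϖ) := by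
    rw [hY3]
    refine good_limHom hJ' hreg hmax _ fun n s hs => ?_
    obtain ⟨a, -, -, h1⟩ := hdia n s hs
    exact ⟨ι a, h1⟩
  have hG' : Good (limHom hJ' ρ') (Patching.rs r ϖ) :=
    good_limHom hJ' hreg hmax _ fun n s hs => hdia' n s hs
  -- common lifts in `P`
  have hact : ∀ s ∈ Patching.rs r ϖ, ∃ a : P, Y'.ρ (ι a) = Matrix.scalar _ s ∧
      (∀ j, Y'.ρU j (ι a) = Matrix.scalar _ s) ∧ Y'.ρM (ι a) = Matrix.scalar _ s := by
    intro s hs
    choose a ha1 ha2 ha3 using fun n => hdia n s hs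
    obtain ⟨L, hL⟩ := exists_LimP a
    have hL' : LimP (fun n => ι (a n)) (ι L) := by
      intro m
      filter_upwards [hL m] with n hn
      refine ⟨bot_le, ?_⟩
      rw [← map_sub]
      have h1 : (maximalIdeal P) ^ m ≤ ((maximalIdeal P') ^ m).comap ι.toRingHom :=
        (Ideal.pow_right_mono (fun x hx => hιloc x hx) m).trans (Ideal.le_comap_pow _ m)
      exact h1 hn.2
    refine ⟨L, ?_, fun j => ?_, ?_⟩
    · rw [hY1]
      exact lim_scalar hJ' _ hL' ha1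
    · rw [hY2]
      exact lim_scalar hJ' _ hL' fun n => ha2 n j
    · rw [hY3]
      exact lim_scalar hJ' _ hL' ha3
  have hcomp : ∀ {κ : Type} [Fintype κ] [DecidableEq κ] (f : P' →+* Matrix κ κ S),
      Good f (Patching.rs r ϖ) → (∀ s ∈ Patching.rs r ϖ, ∃ a : P, f (ι a) = Matrix.scalar _ s) →
      Good (f.comp ι.toRingHom) (Patching.rs r ϖ) := by
    intro κ _ _ f hf h1
    refine ⟨hf.reg, hf.max, ?_, h1⟩
    obtain ⟨k, hk⟩ := hf.cont
    refine ⟨k, fun m y hy i j => hk m (ι y) ?_ i j⟩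
    have h1 : (maximalIdeal P) ^ (k * m) ≤ ((maximalIdeal P') ^ (k * m)).comap ι.toRingHom :=
      (Ideal.pow_right_mono (fun x hx => hιloc x hx) _).trans (Ideal.le_comap_pow _ _)
    exact h1 hy
  have hGι : Good (Y'.ρ.comp ι.toRingHom) (Patching.rs r ϖ) := hcomp _ hG fun s hs => by
    obtain ⟨a, h1, -, -⟩ := hact s hs
    exact ⟨a, h1⟩
  obtain ⟨as, has⟩ := exists_lift_list (r := fun (a : P) (s : S) =>
      Y'.ρ (ι a) = Matrix.scalar _ s ∧ Y'.ρM (ι a) = Matrix.scalar _ s) (Patching.rs r ϖ) (by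
    intro s hs
    obtain ⟨a, h1, -, h2⟩ := hact s hs
    exact ⟨a, h1, h2⟩)
  have hlen : 1 + (g + 1) + ∑ j, (ty j).dl ≤ (Patching.rs r ϖ).length := by
    rw [Patching.length_rs]
    omega
  -- the flat world
  let YP : MDat P S t ty q Φ N d dU dM :=
    Y'.comp ι.toRingHom (fun j => (hι j).1) (fun j => (hι j).2)
  obtain ⟨𝔮, h𝔮, hρ𝔮⟩ := YP.chain hϖ0 hϖ hq hε hq0 hFD hdM hGι
    (fun j => hcomp _ (hGU j) fun s hs => by
      obtain ⟨a, -, h1, -⟩ := hact s hs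
      exact ⟨a, h1 j⟩)
    (hcomp _ hGM fun s hs => by
      obtain ⟨a, -, -, h1⟩ := hact s hs
      exact ⟨a, h1⟩) has hlen
  have hdne : Nonempty (Fin d) := by
    by_contra hcon
    rw [not_nonempty_iff] at hcon
    have h1 := Y'.hl0
    have h2 : Y'.l0 * Y'.j0 = 0 := by
      refine Matrix.ext fun i j => ?_
      rw [Matrix.mul_apply, Matrix.zero_apply]
      exact Finset.sum_eq_zero fun k _ => hcon.elim k
    rw [h2] at h1
    have h3 := congrFun (congrFun h1 ⟨0, hdM⟩) ⟨0, hdM⟩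
    rw [Matrix.zero_apply, Matrix.one_apply_eq] at h3
    exact zero_ne_one h3
  have hdne' : Nonempty (Fin d') := by
    by_contra hcon
    rw [not_nonempty_iff] at hcon
    obtain ⟨i⟩ := hdne
    have h1 := Z'.hL11
    have h2 : Z'.L1 * Z'.I1 = 0 := by
      refine Matrix.ext fun i j => ?_
      rw [Matrix.mul_apply, Matrix.zero_apply]
      exact Finset.sum_eq_zero fun k _ => hcon.elim k
    rw [h2] at h1
    have h3 := congrFun (congrFun h1 i) i
    rw [Matrix.zero_apply, Matrix.one_apply_eq] at h3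
    exact zero_ne_one h3
  -- the step at `p`
  obtain ⟨as', has'⟩ := exists_lift_list (r := fun (a : P') (s : S) =>
      limHom hJ' ρ' a = Matrix.scalar _ s) (Patching.rs r ϖ) hG'.act
  have hlimpt : ∀ y : P', (∀ n, x n y = 0) → limPt x y = 0 := fun y hy =>
    limPt_eq x (LimS.const hbot y) hy
  have hτ₂ : Y'.ρ (τ₁ ^ 2 - ((p : P') + 1) ^ 2 - c₁ * z' 0) = 0 := by
    rw [hY1]
    have h1 : LimP (fun n => τ n ^ 2 - ((p : P') + 1) ^ 2 - c₀ n * z' 0)
        (τ₁ ^ 2 - ((p : P') + 1) ^ 2 - c₁ * z' 0) := by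
      have h2 : LimP (fun n => τ n * τ n) (τ₁ * τ₁) := hτ₁.mul hτ₁
      have h3 : LimP (fun _ : ℕ => -(((p : P') + 1) ^ 2)) (-(((p : P') + 1) ^ 2)) :=
        LimS.const hbot _
      have h4 : LimP (fun n => c₀ n * (-(z' 0))) (c₁ * (-(z' 0))) :=
        hc₁.mul (LimS.const hbot _)
      have h5 := (h2.add h3).add h4
      have e1 : (fun n => τ n * τ n + -(((p : P') + 1) ^ 2) + c₀ n * (-(z' 0))) =
          fun n => τ n ^ 2 - ((p : P') + 1) ^ 2 - c₀ n * z' 0 := by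
        funext n
        ring
      have e2 : τ₁ * τ₁ + -(((p : P') + 1) ^ 2) + c₁ * (-(z' 0)) =
          τ₁ ^ 2 - ((p : P') + 1) ^ 2 - c₁ * z' 0 := by ring
      rw [e1, e2] at h5
      exact h5
    exact limHom_eq_zero hJ' _ h1 hτ
  have hρQ' : ∀ j, ∀ y ∈ relQ (ty j) (q j) (Φ' j) (N' j), limHom hJ' ρ' y = 0 := fun j y hy =>
    limHom_eq_zero hJ' _ (LimS.const hbot y) fun n => hρQ n j y hy
  have hι0 : ι (z 0) = z' 0 := hιz 0
  rw [← hY1] at Z'
  refine eq_zero_of_limit (κ := Fin d') hJ' hreg hmax ρ' hdia' x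
    (MvPowerSeries.X : Fin r → S) (fun i n => a n i) (fun i n => (ha n i).1)
    (fun i n => (ha n i).2) ?_ b (fun n i j => hb n i j) c hc
  intro y hy
  exact pstep hϖ0 hϖ hq hε hq0 hFD hFD' ι hι0 hι hdne Z' hτ₂ hG hG' hGι has' h𝔮
    (fun b hb => hρ𝔮 b hb) hρQ' hlen (limPt x) (hlimpt _ hx0)
    (fun j y hy => hlimpt y fun n => hxQ n j y hy) (fun j y hy => hlimpt y fun n => hxC n j y hy)
    y hy

end Fermat.Agent.StR
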