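import Fermat.Agent.Patch.PS
import Fermat.Agent.Patch.Dim
import Fermat.Prelude.Thm_IsLocalRing_isAdicComplete_of_module_finite

/-!
# Admissible rings
-/

set_option autoImplicit false
set_option linter.unusedSectionVars false
set_option linter.style.haveILetI false

namespace Fermat.Agent.StR

open IsLocalRing

/-- Complete local noetherian domains over `O` with residue field that of `O`, in which `ϖ` is
prime. -/
structure Adm (O : Type) [CommRing O] [IsLocalRing O] (ϖ : O) (R : Type) [CommRing R]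
    [IsLocalRing R] [Algebra O R] : Prop where
  dom : IsDomain R
  noe : IsNoetherianRing R
  cpl : IsAdicComplete (maximalIdeal R) R
  res : ∀ x : R, ∃ o : O, x - algebraMap O R o ∈ maximalIdeal R
  loc : ∀ o ∈ maximalIdeal O, algebraMap O R o ∈ maximalIdeal R
  prm : Prime (algebraMap O R ϖ)

section prime

variable {σ R : Type} [CommRing R]

theorem C_dvd_iff {π : R} {f : MvPowerSeries σ R} :
    MvPowerSeries.C π ∣ f ↔ ∀ d, π ∣ MvPowerSeries.coeff d f := by
  constructor
  · rintro ⟨g, rfl⟩ d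
    rw [MvPowerSeries.coeff_C_mul]
    exact dvd_mul_right _ _
  · intro h
    choose g hg using h
    obtain ⟨G, hG⟩ : ∃ G : MvPowerSeries σ R, ∀ d, MvPowerSeries.coeff d G = g d :=
      ⟨fun d => g d, fun d => rfl⟩
    refine ⟨G, ?_⟩
    ext d
    rw [MvPowerSeries.coeff_C_mul, hG]
    exact hg d

theorem map_eq_zero_iff_C_dvd {π : R} {f : MvPowerSeries σ R} :
    MvPowerSeries.map (σ := σ) (Ideal.Quotient.mk (Ideal.span {π})) f = 0 ↔
      MvPowerSeries.C π ∣ f := by
  rw [C_dvd_iff]
  constructor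
  · intro h d
    have := congrArg (MvPowerSeries.coeff d) h
    rw [MvPowerSeries.coeff_map, map_zero, Ideal.Quotient.eq_zero_iff_mem,
      Ideal.mem_span_singleton] at this
    exact this
  · intro h
    ext d
    rw [MvPowerSeries.coeff_map, map_zero, Ideal.Quotient.eq_zero_iff_mem,
      Ideal.mem_span_singleton]
    exact h d

theorem prime_C {π : R} (hπ : Prime π) : Prime (MvPowerSeries.C (σ := σ) π) := by
  haveI : (Ideal.span {π}).IsPrime := (Ideal.span_singleton_prime hπ.ne_zero).2 hπ
  refine ⟨fun h => hπ.ne_zero ?_, fun h => hπ.not_isUnit ?_, fun f g h => ?_⟩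
  · have := congrArg (MvPowerSeries.coeff 0) h
    rwa [MvPowerSeries.coeff_zero_C, map_zero] at this
  · have := h.map (MvPowerSeries.constantCoeff (σ := σ) (R := R))
    rwa [MvPowerSeries.constantCoeff_C] at this
  · rw [← map_eq_zero_iff_C_dvd, map_mul] at h
    rw [← map_eq_zero_iff_C_dvd, ← map_eq_zero_iff_C_dvd]
    exact mul_eq_zero.1 h

end prime

variable {O : Type} [CommRing O] [IsLocalRing O] {ϖ : O}
variable {R : Type} [CommRing R] [IsLocalRing R] [Algebra O R]

theorem Adm.of_equiv (h : Adm O ϖ R) {R' : Type} [CommRing R'] [IsLocalRing R'] [Algebra O R']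
    (e : R ≃ₐ[O] R') : Adm O ϖ R' := by
  have hm : ∀ x : R, x ∈ maximalIdeal R ↔ e x ∈ maximalIdeal R' := by
    intro x
    rw [mem_maximalIdeal, mem_maximalIdeal, mem_nonunits_iff, mem_nonunits_iff]
    exact not_congr (MulEquiv.isUnit_map (e : R ≃* R')).symm
  have hmap : (maximalIdeal R).map e.toRingEquiv = maximalIdeal R' := by
    ext y
    rw [Ideal.mem_map_of_equiv]
    constructor
    · rintro ⟨x, hx, rfl⟩
      exact (hm x).1 hx
    · intro hy
      refine ⟨e.symm y, ?_, e.apply_symm_apply y⟩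
      rw [hm, e.apply_symm_apply]
      exact hy
  haveI := h.dom
  haveI := h.noe
  haveI := h.cpl
  refine ⟨e.symm.toMulEquiv.isDomain R, isNoetherianRing_of_ringEquiv R e.toRingEquiv, ?_, ?_,
    ?_, ?_⟩
  · rw [← hmap]
    exact (IsAdicComplete.congr_ringEquiv _ e.toRingEquiv).2 inferInstance
  · intro y
    obtain ⟨o, ho⟩ := h.res (e.symm y)
    refine ⟨o, ?_⟩
    rw [hm, map_sub, e.apply_symm_apply, e.commutes] at ho
    exact ho
  · intro o ho
    rw [← e.commutes, ← hm]
    exact h.loc o ho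
  · have := (MulEquiv.prime_iff (e : R ≃* R') (p := algebraMap O R ϖ)).2 h.prm
    rw [← e.commutes]
    exact this

theorem Adm.mvps (h : Adm O ϖ R) (n : ℕ) : Adm O ϖ (MvPowerSeries (Fin n) R) := by
  haveI := h.dom
  haveI := h.noe
  haveI := h.cpl
  refine ⟨NoZeroDivisors.to_isDomain _, inferInstance, Patch.isAdicComplete_ps, ?_, ?_, ?_⟩
  · intro f
    obtain ⟨o, ho⟩ := h.res (MvPowerSeries.constantCoeff f)
    refine ⟨o, ?_⟩
    rw [mem_maximalIdeal, mem_nonunits_iff, MvPowerSeries.isUnit_iff_constantCoeff, map_sub,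
      MvPowerSeries.algebraMap_apply, MvPowerSeries.constantCoeff_C]
    exact (mem_maximalIdeal _).1 ho
  · intro o ho
    rw [MvPowerSeries.algebraMap_apply]
    exact Patch.C_mem_max (h.loc o ho)
  · rw [MvPowerSeries.algebraMap_apply]
    exact prime_C h.prm

open PowerSeries in
theorem Adm.ps (h : Adm O ϖ R) : Adm O ϖ R⟦X⟧ :=
  (h.mvps 1).of_equiv ((MvPowerSeries.renameEquiv R (Equiv.ofUnique (Fin 1) Unit)).restrictScalars O)

section univ

open PowerSeries

/-- the universal property of power series rings -/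
theorem exists_eval_ps {B : Type} [CommRing B] [IsLocalRing B] [IsAdicComplete (maximalIdeal B) B]
    (φ : R →+* B) (b : B) (hb : b ∈ maximalIdeal B) :
    ∃ ψ : R⟦X⟧ →+* B, (∀ x, ψ (C x) = φ x) ∧ ψ X = b := by
  letI : Algebra R B := φ.toAlgebra
  obtain ⟨f, hf⟩ := Patch.exists_eval (O := R) (fun _ : Fin 1 => b) (fun _ => hb)
  let e := MvPowerSeries.renameEquiv R (Equiv.ofUnique (Fin 1) Unit)
  refine ⟨(f.comp e.symm.toAlgHom).toRingHom, fun x => ?_, ?_⟩
  · have h1 : (f.comp e.symm.toAlgHom) (algebraMap R _ x) = algebraMap R B x := AlgHom.commutes _ _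
    exact h1
  · have h1 : e (MvPowerSeries.X 0) = (X : R⟦X⟧) := by
      change MvPowerSeries.rename _ _ = _
      rw [MvPowerSeries.rename_X]
      rfl
    have h2 : e.symm (X : R⟦X⟧) = MvPowerSeries.X 0 := by
      rw [← h1, AlgEquiv.symm_apply_apply]
    change f (e.symm (X : R⟦X⟧)) = b
    rw [h2, hf]

theorem mem_max_ps {f : R⟦X⟧} : f ∈ maximalIdeal R⟦X⟧ ↔ constantCoeff f ∈ maximalIdeal R := by
  rw [mem_maximalIdeal, mem_maximalIdeal, mem_nonunits_iff, mem_nonunits_iff,
    PowerSeries.isUnit_iff_constantCoeff]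

theorem max_ps_le : maximalIdeal R⟦X⟧ ≤ (maximalIdeal R).map (C (R := R)) ⊔ Ideal.span {X} := by
  intro f hf
  rw [mem_max_ps] at hf
  have h1 : f = C (constantCoeff f) + (f - C (constantCoeff f)) := by ring
  rw [h1]
  refine Submodule.add_mem_sup (Ideal.mem_map_of_mem _ hf) ?_
  rw [Ideal.mem_span_singleton, X_dvd_iff, map_sub, constantCoeff_C, sub_self]

end univ

/-- the dimension bound -/
theorem ringKrullDim_le_of_radical {T : Type} [CommRing T] [IsLocalRing T] [IsNoetherianRing T]
    (ws : List T) (hws : ∀ w ∈ ws, w ∈ maximalIdeal T)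
    (h : maximalIdeal T ≤ (Ideal.ofList ws).radical) : ringKrullDim T ≤ ws.length := by
  have h1 := Patch.supportDim_le_length (M := T) ws hws (h.trans (Ideal.radical_mono (by
    intro x hx
    rw [Module.mem_annihilator]
    intro y
    obtain ⟨v, rfl⟩ := Submodule.mkQ_surjective _ y
    rw [← map_smul, Submodule.mkQ_apply, Submodule.Quotient.mk_eq_zero]
    exact Submodule.smul_mem_smul hx trivial)))
  rwa [Module.supportDim_self_eq_ringKrullDim] at h1

end Fermat.Agent.StR
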