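import Fermat.Agent.StR.Rel

/-!
# The big ring and the ideals of the components
-/

set_option autoImplicit false
set_option linter.unusedSectionVars false
set_option linter.style.haveILetI false

namespace Fermat.Agent.StR

open IsLocalRing Matrix

/-- A free ring on variables `z` and local data. -/
structure IsFD (O : Type) [CommRing O] [IsLocalRing O] (ϖ : O) (g t : ℕ) (ty : Fin t → Ty)
    (q : Fin t → ℕ) (ε : Fin t → ℤ) (P : Type) [CommRing P]
    [IsLocalRing P] [Algebra O P] (z : Fin g → P) (Φ N : Fin t → Matrix (Fin 2) (Fin 2) P) :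
    Prop where
  noe : IsNoetherianRing P
  cpl : IsAdicComplete (maximalIdeal P) P
  res : ∀ x : P, ∃ o : O, x - algebraMap O P o ∈ maximalIdeal P
  loc : ∀ o ∈ maximalIdeal O, algebraMap O P o ∈ maximalIdeal P
  hz : ∀ i, z i ∈ maximalIdeal P
  hl : ∀ j, locI (ty j) (q j) (ε j) (Φ j) (N j) ≤ maximalIdeal P
  gen : maximalIdeal P ≤ Ideal.span {algebraMap O P ϖ} ⊔ Ideal.span (Set.range z) ⊔
    ⨆ j, locI (ty j) (q j) (ε j) (Φ j) (N j)
  univ : ∀ (B : Type) [CommRing B] [IsLocalRing B] [IsAdicComplete (maximalIdeal B) B]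
    [Algebra O B], ∀ (z' : Fin g → B), (∀ i, z' i ∈ maximalIdeal B) →
    ∀ Φ' N' : Fin t → Matrix (Fin 2) (Fin 2) B,
      (∀ j, locI (ty j) (q j) (ε j) (Φ' j) (N' j) ≤ maximalIdeal B) →
      ∃ ψ : P →ₐ[O] B, (∀ i, ψ (z i) = z' i) ∧ ∀ j, (Φ j).map ψ = Φ' j ∧ (N j).map ψ = N' j
  uniq : ∀ (B : Type) [CommRing B] [IsLocalRing B] [IsHausdorff (maximalIdeal B) B]
    [Algebra O B] (f g : P →ₐ[O] B), (∀ i, f (z i) ∈ maximalIdeal B) →
    (∀ j, locI (ty j) (q j) (ε j) ((Φ j).map f) ((N j).map f) ≤ maximalIdeal B) →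
    (∀ i, f (z i) = g (z i)) →
    (∀ j, (Φ j).map f = (Φ j).map g ∧ (N j).map f = (N j).map g) → f = g

section ps

variable {O : Type} [CommRing O] [IsLocalRing O] {n : ℕ}

theorem algHom_ext_hausdorff {B : Type} [CommRing B] [IsLocalRing B]
    [IsHausdorff (maximalIdeal B) B] [Algebra O B] (f g : MvPowerSeries (Fin n) O →ₐ[O] B)
    (hf : ∀ i, f (MvPowerSeries.X i) ∈ maximalIdeal B)
    (hfg : ∀ i, f (MvPowerSeries.X i) = g (MvPowerSeries.X i)) : f = g := by
  ext F
  rw [← sub_eq_zero]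
  refine IsHausdorff.haus (I := maximalIdeal B) inferInstance _ fun m => ?_
  rw [SModEq.zero, smul_eq_mul, Ideal.mul_top, ← Ideal.Quotient.eq_zero_iff_mem, map_sub,
    sub_eq_zero]
  have h1 : (Ideal.Quotient.mkₐ O (maximalIdeal B ^ m)).comp f =
      (Ideal.Quotient.mkₐ O (maximalIdeal B ^ m)).comp g := by
    refine Patch.algHom_eq _ _ ((maximalIdeal B).map (Ideal.Quotient.mk (maximalIdeal B ^ m)))
      (m := m) ?_ (fun i => ?_) fun i => ?_
    · rw [← Ideal.map_pow]
      exact Ideal.map_quotient_self _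
    · exact Ideal.mem_map_of_mem _ (hf i)
    · rw [AlgHom.comp_apply, AlgHom.comp_apply, hfg]
  exact congrArg (fun G : MvPowerSeries (Fin n) O →ₐ[O] _ => G F) h1

end ps

section exist

variable {O : Type} [CommRing O] [IsDomain O] [IsLocalRing O] [IsNoetherianRing O]
  [IsAdicComplete (maximalIdeal O) O] {ϖ : O}

/-- the index type of the variables -/
abbrev Ix (g t : ℕ) : Type := Fin g ⊕ (Fin t × Bool × Fin 2 × Fin 2)

/-- **Existence of the big ring.** -/
theorem exists_FD (hϖ0 : ϖ ≠ 0) (hϖ : maximalIdeal O = Ideal.span {ϖ})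
    [Finite (ResidueField O)] (g t : ℕ) (ty : Fin t → Ty) (q : Fin t → ℕ) (ε : Fin t → ℤ) :
    ∃ (P : Type) (_ : CommRing P) (_ : IsLocalRing P) (_ : Algebra O P) (z : Fin g → P)
      (Φ N : Fin t → Matrix (Fin 2) (Fin 2) P), IsFD O ϖ g t ty q ε P z Φ N ∧
      Finite (ResidueField P) := by
  classical
  let σ := Ix g t
  let n := Fintype.card σ
  let e : σ ≃ Fin n := Fintype.equivFin σ
  let P := MvPowerSeries (Fin n) O
  let X : σ → P := fun i => MvPowerSeries.X (e i)
  have hX : ∀ i, X i ∈ maximalIdeal P := fun i =>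
    Patch.vI_le_max (Ideal.subset_span ⟨e i, rfl⟩)
  have hϖm : ϖ ∈ maximalIdeal O := by rw [hϖ]; exact Ideal.mem_span_singleton_self _
  let z : Fin g → P := fun i => X (Sum.inl i)
  let Φ : Fin t → Matrix (Fin 2) (Fin 2) P := fun j =>
    Φ0 P (ty j) (q j) (ε j) + Matrix.of fun a b => X (Sum.inr (j, false, a, b))
  let N : Fin t → Matrix (Fin 2) (Fin 2) P := fun j => Matrix.of fun a b =>
    X (Sum.inr (j, true, a, b))
  have hΦ : ∀ j a b, (Φ j - Φ0 P (ty j) (q j) (ε j)) a b = X (Sum.inr (j, false, a, b)) := by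
    intro j a b
    simp only [Φ]
    rw [add_sub_cancel_left, Matrix.of_apply]
  have hN : ∀ j a b, N j a b = X (Sum.inr (j, true, a, b)) := fun j a b => rfl
  have hadm := (adm_self hϖ0 hϖ).mvps n
  have hl : ∀ j, locI (ty j) (q j) (ε j) (Φ j) (N j) ≤ maximalIdeal P := by
    intro j
    rw [locI, Ideal.span_le]
    rintro _ (⟨⟨a, b⟩, rfl⟩ | ⟨⟨a, b⟩, rfl⟩)
    · change (Φ j - Φ0 P (ty j) (q j) (ε j)) a b ∈ maximalIdeal P
      rw [hΦ]
      exact hX _
    · exact hX _
  refine ⟨P, inferInstance, inferInstance, inferInstance, z, Φ, N,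
    ⟨hadm.noe, hadm.cpl, hadm.res, hadm.loc, fun i => hX _, hl, ?_, ?_, ?_⟩, inferInstance⟩
  · -- generation
    have hgen : maximalIdeal P ≤ Ideal.span {algebraMap O P ϖ} ⊔ Patch.vI n O := by
      intro f hf
      have h1 := Patch.constantCoeff_mem hf
      have h2 : f = MvPowerSeries.C (MvPowerSeries.constantCoeff f) +
        (f - MvPowerSeries.C (MvPowerSeries.constantCoeff f)) := by ring
      rw [h2]
      refine Submodule.add_mem_sup ?_ ?_
      · rw [hϖ, Ideal.mem_span_singleton] at h1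
        obtain ⟨c, hc⟩ := h1
        rw [hc, map_mul, Ideal.mem_span_singleton, MvPowerSeries.algebraMap_apply,
          Algebra.algebraMap_self, RingHom.id_apply]
        exact dvd_mul_right _ _
      · have h3 := Patch.mem_vI_pow (n := n) (O := O) 1
          (f := f - MvPowerSeries.C (MvPowerSeries.constantCoeff f)) (fun d hd => by
            have h4 : d = 0 := by
              rw [Nat.lt_one_iff] at hd
              exact (Finsupp.degree_eq_zero_iff d).1 hd
            rw [h4, map_sub, MvPowerSeries.coeff_zero_eq_constantCoeff_apply,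
              MvPowerSeries.coeff_zero_C, sub_self])
        rwa [pow_one] at h3
    refine hgen.trans ?_
    rw [sup_assoc]
    refine sup_le_sup le_rfl ?_
    rw [Patch.vI, Ideal.span_le]
    rintro _ ⟨i, rfl⟩
    obtain ⟨i, rfl⟩ := e.surjective i
    rcases i with i | ⟨j, s, a, b⟩
    · exact (le_sup_left : Ideal.span (Set.range z) ≤ _) (Ideal.subset_span ⟨i, rfl⟩)
    · refine (le_sup_right : (⨆ j, locI (ty j) (q j) (ε j) (Φ j) (N j)) ≤ _) ?_
      refine (le_iSup (fun j => locI (ty j) (q j) (ε j) (Φ j) (N j)) j) ?_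
      cases s
      · have := locI_Φ (ty j) (q j) (ε j) (Φ j) (N j) a b
        rw [hΦ] at this
        exact this
      · exact locI_N (ty j) (q j) (ε j) (Φ j) (N j) a b
  · intro B _ _ _ _ z' hz' Φ' N' h'
    let v : σ → B := Sum.elim z' fun y =>
      if y.2.1 = true then N' y.1 y.2.2.1 y.2.2.2
      else (Φ' y.1 - Φ0 B (ty y.1) (q y.1) (ε y.1)) y.2.2.1 y.2.2.2
    obtain ⟨ψ, hψ⟩ := Patch.exists_eval (O := O) (fun i => v (e.symm i)) (fun i => by
      rcases e.symm i with i | ⟨j, s, a, b⟩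
      · exact hz' i
      · cases s
        · exact h' j (locI_Φ _ _ _ _ _ a b)
        · exact h' j (locI_N _ _ _ _ _ a b))
    have hψX : ∀ i, ψ (X i) = v i := by
      intro i
      simp only [X]
      rw [hψ, Equiv.symm_apply_apply]
    refine ⟨ψ, fun i => hψX _, fun j => ⟨?_, ?_⟩⟩
    · refine Matrix.ext fun a b => ?_
      have h1 : Φ j a b = Φ0 P (ty j) (q j) (ε j) a b + X (Sum.inr (j, false, a, b)) := rfl
      have h2 : ψ (Φ0 P (ty j) (q j) (ε j) a b) = Φ0 B (ty j) (q j) (ε j) a b :=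
        congrFun (congrFun (map_sub_Φ0 ψ.toRingHom (ty j) (q j) (ε j)) a) b
      rw [Matrix.map_apply, h1, map_add, h2, hψX]
      have h3 : v (Sum.inr (j, false, a, b)) = (Φ' j - Φ0 B (ty j) (q j) (ε j)) a b := rfl
      rw [h3, Matrix.sub_apply]
      ring
    · refine Matrix.ext fun a b => ?_
      rw [Matrix.map_apply, hN, hψX]
      rfl
  · intro B _ _ _ _ f f' h1 h2 h3 h4
    have h5 : ∀ i, f (X i) ∈ maximalIdeal B ∧ f (X i) = f' (X i) := by
      intro i
      rcases i with i | ⟨j, s, a, b⟩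
      · exact ⟨h1 i, h3 i⟩
      · cases s
        · have e1 := hΦ j a b
          have e2 : ∀ f : P →ₐ[O] B, f (X (Sum.inr (j, false, a, b))) =
              ((Φ j).map f - Φ0 B (ty j) (q j) (ε j)) a b := by
            intro f
            rw [← e1, Matrix.sub_apply, map_sub, Matrix.sub_apply, Matrix.map_apply]
            congr 1
            exact congrFun (congrFun (map_sub_Φ0 f.toRingHom (ty j) (q j) (ε j)) a) b
          rw [e2, e2]
          exact ⟨h2 j (locI_Φ _ _ _ _ _ a b), by rw [(h4 j).1]⟩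
        · exact ⟨h2 j (locI_N _ _ _ _ _ a b), congrFun (congrFun (h4 j).2 a) b⟩
    refine algHom_ext_hausdorff f f' (fun i => ?_) fun i => ?_
    · have := (h5 (e.symm i)).1
      simp only [X, Equiv.apply_symm_apply] at this
      exact this
    · have := (h5 (e.symm i)).2
      simp only [X, Equiv.apply_symm_apply] at this
      exact this

end exist

/-- surjectivity criterion -/
theorem surjective_of_gen' {O P A : Type} [CommRing O] [CommRing P] [IsLocalRing P]
    [IsAdicComplete (maximalIdeal P) P] [Algebra O P] [CommRing A] [IsLocalRing A]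
    [IsNoetherianRing A] [Algebra O A] (f : P →ₐ[O] A)
    (hf : ∀ x ∈ maximalIdeal P, f x ∈ maximalIdeal A)
    (hres : ∀ a : A, ∃ o : O, a - algebraMap O A o ∈ maximalIdeal A)
    (hgen : maximalIdeal A ≤ (maximalIdeal P).map f.toRingHom ⊔ maximalIdeal A ^ 2) :
    Function.Surjective f := by
  have h1 : maximalIdeal A ≤ (maximalIdeal P).map f.toRingHom := by
    refine Submodule.le_of_le_smul_of_le_jacobson_bot (I := maximalIdeal A)
      (IsNoetherian.noetherian _) (IsLocalRing.maximalIdeal_le_jacobson _) ?_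
    rw [smul_eq_mul, ← pow_two]
    exact hgen
  have h2 : (maximalIdeal P).map f.toRingHom = maximalIdeal A := by
    refine le_antisymm ?_ h1
    rw [Ideal.map_le_iff_le_comap]
    exact fun x hx => hf x hx
  haveI : IsHausdorff ((maximalIdeal P).map f.toRingHom) A := by
    rw [h2]
    infer_instance
  refine surjective_of_mk_map_comp_surjective (I := maximalIdeal P) f.toRingHom ?_
  intro y
  obtain ⟨a, rfl⟩ := Ideal.Quotient.mk_surjective y
  obtain ⟨o, ho⟩ := hres a
  refine ⟨algebraMap O P o, ?_⟩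
  rw [RingHom.comp_apply]
  have h3 : f.toRingHom (algebraMap O P o) = algebraMap O A o := f.commutes o
  rw [h3]
  refine (Ideal.Quotient.eq.2 ?_).symm
  rw [h2]
  exact ho

section comps

variable {O : Type} [CommRing O] [IsDomain O] [IsLocalRing O] [IsNoetherianRing O]
  [IsAdicComplete (maximalIdeal O) O] {ϖ : O} {g t : ℕ} {ty : Fin t → Ty} {q : Fin t → ℕ}
  {ε : Fin t → ℤ} {P : Type} [CommRing P] [IsLocalRing P] [Algebra O P] {z : Fin g → P}
  {Φ N : Fin t → Matrix (Fin 2) (Fin 2) P}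

theorem IsFD.local (h : IsFD O ϖ g t ty q ε P z Φ N) {B : Type} [CommRing B] [IsLocalRing B]
    [Algebra O B] (ψ : P →ₐ[O] B) (h0 : algebraMap O B ϖ ∈ maximalIdeal B)
    (h1 : ∀ i, ψ (z i) ∈ maximalIdeal B)
    (h2 : ∀ j, locI (ty j) (q j) (ε j) ((Φ j).map ψ) ((N j).map ψ) ≤ maximalIdeal B) :
    ∀ x ∈ maximalIdeal P, ψ x ∈ maximalIdeal B := by
  have h3 : maximalIdeal P ≤ (maximalIdeal B).comap ψ.toRingHom := by
    refine h.gen.trans (sup_le (sup_le ?_ ?_) ?_)
    · rw [Ideal.span_le, Set.singleton_subset_iff]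
      change ψ (algebraMap O P ϖ) ∈ maximalIdeal B
      rw [ψ.commutes]
      exact h0
    · rw [Ideal.span_le]
      rintro _ ⟨i, rfl⟩
      exact h1 i
    · refine iSup_le fun j => ?_
      rw [← Ideal.map_le_iff_le_comap, locI_map]
      exact h2 j
  exact fun x hx => h3 hx

/-- **The component of type `C`.** -/
structure IsComp (O : Type) [CommRing O] (g t : ℕ) (ty : Fin t → Ty)
    (q : Fin t → ℕ) (ε : Fin t → ℤ) {P : Type} [CommRing P] [Algebra O P]
    (Φ N : Fin t → Matrix (Fin 2) (Fin 2) P) (C : Fin t → Bool) (𝔮 : Ideal P) : Prop where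
  prime : 𝔮.IsPrime
  dim : ringKrullDim (P ⧸ 𝔮) ≤ ((1 + g + ∑ j, (ty j).dl : ℕ) : WithBot ℕ∞)
  le : ∀ 𝔞 : Ideal P, 𝔞 ≠ ⊤ → (∀ j, relQ (ty j) (q j) (Φ j) (N j) ⊆ 𝔞) →
    (∀ j, relC (C j) (q j) (ε j) (Φ j) (N j) ⊆ 𝔞) → 𝔮 ≤ 𝔞

theorem exists_comp (h : IsFD O ϖ g t ty q ε P z Φ N) (hϖ0 : ϖ ≠ 0)
    (hϖ : maximalIdeal O = Ideal.span {ϖ})
    (hq : ∀ j, ty j = Ty.sc → ϖ ∣ (q j : O) - 1) (hε : ∀ j, ε j ^ 2 = 1) (C : Fin t → Bool) :
    ∃ 𝔮 : Ideal P, IsComp O g t ty q ε Φ N C 𝔮 := by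
  have hϖm : ϖ ∈ maximalIdeal O := by rw [hϖ]; exact Ideal.mem_span_singleton_self _
  haveI := h.noe
  haveI := h.cpl
  obtain ⟨R, i1, i2, i3, z', Φ', N', T⟩ := exists_tower (g := g) hϖ0 hϖ hq hε C Finset.univ
  haveI := T.adm.noe
  haveI := T.adm.cpl
  haveI := T.adm.dom
  have hl' : ∀ j, locI (ty j) (q j) (ε j) (Φ' j) (N' j) ≤ maximalIdeal R := fun j =>
    (T.lr j (Finset.mem_univ j)).qd.locI_le
  obtain ⟨π, hπz, hπ⟩ := h.univ R z' T.hz Φ' N' hl'
  have hπloc : ∀ x ∈ maximalIdeal P, π x ∈ maximalIdeal R :=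
    h.local π (T.adm.loc _ hϖm) (fun i => by rw [hπz]; exact T.hz i)
      (fun j => by rw [(hπ j).1, (hπ j).2]; exact hl' j)
  have hπs : Function.Surjective π := by
    refine surjective_of_gen' π hπloc T.adm.res (T.gen.trans (le_trans ?_ le_sup_left))
    refine sup_le (sup_le ?_ ?_) ?_
    · rw [Ideal.span_le, Set.singleton_subset_iff]
      have h1 : π.toRingHom (algebraMap O P ϖ) = algebraMap O R ϖ := π.commutes ϖ
      rw [← h1]
      exact Ideal.mem_map_of_mem _ (h.loc _ hϖm)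
    · rw [Ideal.span_le]
      rintro _ ⟨i, rfl⟩
      rw [← hπz]
      exact Ideal.mem_map_of_mem π.toRingHom (h.hz i)
    · refine iSup₂_le fun j _ => ?_
      have h1 : (Φ j).map π.toRingHom = Φ' j := (hπ j).1
      have h2 : (N j).map π.toRingHom = N' j := (hπ j).2
      rw [← h1, ← h2, ← locI_map]
      exact Ideal.map_mono (h.hl j)
  refine ⟨RingHom.ker π.toRingHom, RingHom.ker_isPrime _, ?_, ?_⟩
  · obtain ⟨ws, h1, h2, h3⟩ := T.dim
    have h4 := ringKrullDim_le_of_radical ws h2 h3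
    rw [h1] at h4
    rw [ringKrullDim_eq_of_ringEquiv (RingHom.quotientKerEquivOfSurjective
      (f := π.toRingHom) hπs)]
    exact h4
  · intro 𝔞 h𝔞 hQ hC
    haveI : Nontrivial (P ⧸ 𝔞) := Ideal.Quotient.nontrivial_iff.2 h𝔞
    haveI : IsLocalRing (P ⧸ 𝔞) :=
      IsLocalRing.of_surjective' (Ideal.Quotient.mk 𝔞) Ideal.Quotient.mk_surjective
    have hmloc : ∀ x ∈ maximalIdeal P, Ideal.Quotient.mk 𝔞 x ∈ maximalIdeal (P ⧸ 𝔞) := by
      intro x hx
      rw [mem_maximalIdeal, mem_nonunits_iff]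
      intro hu
      obtain ⟨y, hy⟩ := hu.exists_right_inv
      obtain ⟨y, rfl⟩ := Ideal.Quotient.mk_surjective y
      rw [← map_mul, ← map_one (Ideal.Quotient.mk 𝔞), Ideal.Quotient.eq] at hy
      have h1 : IsUnit (x * y - 1) := by
        by_contra hcon
        have h2 : x * y - 1 ∈ maximalIdeal P := (mem_maximalIdeal _).2 hcon
        have h3 : (1 : P) ∈ maximalIdeal P := by
          have := sub_mem (Ideal.mul_mem_right y _ hx) h2
          rwa [sub_sub_cancel] at this
        exact (Ideal.ne_top_iff_one _).1 (maximalIdeal.isMaximal P).ne_top h3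
      exact h𝔞 (Ideal.eq_top_of_isUnit_mem _ hy h1)
    haveI : Module.Finite P (P ⧸ 𝔞) := inferInstance
    haveI : IsLocalHom (algebraMap P (P ⧸ 𝔞)) := ⟨fun x hx => by
      by_contra hcon
      exact (mem_nonunits_iff.1 ((mem_maximalIdeal _).1 (hmloc x ((mem_maximalIdeal _).2 hcon)))) hx⟩
    haveI : IsAdicComplete (maximalIdeal (P ⧸ 𝔞)) (P ⧸ 𝔞) :=
      IsLocalRing.isAdicComplete_of_module_finite (𝒪 := P)
    have hlr : ∀ j ∈ (Finset.univ : Finset (Fin t)), LR (C j) (ty j) (q j) (ε j)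
        ((Φ j).map (Ideal.Quotient.mk 𝔞)) ((N j).map (Ideal.Quotient.mk 𝔞)) := by
      intro j _
      refine LR.of ((relQ_map _).1 fun x hx => ?_) ((relC_map _).1 fun x hx => ?_) ?_
      · exact Ideal.Quotient.eq_zero_iff_mem.2 (hQ j hx)
      · exact Ideal.Quotient.eq_zero_iff_mem.2 (hC j hx)
      · rw [← locI_map, Ideal.map_le_iff_le_comap]
        exact fun x hx => hmloc x (h.hl j hx)
    obtain ⟨ψ, hψz, hψ⟩ := T.univ (P ⧸ 𝔞) (fun o ho => hmloc _ (h.loc o ho))
      (fun i => Ideal.Quotient.mk 𝔞 (z i)) (fun i => hmloc _ (h.hz i)) _ _ hlr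
    have key : Ideal.Quotient.mkₐ O 𝔞 = ψ.comp π := by
      refine h.uniq (P ⧸ 𝔞) _ _ (fun i => hmloc _ (h.hz i)) (fun j => ?_) (fun i => ?_)
        fun j => ⟨?_, ?_⟩
      · exact (hlr j (Finset.mem_univ j)).qd.locI_le
      · rw [AlgHom.comp_apply, hπz, hψz]
        rfl
      · refine Matrix.ext fun a b => ?_
        rw [Matrix.map_apply, Matrix.map_apply, AlgHom.comp_apply]
        have h1 : π (Φ j a b) = Φ' j a b := congrFun (congrFun (hπ j).1 a) b
        have h2 : ψ (Φ' j a b) = Ideal.Quotient.mk 𝔞 (Φ j a b) :=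
          congrFun (congrFun (hψ j (Finset.mem_univ j)).1 a) b
        rw [h1, h2]
        rfl
      · refine Matrix.ext fun a b => ?_
        rw [Matrix.map_apply, Matrix.map_apply, AlgHom.comp_apply]
        have h1 : π (N j a b) = N' j a b := congrFun (congrFun (hπ j).2 a) b
        have h2 : ψ (N' j a b) = Ideal.Quotient.mk 𝔞 (N j a b) :=
          congrFun (congrFun (hψ j (Finset.mem_univ j)).2 a) b
        rw [h1, h2]
        rfl
    intro x hx
    have h1 : π x = 0 := hx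
    have h2 : Ideal.Quotient.mk 𝔞 x = ψ (π x) := congrArg (fun G : P →ₐ[O] (P ⧸ 𝔞) => G x) key
    rw [h1, map_zero] at h2
    exact Ideal.Quotient.eq_zero_iff_mem.1 h2

end comps

end Fermat.Agent.StR
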