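import Fermat.Agent.StR.Chain

/-!
# Components on which the first variable vanishes
-/

set_option autoImplicit false
set_option linter.unusedSectionVars false
set_option linter.style.haveILetI false

namespace Fermat.Agent.StR

open IsLocalRing Matrix Module

variable {O : Type} [CommRing O] [IsDomain O] [IsLocalRing O] [IsNoetherianRing O]
  [IsAdicComplete (maximalIdeal O) O] {ϖ : O} {g t : ℕ} {ty : Fin t → Ty} {q : Fin t → ℕ}
  {ε : Fin t → ℤ} {P : Type} [CommRing P] [IsLocalRing P] [Algebra O P] {z : Fin (g + 1) → P}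
  {Φ N : Fin t → Matrix (Fin 2) (Fin 2) P}

/-- the component of type `C` on which `z 0 = 0` -/
theorem exists_comp0 (h : IsFD O ϖ (g + 1) t ty q ε P z Φ N) (hϖ0 : ϖ ≠ 0)
    (hϖ : maximalIdeal O = Ideal.span {ϖ})
    (hq : ∀ j, ty j = Ty.sc → ϖ ∣ (q j : O) - 1) (hε : ∀ j, ε j ^ 2 = 1) (C : Fin t → Bool) :
    ∃ 𝔮 : Ideal P, 𝔮.IsPrime ∧
      ringKrullDim (P ⧸ 𝔮) ≤ ((1 + g + ∑ j, (ty j).dl : ℕ) : WithBot ℕ∞) ∧
      ∀ 𝔞 : Ideal P, 𝔞 ≠ ⊤ → z 0 ∈ 𝔞 → (∀ j, relQ (ty j) (q j) (Φ j) (N j) ⊆ 𝔞) →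
        (∀ j, relC (C j) (q j) (ε j) (Φ j) (N j) ⊆ 𝔞) → 𝔮 ≤ 𝔞 := by
  have hϖm : ϖ ∈ maximalIdeal O := by rw [hϖ]; exact Ideal.mem_span_singleton_self _
  haveI := h.noe
  haveI := h.cpl
  obtain ⟨R, i1, i2, i3, z', Φ', N', T⟩ := exists_tower (g := g) hϖ0 hϖ hq hε C Finset.univ
  haveI := T.adm.noe
  haveI := T.adm.cpl
  haveI := T.adm.dom
  have hl' : ∀ j, locI (ty j) (q j) (ε j) (Φ' j) (N' j) ≤ maximalIdeal R := fun j =>
    (T.lr j (Finset.mem_univ j)).qd.locI_le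
  let z0 : Fin (g + 1) → R := Fin.cons 0 z'
  have hz0 : ∀ i, z0 i ∈ maximalIdeal R := by
    intro i
    refine Fin.cases ?_ (fun i => ?_) i
    · exact zero_mem _
    · exact T.hz i
  obtain ⟨π, hπz, hπ⟩ := h.univ R z0 hz0 Φ' N' hl'
  have hπloc : ∀ x ∈ maximalIdeal P, π x ∈ maximalIdeal R :=
    h.local π (T.adm.loc _ hϖm) (fun i => by rw [hπz]; exact hz0 i)
      (fun j => by rw [(hπ j).1, (hπ j).2]; exact hl' j)
  have hπs : Function.Surjective π := by
    refine surjective_of_gen' π hπloc T.adm.res (T.gen.trans (le_trans ?_ le_sup_left))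
    refine sup_le (sup_le ?_ ?_) ?_
    · rw [Ideal.span_le, Set.singleton_subset_iff]
      have h1 : π.toRingHom (algebraMap O P ϖ) = algebraMap O R ϖ := π.commutes ϖ
      rw [← h1]
      exact Ideal.mem_map_of_mem _ (h.loc _ hϖm)
    · rw [Ideal.span_le]
      rintro _ ⟨i, rfl⟩
      have h1 : π (z i.succ) = z' i := hπz i.succ
      rw [← h1]
      exact Ideal.mem_map_of_mem π.toRingHom (h.hz _)
    · refine iSup₂_le fun j _ => ?_
      have h1 : (Φ j).map π.toRingHom = Φ' j := (hπ j).1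
      have h2 : (N j).map π.toRingHom = N' j := (hπ j).2
      rw [← h1, ← h2, ← locI_map]
      exact Ideal.map_mono (h.hl j)
  refine ⟨RingHom.ker π.toRingHom, RingHom.ker_isPrime _, ?_, ?_⟩
  · obtain ⟨ws, h1, h2, h3⟩ := T.dim
    have h4 := ringKrullDim_le_of_radical ws h2 h3
    rw [h1] at h4
    rw [ringKrullDim_eq_of_ringEquiv (RingHom.quotientKerEquivOfSurjective
      (f := π.toRingHom) hπs)]
    exact h4
  · intro 𝔞 h𝔞 hz𝔞 hQ hC
    haveI : Nontrivial (P ⧸ 𝔞) := Ideal.Quotient.nontrivial_iff.2 h𝔞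
    haveI : IsLocalRing (P ⧸ 𝔞) :=
      IsLocalRing.of_surjective' (Ideal.Quotient.mk 𝔞) Ideal.Quotient.mk_surjective
    have hmloc : ∀ x ∈ maximalIdeal P, Ideal.Quotient.mk 𝔞 x ∈ maximalIdeal (P ⧸ 𝔞) := by
      intro x hx
      rw [mem_maximalIdeal, mem_nonunits_iff]
      intro hu
      obtain ⟨y, hy⟩ := hu.exists_right_inv
      obtain ⟨y, rfl⟩ := Ideal.Quotient.mk_surjective y
      rw [← map_mul, ← map_one (Ideal.Quotient.mk 𝔞), Ideal.Quotient.eq] at hy
      have h1 : IsUnit (x * y - 1) := by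
        by_contra hcon
        have h2 : x * y - 1 ∈ maximalIdeal P := (mem_maximalIdeal _).2 hcon
        have h3 : (1 : P) ∈ maximalIdeal P := by
          have := sub_mem (Ideal.mul_mem_right y _ hx) h2
          rwa [sub_sub_cancel] at this
        exact (Ideal.ne_top_iff_one _).1 (maximalIdeal.isMaximal P).ne_top h3
      exact h𝔞 (Ideal.eq_top_of_isUnit_mem _ hy h1)
    haveI : Module.Finite P (P ⧸ 𝔞) := inferInstance
    haveI : IsLocalHom (algebraMap P (P ⧸ 𝔞)) := ⟨fun x hx => by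
      by_contra hcon
      exact (mem_nonunits_iff.1 ((mem_maximalIdeal _).1 (hmloc x ((mem_maximalIdeal _).2 hcon)))) hx⟩
    haveI : IsAdicComplete (maximalIdeal (P ⧸ 𝔞)) (P ⧸ 𝔞) :=
      IsLocalRing.isAdicComplete_of_module_finite (𝒪 := P)
    have hlr : ∀ j ∈ (Finset.univ : Finset (Fin t)), LR (C j) (ty j) (q j) (ε j)
        ((Φ j).map (Ideal.Quotient.mk 𝔞)) ((N j).map (Ideal.Quotient.mk 𝔞)) := by
      intro j _
      refine LR.of ((relQ_map _).1 fun x hx => ?_) ((relC_map _).1 fun x hx => ?_) ?_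
      · exact Ideal.Quotient.eq_zero_iff_mem.2 (hQ j hx)
      · exact Ideal.Quotient.eq_zero_iff_mem.2 (hC j hx)
      · rw [← locI_map, Ideal.map_le_iff_le_comap]
        exact fun x hx => hmloc x (h.hl j hx)
    obtain ⟨ψ, hψz, hψ⟩ := T.univ (P ⧸ 𝔞) (fun o ho => hmloc _ (h.loc o ho))
      (fun i => Ideal.Quotient.mk 𝔞 (z i.succ)) (fun i => hmloc _ (h.hz _)) _ _ hlr
    have key : Ideal.Quotient.mkₐ O 𝔞 = ψ.comp π := by
      refine h.uniq (P ⧸ 𝔞) _ _ (fun i => hmloc _ (h.hz i)) (fun j => ?_) (fun i => ?_)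
        fun j => ⟨?_, ?_⟩
      · exact (hlr j (Finset.mem_univ j)).qd.locI_le
      · rw [AlgHom.comp_apply, hπz]
        refine Fin.cases ?_ (fun i => ?_) i
        · have h1 : ψ (z0 0) = 0 := map_zero ψ
          rw [h1]
          exact Ideal.Quotient.eq_zero_iff_mem.2 hz𝔞
        · have h1 : ψ (z0 i.succ) = Ideal.Quotient.mk 𝔞 (z i.succ) := hψz i
          rw [h1]
          rfl
      · refine Matrix.ext fun a b => ?_
        rw [Matrix.map_apply, Matrix.map_apply, AlgHom.comp_apply]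
        have h1 : π (Φ j a b) = Φ' j a b := congrFun (congrFun (hπ j).1 a) b
        have h2 : ψ (Φ' j a b) = Ideal.Quotient.mk 𝔞 (Φ j a b) :=
          congrFun (congrFun (hψ j (Finset.mem_univ j)).1 a) b
        rw [h1, h2]
        rfl
      · refine Matrix.ext fun a b => ?_
        rw [Matrix.map_apply, Matrix.map_apply, AlgHom.comp_apply]
        have h1 : π (N j a b) = N' j a b := congrFun (congrFun (hπ j).2 a) b
        have h2 : ψ (N' j a b) = Ideal.Quotient.mk 𝔞 (N j a b) :=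
          congrFun (congrFun (hψ j (Finset.mem_univ j)).2 a) b
        rw [h1, h2]
        rfl
    intro x hx
    have h1 : π x = 0 := hx
    have h2 : Ideal.Quotient.mk 𝔞 x = ψ (π x) := congrArg (fun G : P →ₐ[O] (P ⧸ 𝔞) => G x) key
    rw [h1, map_zero] at h2
    exact Ideal.Quotient.eq_zero_iff_mem.1 h2

end Fermat.Agent.StR
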