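import Mathlib

/-!
# The Steinberg ring at a prime with scalar residual Frobenius
-/

set_option autoImplicit false
set_option linter.unusedSectionVars false
set_option linter.style.haveILetI false

namespace Fermat.Agent.StR

/-- the free algebra with basis `1, a, c, x` -/
@[ext]
structure DR {S : Type} [CommRing S] (b z w d : S) : Type where
  e0 : S
  e1 : S
  e2 : S
  e3 : S

namespace DR

variable {S : Type} [CommRing S] {b z w d : S}

instance : Zero (DR b z w d) := ⟨⟨0, 0, 0, 0⟩⟩
instance : One (DR b z w d) := ⟨⟨1, 0, 0, 0⟩⟩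
instance : Add (DR b z w d) :=
  ⟨fun f g => ⟨f.e0 + g.e0, f.e1 + g.e1, f.e2 + g.e2, f.e3 + g.e3⟩⟩
instance : Neg (DR b z w d) := ⟨fun f => ⟨-f.e0, -f.e1, -f.e2, -f.e3⟩⟩
instance : Mul (DR b z w d) :=
  ⟨fun f g =>
    ⟨f.e0 * g.e0 - (f.e1 * g.e2 + f.e2 * g.e1) * (w * d) -
        (f.e1 * g.e3 + f.e3 * g.e1) * (b * z) - f.e2 * g.e2 * (b * z) - f.e3 * g.e3 * (w * z),
      f.e0 * g.e1 + f.e1 * g.e0 + f.e1 * g.e1 * d + (f.e1 * g.e2 + f.e2 * g.e1) * w +
        (f.e2 * g.e3 + f.e3 * g.e2) * z,
      f.e0 * g.e2 + f.e2 * g.e0 - f.e1 * g.e1 * b + (f.e1 * g.e2 + f.e2 * g.e1) * d +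
        f.e2 * g.e2 * w + f.e3 * g.e3 * z,
      f.e0 * g.e3 + f.e3 * g.e0 - (f.e1 * g.e2 + f.e2 * g.e1) * b +
        (f.e1 * g.e3 + f.e3 * g.e1) * d + f.e2 * g.e2 * d⟩⟩

theorem zero_def : (0 : DR b z w d) = ⟨0, 0, 0, 0⟩ := rfl
theorem one_def : (1 : DR b z w d) = ⟨1, 0, 0, 0⟩ := rfl
theorem add_def (f g : DR b z w d) :
    f + g = ⟨f.e0 + g.e0, f.e1 + g.e1, f.e2 + g.e2, f.e3 + g.e3⟩ := rfl
theorem neg_def (f : DR b z w d) : -f = ⟨-f.e0, -f.e1, -f.e2, -f.e3⟩ := rfl
theorem mul_def (f g : DR b z w d) : f * g =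
    ⟨f.e0 * g.e0 - (f.e1 * g.e2 + f.e2 * g.e1) * (w * d) -
        (f.e1 * g.e3 + f.e3 * g.e1) * (b * z) - f.e2 * g.e2 * (b * z) - f.e3 * g.e3 * (w * z),
      f.e0 * g.e1 + f.e1 * g.e0 + f.e1 * g.e1 * d + (f.e1 * g.e2 + f.e2 * g.e1) * w +
        (f.e2 * g.e3 + f.e3 * g.e2) * z,
      f.e0 * g.e2 + f.e2 * g.e0 - f.e1 * g.e1 * b + (f.e1 * g.e2 + f.e2 * g.e1) * d +
        f.e2 * g.e2 * w + f.e3 * g.e3 * z,
      f.e0 * g.e3 + f.e3 * g.e0 - (f.e1 * g.e2 + f.e2 * g.e1) * b +
        (f.e1 * g.e3 + f.e3 * g.e1) * d + f.e2 * g.e2 * d⟩ := rfl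

instance : CommRing (DR b z w d) where
  add := (· + ·)
  add_assoc f g h := by simp only [add_def]; ext <;> simp only <;> ring
  zero := 0
  zero_add f := by rw [zero_def, add_def]; ext <;> simp only <;> ring
  add_zero f := by rw [zero_def, add_def]; ext <;> simp only <;> ring
  nsmul := nsmulRec
  neg := Neg.neg
  zsmul := zsmulRec
  neg_add_cancel f := by rw [zero_def, neg_def, add_def]; ext <;> simp only <;> ring
  add_comm f g := by simp only [add_def]; ext <;> simp only <;> ring
  mul := (· * ·)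
  left_distrib f g h := by simp only [mul_def, add_def]; ext <;> simp only <;> ring
  right_distrib f g h := by simp only [mul_def, add_def]; ext <;> simp only <;> ring
  zero_mul f := by rw [zero_def, mul_def]; ext <;> simp only <;> ring
  mul_zero f := by rw [zero_def, mul_def]; ext <;> simp only <;> ring
  mul_assoc f g h := by simp only [mul_def]; ext <;> simp only <;> ring
  one := 1
  one_mul f := by rw [one_def, mul_def]; ext <;> simp only <;> ring
  mul_one f := by rw [one_def, mul_def]; ext <;> simp only <;> ring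
  mul_comm f g := by simp only [mul_def]; ext <;> simp only <;> ring

@[simp] theorem e0_zero : (0 : DR b z w d).e0 = 0 := rfl
@[simp] theorem e1_zero : (0 : DR b z w d).e1 = 0 := rfl
@[simp] theorem e2_zero : (0 : DR b z w d).e2 = 0 := rfl
@[simp] theorem e3_zero : (0 : DR b z w d).e3 = 0 := rfl

/-- the structure map -/
def of : S →+* DR b z w d where
  toFun s := ⟨s, 0, 0, 0⟩
  map_one' := rfl
  map_mul' s t := by rw [mul_def]; ext <;> simp only <;> ring
  map_zero' := rfl
  map_add' s t := by rw [add_def]; ext <;> simp only <;> ring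

instance : Algebra S (DR b z w d) := of.toAlgebra

theorem algebraMap_def (s : S) : algebraMap S (DR b z w d) s = ⟨s, 0, 0, 0⟩ := rfl

theorem smul_def' (s : S) (f : DR b z w d) : s • f = ⟨s * f.e0, s * f.e1, s * f.e2, s * f.e3⟩ := by
  rw [Algebra.smul_def, algebraMap_def, mul_def]
  ext <;> simp only <;> ring

/-- generators -/
def a : DR b z w d := ⟨0, 1, 0, 0⟩
def c : DR b z w d := ⟨0, 0, 1, 0⟩
def x : DR b z w d := ⟨0, 0, 0, 1⟩

theorem eq_sum (f : DR b z w d) : f = algebraMap S _ f.e0 + algebraMap S _ f.e1 * a +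
    algebraMap S _ f.e2 * c + algebraMap S _ f.e3 * x := by
  simp only [algebraMap_def, a, c, x, mul_def, add_def]
  ext <;> simp only <;> ring

variable (b z w d)

theorem rel_aa : (a : DR b z w d) * a = algebraMap S _ d * a - algebraMap S _ b * c := by
  rw [sub_eq_add_neg]
  simp only [algebraMap_def, a, c, mul_def, add_def, neg_def]
  ext <;> simp only <;> ring

theorem rel_xc : (x : DR b z w d) * c = algebraMap S _ z * a := by
  simp only [algebraMap_def, a, c, x, mul_def]
  ext <;> simp only <;> ring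

theorem rel_ax : (a : DR b z w d) * x = algebraMap S _ d * x - algebraMap S _ (b * z) := by
  rw [sub_eq_add_neg]
  simp only [algebraMap_def, a, x, mul_def, add_def, neg_def]
  ext <;> simp only <;> ring

theorem rel_cc : (c : DR b z w d) * c = algebraMap S _ w * c + algebraMap S _ d * x -
    algebraMap S _ (b * z) := by
  rw [sub_eq_add_neg]
  simp only [algebraMap_def, c, x, mul_def, add_def, neg_def]
  ext <;> simp only <;> ring

theorem rel_ac : (a : DR b z w d) * c = algebraMap S _ d * c + algebraMap S _ w * a -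
    algebraMap S _ b * x - algebraMap S _ (w * d) := by
  rw [sub_eq_add_neg, sub_eq_add_neg]
  simp only [algebraMap_def, a, c, x, mul_def, add_def, neg_def]
  ext <;> simp only <;> ring

theorem rel_xx : (x : DR b z w d) * x = algebraMap S _ z * c - algebraMap S _ (w * z) := by
  rw [sub_eq_add_neg]
  simp only [algebraMap_def, c, x, mul_def, add_def, neg_def]
  ext <;> simp only <;> ring

variable {b z w d}

/-- the basis -/
def equivFun : DR b z w d ≃ₗ[S] (Fin 4 → S) where
  toFun f := ![f.e0, f.e1, f.e2, f.e3]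
  invFun v := ⟨v 0, v 1, v 2, v 3⟩
  left_inv f := by ext <;> rfl
  right_inv v := by funext i; fin_cases i <;> rfl
  map_add' f g := by funext i; fin_cases i <;> rfl
  map_smul' s f := by
    rw [smul_def']
    funext i
    fin_cases i <;> rfl

instance : Module.Free S (DR b z w d) := Module.Free.of_equiv equivFun.symm
instance : Module.Finite S (DR b z w d) := Module.Finite.equiv equivFun.symm

/-- the universal property -/
theorem exists_lift {B : Type} [CommRing B] (f : S →+* B) (a' c' x' : B)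
    (haa : a' * a' = f d * a' - f b * c') (hxc : x' * c' = f z * a')
    (hax : a' * x' = f d * x' - f (b * z)) (hcc : c' * c' = f w * c' + f d * x' - f (b * z))
    (hac : a' * c' = f d * c' + f w * a' - f b * x' - f (w * d))
    (hxx : x' * x' = f z * c' - f (w * z)) :
    ∃ F : DR b z w d →+* B, (∀ s, F (algebraMap S _ s) = f s) ∧ F a = a' ∧ F c = c' ∧ F x = x' := by
  refine ⟨{ toFun := fun u => f u.e0 + f u.e1 * a' + f u.e2 * c' + f u.e3 * x'
            map_one' := by simp [one_def]
            map_mul' := fun u v => ?_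
            map_zero' := by simp [zero_def]
            map_add' := fun u v => by simp only [add_def, map_add]; ring }, fun s => ?_, ?_, ?_, ?_⟩
  · simp only [mul_def, map_add, map_sub, map_mul] at *
    linear_combination (-(f u.e1 * f v.e1)) * haa - (f u.e3 * f v.e2 + f u.e2 * f v.e3) * hxc -
      (f u.e1 * f v.e3 + f u.e3 * f v.e1) * hax - (f u.e2 * f v.e2) * hcc -
      (f u.e1 * f v.e2 + f u.e2 * f v.e1) * hac - (f u.e3 * f v.e3) * hxx
  · simp [algebraMap_def]
  · simp [a]
  · simp [c]
  · simp [x]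

end DR

end Fermat.Agent.StR
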