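import Fermat.Agent.StR.DR

/-!
# The Steinberg ring is a domain
-/

set_option autoImplicit false
set_option linter.unusedSectionVars false
set_option linter.style.haveILetI false

namespace Fermat.Agent.StR

open PowerSeries

section desc

variable {D : Type} [CommRing D] [IsDomain D]

theorem eq_zero_of_forall_dvd {f : D⟦X⟧} (h : ∀ n : ℕ, (X : D⟦X⟧) ^ n ∣ f) : f = 0 := by
  ext n
  obtain ⟨g, rfl⟩ := h (n + 1)
  rw [map_zero]
  exact PowerSeries.coeff_of_lt_order _ (by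
    refine lt_of_lt_of_le ?_ (le_trans (by rw [PowerSeries.order_X_pow]) le_self_add |>.trans
      (PowerSeries.order_mul _ _).ge)
    exact_mod_cast Nat.lt_succ_self n)

theorem exists_X_mul {f : D⟦X⟧} (h : constantCoeff f = 0) : ∃ g, f = X * g :=
  (X_dvd_iff.2 h)

theorem X_cancel {f g : D⟦X⟧} (h : X * f = X * g) : f = g :=
  mul_left_cancel₀ (X_ne_zero) h

/-- the form `X² + z β Y²` -/
theorem aniso1 {β : D} (hβ : β ≠ 0) : ∀ n : ℕ, ∀ f g : D⟦X⟧,
    f * f + X * C β * (g * g) = 0 → (X : D⟦X⟧) ^ n ∣ f ∧ (X : D⟦X⟧) ^ n ∣ g := by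
  intro n
  induction n with
  | zero => intro f g _; simp
  | succ n ih =>
    intro f g h
    have h1 : constantCoeff f = 0 := by
      have := congrArg (constantCoeff (R := D)) h
      simp only [map_add, map_mul, constantCoeff_X, zero_mul, add_zero, map_zero] at this
      exact mul_self_eq_zero.1 this
    obtain ⟨f', rfl⟩ := exists_X_mul h1
    have h2 : X * (f' * f') + C β * (g * g) = 0 := by
      apply X_cancel
      rw [mul_zero, ← h]
      ring
    have h3 : constantCoeff g = 0 := by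
      have := congrArg (constantCoeff (R := D)) h2
      simp only [map_add, map_mul, constantCoeff_X, zero_mul, zero_add, map_zero,
        constantCoeff_C] at this
      exact mul_self_eq_zero.1 ((mul_eq_zero.1 this).resolve_left hβ)
    obtain ⟨g', rfl⟩ := exists_X_mul h3
    have h4 : f' * f' + X * C β * (g' * g') = 0 := by
      apply X_cancel
      rw [mul_zero, ← h2]
      ring
    obtain ⟨h5, h6⟩ := ih f' g' h4
    exact ⟨by rw [pow_succ']; exact mul_dvd_mul_left _ h5,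
      by rw [pow_succ']; exact mul_dvd_mul_left _ h6⟩

/-- the second system -/
theorem aniso2 {β : D} (hβ : β ≠ 0) : ∀ n : ℕ, ∀ f0 f1 f2 f3 : D⟦X⟧,
    f0 * f0 - X * C β * (f2 * f2) + 2 * (X * C β) * (f1 * f3) = 0 →
    2 * (f0 * f2) + C β * (f1 * f1) - X * (f3 * f3) = 0 →
    (X : D⟦X⟧) ^ n ∣ f0 ∧ (X : D⟦X⟧) ^ n ∣ f1 ∧ (X : D⟦X⟧) ^ n ∣ f2 ∧ (X : D⟦X⟧) ^ n ∣ f3 := by
  intro n
  induction n with
  | zero => intro f0 f1 f2 f3 _ _; simp
  | succ n ih =>
    intro f0 f1 f2 f3 ha hb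
    have h0 : constantCoeff f0 = 0 := by
      have := congrArg (constantCoeff (R := D)) ha
      simp only [map_add, map_sub, map_mul, constantCoeff_X, zero_mul, mul_zero, add_zero,
        sub_zero, map_zero] at this
      exact mul_self_eq_zero.1 this
    obtain ⟨f0, rfl⟩ := exists_X_mul h0
    have h1 : constantCoeff f1 = 0 := by
      have := congrArg (constantCoeff (R := D)) hb
      simp only [map_add, map_sub, map_mul, constantCoeff_X, zero_mul, mul_zero, zero_add,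
        sub_zero, map_zero, constantCoeff_C] at this
      exact mul_self_eq_zero.1 ((mul_eq_zero.1 this).resolve_left hβ)
    obtain ⟨f1, rfl⟩ := exists_X_mul h1
    have ha2 : X * (f0 * f0) - C β * (f2 * f2) + 2 * (X * C β) * (f1 * f3) = 0 := by
      apply X_cancel
      rw [mul_zero, ← ha]
      ring
    have h2 : constantCoeff f2 = 0 := by
      have := congrArg (constantCoeff (R := D)) ha2
      simp only [map_add, map_sub, map_mul, constantCoeff_X, zero_mul, mul_zero, add_zero,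
        zero_sub, map_zero, constantCoeff_C, neg_eq_zero] at this
      exact mul_self_eq_zero.1 ((mul_eq_zero.1 this).resolve_left hβ)
    obtain ⟨f2, rfl⟩ := exists_X_mul h2
    have hb2 : 2 * (X * (f0 * f2)) + X * (C β * (f1 * f1)) - f3 * f3 = 0 := by
      apply X_cancel
      rw [mul_zero, ← hb]
      ring
    have h3 : constantCoeff f3 = 0 := by
      have := congrArg (constantCoeff (R := D)) hb2
      simp only [map_add, map_sub, map_mul, constantCoeff_X, zero_mul, mul_zero, add_zero,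
        zero_sub, map_zero, neg_eq_zero] at this
      exact mul_self_eq_zero.1 this
    obtain ⟨f3, rfl⟩ := exists_X_mul h3
    obtain ⟨c0, c1, c2, c3⟩ := ih f0 f1 f2 f3 (by
      apply X_cancel
      rw [mul_zero, ← ha2]
      ring) (by
      apply X_cancel
      rw [mul_zero, ← hb2]
      ring)
    exact ⟨by rw [pow_succ']; exact mul_dvd_mul_left _ c0,
      by rw [pow_succ']; exact mul_dvd_mul_left _ c1,
      by rw [pow_succ']; exact mul_dvd_mul_left _ c2,
      by rw [pow_succ']; exact mul_dvd_mul_left _ c3⟩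

/-- lifting `X² + w X Y + β Y²` -/
theorem aniso1' {β : D} (h0 : ∀ f g : D, f * f + β * (g * g) = 0 → f = 0 ∧ g = 0) :
    ∀ n : ℕ, ∀ f g : D⟦X⟧, f * f + X * (f * g) + C β * (g * g) = 0 →
    (X : D⟦X⟧) ^ n ∣ f ∧ (X : D⟦X⟧) ^ n ∣ g := by
  intro n
  induction n with
  | zero => intro f g _; simp
  | succ n ih =>
    intro f g h
    have h1 := congrArg (constantCoeff (R := D)) h
    simp only [map_add, map_mul, constantCoeff_X, zero_mul, add_zero, map_zero,
      constantCoeff_C] at h1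
    obtain ⟨h2, h3⟩ := h0 _ _ h1
    obtain ⟨f, rfl⟩ := exists_X_mul h2
    obtain ⟨g, rfl⟩ := exists_X_mul h3
    obtain ⟨c0, c1⟩ := ih f g (by
      apply X_cancel
      apply X_cancel
      rw [mul_zero, mul_zero, ← h]
      ring)
    exact ⟨by rw [pow_succ']; exact mul_dvd_mul_left _ c0,
      by rw [pow_succ']; exact mul_dvd_mul_left _ c1⟩

theorem aniso2' {β ζ : D}
    (h0 : ∀ f0 f1 f2 f3 : D, f0 * f0 - ζ * β * (f2 * f2) + 2 * (ζ * β) * (f1 * f3) = 0 →
      2 * (f0 * f2) + β * (f1 * f1) - ζ * (f3 * f3) = 0 → f0 = 0 ∧ f1 = 0 ∧ f2 = 0 ∧ f3 = 0) :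
    ∀ n : ℕ, ∀ f0 f1 f2 f3 : D⟦X⟧,
    f0 * f0 - C ζ * C β * (f2 * f2) + 2 * (C ζ * C β) * (f1 * f3) + X * C ζ * (f3 * f3) = 0 →
    2 * (f0 * f2) + X * (f2 * f2) + C β * (f1 * f1) - C ζ * (f3 * f3) = 0 →
    (X : D⟦X⟧) ^ n ∣ f0 ∧ (X : D⟦X⟧) ^ n ∣ f1 ∧ (X : D⟦X⟧) ^ n ∣ f2 ∧ (X : D⟦X⟧) ^ n ∣ f3 := by
  intro n
  induction n with
  | zero => intro f0 f1 f2 f3 _ _; simp
  | succ n ih =>
    intro f0 f1 f2 f3 ha hb
    have h1 := congrArg (constantCoeff (R := D)) ha
    have h2 := congrArg (constantCoeff (R := D)) hb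
    simp only [map_add, map_sub, map_mul, constantCoeff_X, zero_mul, add_zero, map_zero,
      constantCoeff_C, map_ofNat] at h1 h2
    obtain ⟨c0, c1, c2, c3⟩ := h0 _ _ _ _ h1 h2
    obtain ⟨f0, rfl⟩ := exists_X_mul c0
    obtain ⟨f1, rfl⟩ := exists_X_mul c1
    obtain ⟨f2, rfl⟩ := exists_X_mul c2
    obtain ⟨f3, rfl⟩ := exists_X_mul c3
    obtain ⟨c0, c1, c2, c3⟩ := ih f0 f1 f2 f3 (by
      apply X_cancel
      apply X_cancel
      rw [mul_zero, mul_zero, ← ha]
      ring) (by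
      apply X_cancel
      apply X_cancel
      rw [mul_zero, mul_zero, ← hb]
      ring)
    exact ⟨by rw [pow_succ']; exact mul_dvd_mul_left _ c0,
      by rw [pow_succ']; exact mul_dvd_mul_left _ c1,
      by rw [pow_succ']; exact mul_dvd_mul_left _ c2,
      by rw [pow_succ']; exact mul_dvd_mul_left _ c3⟩

end desc

/-- the iterated power series ring -/
abbrev S3 (R : Type) [CommRing R] : Type := R⟦X⟧⟦X⟧⟦X⟧

variable (R : Type) [CommRing R]

/-- the parameters -/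
noncomputable def vb : S3 R := C (C X)
noncomputable def vz : S3 R := C X
noncomputable def vw : S3 R := X

/-- **The special fibre of the Steinberg ring is a domain.** -/
theorem isDomain_DR0 [IsDomain R] : IsDomain (DR (vb R) (vz R) (vw R) 0) := by
  have hβ : (X : R⟦X⟧) ≠ 0 := X_ne_zero
  have A1 : ∀ f g : R⟦X⟧⟦X⟧, f * f + X * C X * (g * g) = 0 → f = 0 ∧ g = 0 := fun f g h =>
    ⟨eq_zero_of_forall_dvd fun n => (aniso1 hβ n f g h).1,
      eq_zero_of_forall_dvd fun n => (aniso1 hβ n f g h).2⟩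
  have A2 : ∀ f0 f1 f2 f3 : R⟦X⟧⟦X⟧,
      f0 * f0 - X * C X * (f2 * f2) + 2 * (X * C X) * (f1 * f3) = 0 →
      2 * (f0 * f2) + C X * (f1 * f1) - X * (f3 * f3) = 0 → f0 = 0 ∧ f1 = 0 ∧ f2 = 0 ∧ f3 = 0 :=
    fun f0 f1 f2 f3 ha hb =>
    ⟨eq_zero_of_forall_dvd fun n => (aniso2 hβ n f0 f1 f2 f3 ha hb).1,
      eq_zero_of_forall_dvd fun n => (aniso2 hβ n f0 f1 f2 f3 ha hb).2.1,
      eq_zero_of_forall_dvd fun n => (aniso2 hβ n f0 f1 f2 f3 ha hb).2.2.1,
      eq_zero_of_forall_dvd fun n => (aniso2 hβ n f0 f1 f2 f3 ha hb).2.2.2⟩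
  have B1 : ∀ f g : S3 R, f * f + vw R * (f * g) + vb R * vz R * (g * g) = 0 → f = 0 ∧ g = 0 := by
    intro f g h
    have h' : f * f + X * (f * g) + C (X * C X) * (g * g) = 0 := by
      rw [← h, vw, vb, vz, map_mul]
      ring
    exact ⟨eq_zero_of_forall_dvd fun n => (aniso1' A1 n f g h').1,
      eq_zero_of_forall_dvd fun n => (aniso1' A1 n f g h').2⟩
  have B2 : ∀ f0 f1 f2 f3 : S3 R,
      f0 * f0 - vb R * vz R * (f2 * f2) + 2 * (vb R * vz R) * (f1 * f3) +
        vw R * vz R * (f3 * f3) = 0 →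
      2 * (f0 * f2) + vw R * (f2 * f2) + vb R * (f1 * f1) - vz R * (f3 * f3) = 0 →
      f0 = 0 ∧ f1 = 0 ∧ f2 = 0 ∧ f3 = 0 := by
    intro f0 f1 f2 f3 ha hb
    have ha' : f0 * f0 - C X * C (C X) * (f2 * f2) + 2 * (C X * C (C X)) * (f1 * f3) +
        X * C X * (f3 * f3) = 0 := by
      rw [← ha, vw, vb, vz]
      ring
    have hb' : 2 * (f0 * f2) + X * (f2 * f2) + C (C X) * (f1 * f1) - C X * (f3 * f3) = 0 := hb
    exact ⟨eq_zero_of_forall_dvd fun n => (aniso2' A2 n f0 f1 f2 f3 ha' hb').1,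
      eq_zero_of_forall_dvd fun n => (aniso2' A2 n f0 f1 f2 f3 ha' hb').2.1,
      eq_zero_of_forall_dvd fun n => (aniso2' A2 n f0 f1 f2 f3 ha' hb').2.2.1,
      eq_zero_of_forall_dvd fun n => (aniso2' A2 n f0 f1 f2 f3 ha' hb').2.2.2⟩
  haveI : Nontrivial (DR (vb R) (vz R) (vw R) 0) :=
    ⟨0, 1, fun h => zero_ne_one (congrArg DR.e0 h)⟩
  have key : ∀ f : DR (vb R) (vz R) (vw R) 0, f ≠ 0 → ∃ g, ∃ s : S3 R, s ≠ 0 ∧
      f * g = ⟨s, 0, 0, 0⟩ := by
    intro f hf
    set α := f.e0 * f.e0 - vb R * vz R * (f.e2 * f.e2) + 2 * (vb R * vz R) * (f.e1 * f.e3) +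
        vw R * vz R * (f.e3 * f.e3) with hα
    set β := 2 * (f.e0 * f.e2) + vw R * (f.e2 * f.e2) + vb R * (f.e1 * f.e1) -
        vz R * (f.e3 * f.e3) with hβ
    have h1 : ¬ (α = 0 ∧ β = 0) := by
      rintro ⟨h1, h2⟩
      obtain ⟨c0, c1, c2, c3⟩ := B2 _ _ _ _ h1 h2
      exact hf (DR.ext c0 c1 c2 c3)
    have h2 : α * α + vw R * (α * β) + vb R * vz R * (β * β) ≠ 0 := fun h => h1 (B1 _ _ h)
    refine ⟨⟨f.e0, -f.e1, f.e2, -f.e3⟩ * ⟨α + β * vw R, 0, -β, 0⟩, _, h2, ?_⟩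
    rw [← mul_assoc]
    have h3 : f * ⟨f.e0, -f.e1, f.e2, -f.e3⟩ = ⟨α, 0, β, 0⟩ := by
      rw [DR.mul_def, hα, hβ]
      ext1 <;> simp only <;> ring
    rw [h3, DR.mul_def]
    ext1 <;> simp only <;> ring
  haveI : NoZeroDivisors (DR (vb R) (vz R) (vw R) 0) := ⟨fun {f g} h => by
    by_contra hcon
    push Not at hcon
    obtain ⟨f', s, hs, hf'⟩ := key f hcon.1
    apply hcon.2
    have h1 : (⟨s, 0, 0, 0⟩ : DR (vb R) (vz R) (vw R) 0) * g = 0 := by
      rw [← hf', mul_comm f f', mul_assoc, h, mul_zero]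
    have h2 := DR.smul_def' s g
    rw [Algebra.smul_def, DR.algebraMap_def, h1] at h2
    have e0 := congrArg DR.e0 h2
    have e1 := congrArg DR.e1 h2
    have e2 := congrArg DR.e2 h2
    have e3 := congrArg DR.e3 h2
    simp only [DR.e0_zero, DR.e1_zero, DR.e2_zero, DR.e3_zero] at e0 e1 e2 e3
    exact DR.ext ((mul_eq_zero.1 e0.symm).resolve_left hs) ((mul_eq_zero.1 e1.symm).resolve_left hs)
      ((mul_eq_zero.1 e2.symm).resolve_left hs) ((mul_eq_zero.1 e3.symm).resolve_left hs)⟩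
  exact NoZeroDivisors.to_isDomain _

end Fermat.Agent.StR
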