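import Fermat.Agent.StR.Adm
import Fermat.Agent.StR.Dom

/-!
# The Steinberg ring is admissible
-/

set_option autoImplicit false
set_option linter.unusedSectionVars false
set_option linter.style.haveILetI false

namespace Fermat.Agent.StR

open IsLocalRing
open scoped PowerSeries

namespace DR

variable {S : Type} [CommRing S] {b z w d : S}

theorem e0_mul (f g : DR b z w d) : (f * g).e0 = f.e0 * g.e0 -
    (f.e1 * g.e2 + f.e2 * g.e1) * (w * d) - (f.e1 * g.e3 + f.e3 * g.e1) * (b * z) -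
    f.e2 * g.e2 * (b * z) - f.e3 * g.e3 * (w * z) := rfl

theorem e0_add (f g : DR b z w d) : (f + g).e0 = f.e0 + g.e0 := rfl

theorem e0_sub (f g : DR b z w d) : (f - g).e0 = f.e0 - g.e0 := by
  rw [sub_eq_add_neg, e0_add, sub_eq_add_neg]
  rfl

theorem e0_one : (1 : DR b z w d).e0 = 1 := rfl

/-- the map induced by a homomorphism of the coefficients -/
def mapHom {S' : Type} [CommRing S'] {b' z' w' d' : S'} (μ : S →+* S') (hb : μ b = b')
    (hz : μ z = z') (hw : μ w = w') (hd : μ d = d') : DR b z w d →+* DR b' z' w' d' where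
  toFun f := ⟨μ f.e0, μ f.e1, μ f.e2, μ f.e3⟩
  map_one' := by simp [one_def]
  map_zero' := by simp [zero_def]
  map_add' f g := by simp [add_def]
  map_mul' f g := by
    subst hb hz hw hd
    simp only [mul_def, map_add, map_sub, map_mul]

section loc

variable [IsLocalRing S] (hb : b ∈ maximalIdeal S) (hz : z ∈ maximalIdeal S)
  (hw : w ∈ maximalIdeal S) (hd : d ∈ maximalIdeal S)

include hb hz hw hd in
theorem mem_of_isMaximal (𝔐 : Ideal (DR b z w d)) [h𝔐 : 𝔐.IsMaximal] :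
    (∀ s ∈ maximalIdeal S, algebraMap S (DR b z w d) s ∈ 𝔐) ∧ (a : DR b z w d) ∈ 𝔐 ∧
      (c : DR b z w d) ∈ 𝔐 ∧ (x : DR b z w d) ∈ 𝔐 := by
  haveI := Ideal.isMaximal_comap_of_isIntegral_of_isMaximal (R := S) 𝔐
  have h1 : 𝔐.comap (algebraMap S (DR b z w d)) = maximalIdeal S := IsLocalRing.eq_maximalIdeal this
  have h2 : ∀ s ∈ maximalIdeal S, algebraMap S (DR b z w d) s ∈ 𝔐 := by
    intro s hs
    rw [← h1] at hs
    exact hs
  haveI := h𝔐.isPrime
  refine ⟨h2, ?_, ?_, ?_⟩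
  · have h3 : (a : DR b z w d) * a ∈ 𝔐 := by
      rw [rel_aa]
      exact sub_mem (𝔐.mul_mem_right _ (h2 _ hd)) (𝔐.mul_mem_right _ (h2 _ hb))
    exact (Ideal.IsPrime.mem_or_mem inferInstance h3).elim id id
  · have h3 : (c : DR b z w d) * c ∈ 𝔐 := by
      rw [rel_cc]
      exact sub_mem (add_mem (𝔐.mul_mem_right _ (h2 _ hw)) (𝔐.mul_mem_right _ (h2 _ hd)))
        (h2 _ (Ideal.mul_mem_right _ _ hb))
    exact (Ideal.IsPrime.mem_or_mem inferInstance h3).elim id id
  · have h3 : (x : DR b z w d) * x ∈ 𝔐 := by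
      rw [rel_xx]
      exact sub_mem (𝔐.mul_mem_right _ (h2 _ hz)) (h2 _ (Ideal.mul_mem_right _ _ hw))
    exact (Ideal.IsPrime.mem_or_mem inferInstance h3).elim id id

include hb hz hw hd in
theorem isUnit_iff (f : DR b z w d) : IsUnit f ↔ IsUnit f.e0 := by
  constructor
  · intro hf
    obtain ⟨g, hg⟩ := hf.exists_right_inv
    by_contra hcon
    have h1 : f.e0 ∈ maximalIdeal S := (mem_maximalIdeal _).2 hcon
    have h2 := congrArg DR.e0 hg
    rw [e0_mul, e0_one] at h2
    have h3 : (1 : S) ∈ maximalIdeal S := by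
      rw [← h2]
      refine sub_mem (sub_mem (sub_mem (sub_mem ?_ ?_) ?_) ?_) ?_
      · exact Ideal.mul_mem_right _ _ h1
      · exact Ideal.mul_mem_left _ _ (Ideal.mul_mem_right _ _ hw)
      · exact Ideal.mul_mem_left _ _ (Ideal.mul_mem_right _ _ hb)
      · exact Ideal.mul_mem_left _ _ (Ideal.mul_mem_right _ _ hb)
      · exact Ideal.mul_mem_left _ _ (Ideal.mul_mem_right _ _ hw)
    exact (Ideal.ne_top_iff_one _).1 (maximalIdeal.isMaximal S).ne_top h3
  · intro hf
    by_contra hcon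
    obtain ⟨𝔐, h𝔐, hf𝔐⟩ := exists_max_ideal_of_mem_nonunits (mem_nonunits_iff.2 hcon)
    obtain ⟨h1, h2, h3, h4⟩ := mem_of_isMaximal hb hz hw hd 𝔐
    have h5 : algebraMap S (DR b z w d) f.e0 ∈ 𝔐 := by
      have h6 := eq_sum f
      have h7 : algebraMap S (DR b z w d) f.e0 = f - (algebraMap S _ f.e1 * a +
        algebraMap S _ f.e2 * c + algebraMap S _ f.e3 * x) := by
        rw [eq_sub_iff_add_eq, ← add_assoc, ← add_assoc]
        exact h6.symm
      rw [h7]
      exact sub_mem hf𝔐 (add_mem (add_mem (𝔐.mul_mem_left _ h2) (𝔐.mul_mem_left _ h3))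
        (𝔐.mul_mem_left _ h4))
    exact h𝔐.ne_top (Ideal.eq_top_of_isUnit_mem _ h5 (hf.map _))

include hb hz hw hd in
theorem isLocalRing : IsLocalRing (DR b z w d) := by
  haveI : Nontrivial (DR b z w d) := ⟨0, 1, fun h => zero_ne_one (congrArg DR.e0 h)⟩
  refine IsLocalRing.of_isUnit_or_isUnit_one_sub_self fun f => ?_
  rw [isUnit_iff hb hz hw hd, isUnit_iff hb hz hw hd]
  have h1 : (1 - f).e0 = 1 - f.e0 := by
    rw [sub_eq_add_neg, e0_add, e0_one, sub_eq_add_neg]
    rfl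
  rw [h1]
  exact IsLocalRing.isUnit_or_isUnit_one_sub_self _

include hb hz hw hd in
theorem mem_max [IsLocalRing (DR b z w d)] (f : DR b z w d) :
    f ∈ maximalIdeal (DR b z w d) ↔ f.e0 ∈ maximalIdeal S := by
  rw [mem_maximalIdeal, mem_maximalIdeal, mem_nonunits_iff, mem_nonunits_iff,
    isUnit_iff hb hz hw hd]

include hb hz hw hd in
theorem max_le [IsLocalRing (DR b z w d)] : maximalIdeal (DR b z w d) ≤
    (maximalIdeal S).map (algebraMap S (DR b z w d)) ⊔ Ideal.span {a, c, x} := by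
  intro f hf
  rw [mem_max hb hz hw hd] at hf
  rw [eq_sum f, add_assoc, add_assoc]
  refine Submodule.add_mem_sup (Ideal.mem_map_of_mem _ hf) ?_
  refine add_mem (Ideal.mul_mem_left _ _ (Ideal.subset_span ?_))
    (add_mem (Ideal.mul_mem_left _ _ (Ideal.subset_span ?_))
      (Ideal.mul_mem_left _ _ (Ideal.subset_span ?_))) <;> simp

include hb hz hw hd in
theorem max_le_radical [IsLocalRing (DR b z w d)] : maximalIdeal (DR b z w d) ≤
    ((maximalIdeal S).map (algebraMap S (DR b z w d))).radical := by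
  refine (max_le hb hz hw hd).trans (sup_le Ideal.le_radical ?_)
  rw [Ideal.span_le]
  have hm : ∀ s ∈ maximalIdeal S, algebraMap S (DR b z w d) s ∈
    (maximalIdeal S).map (algebraMap S (DR b z w d)) := fun s hs => Ideal.mem_map_of_mem _ hs
  rintro y (rfl | rfl | rfl)
  · refine ⟨2, ?_⟩
    rw [pow_two, rel_aa]
    exact sub_mem (Ideal.mul_mem_right _ _ (hm _ hd)) (Ideal.mul_mem_right _ _ (hm _ hb))
  · refine ⟨2, ?_⟩
    rw [pow_two, rel_cc]
    exact sub_mem (add_mem (Ideal.mul_mem_right _ _ (hm _ hw)) (Ideal.mul_mem_right _ _ (hm _ hd)))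
      (hm _ (Ideal.mul_mem_right _ _ hb))
  · refine ⟨2, ?_⟩
    rw [pow_two, rel_xx]
    exact sub_mem (Ideal.mul_mem_right _ _ (hm _ hz)) (hm _ (Ideal.mul_mem_right _ _ hw))

end loc

end DR

theorem isDomain_of_quot {D : Type} [CommRing D] [Nontrivial D] (π : D)
    (hπ : ∀ x, π * x = 0 → x = 0) (hinf : ∀ x, (∀ n : ℕ, π ^ n ∣ x) → x = 0)
    (hdom : ∀ f g, π ∣ f * g → π ∣ f ∨ π ∣ g) : IsDomain D := by
  classical
  have key : ∀ f : D, f ≠ 0 → ∃ (n : ℕ) (g : D), f = π ^ n * g ∧ ¬ π ∣ g := by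
    intro f hf
    have h1 : ∃ n : ℕ, ¬ π ^ n ∣ f := by
      by_contra hcon
      push Not at hcon
      exact hf (hinf f hcon)
    obtain ⟨n, hn⟩ : ∃ n, Nat.find h1 = n + 1 := Nat.exists_eq_succ_of_ne_zero fun h => by
      have := Nat.find_spec h1
      rw [h, pow_zero] at this
      exact this (one_dvd _)
    have h2 : π ^ n ∣ f := by
      by_contra hcon
      have := Nat.find_min' h1 hcon
      omega
    obtain ⟨g, hg⟩ := h2
    refine ⟨n, g, hg, ?_⟩
    rintro ⟨g', rfl⟩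
    have := Nat.find_spec h1
    rw [hn] at this
    exact this ⟨g', by rw [hg]; ring⟩
  have hπn : ∀ (n : ℕ) x, π ^ n * x = 0 → x = 0 := by
    intro n
    induction n with
    | zero => intro x hx; simpa using hx
    | succ n ih =>
      intro x hx
      apply ih
      apply hπ
      rw [← hx]
      ring
  haveI : NoZeroDivisors D := ⟨fun {f g} h => by
    by_contra hcon
    push Not at hcon
    obtain ⟨n, f', hf, hf'⟩ := key f hcon.1
    obtain ⟨m, g', hg, hg'⟩ := key g hcon.2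
    have h1 : f' * g' = 0 := by
      apply hπn (n + m)
      rw [← h, hf, hg]
      ring
    rcases hdom f' g' (by rw [h1]; exact dvd_zero _) with h2 | h2
    · exact hf' h2
    · exact hg' h2⟩
  exact NoZeroDivisors.to_isDomain D

section ker

open PowerSeries

theorem ps_ker {R R' : Type} [CommRing R] [CommRing R'] (g : R →+* R') (π : R)
    (hg : ∀ x, g x = 0 ↔ π ∣ x) (f : R⟦X⟧) : PowerSeries.map g f = 0 ↔ C π ∣ f := by
  have h0 : C π ∣ f ↔ ∀ n, π ∣ coeff n f := by
    constructor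
    · rintro ⟨g, rfl⟩ n
      rw [coeff_C_mul]
      exact dvd_mul_right _ _
    · intro h
      choose G hG using h
      refine ⟨PowerSeries.mk G, ?_⟩
      ext n
      rw [coeff_C_mul, coeff_mk]
      exact hG n
  rw [h0]
  constructor
  · intro h n
    rw [← hg, ← coeff_map, h, map_zero]
  · intro h
    ext n
    rw [coeff_map, map_zero, hg]
    exact h n

end ker

variable {O : Type} [CommRing O] [IsLocalRing O] {ϖ : O}
variable {R : Type} [CommRing R] [IsLocalRing R] [Algebra O R]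

theorem Adm.s3 (h : Adm O ϖ R) : Adm O ϖ (S3 R) := h.ps.ps.ps

/-- **The Steinberg ring is a domain and `ϖ` is prime.** -/
theorem DR.dom_prime (h : Adm O ϖ R) (d : S3 R) (hd : algebraMap O (S3 R) ϖ ∣ d) :
    IsDomain (DR (vb R) (vz R) (vw R) d) ∧
      Prime (algebraMap (S3 R) (DR (vb R) (vz R) (vw R) d) (algebraMap O (S3 R) ϖ)) := by
  haveI := h.dom
  have h3 := h.s3
  haveI := h3.dom
  haveI := h3.noe
  set π : R := algebraMap O R ϖ with hπ
  set ϖ' : S3 R := algebraMap O (S3 R) ϖ with hp1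
  have hp1' : ϖ' = PowerSeries.C (PowerSeries.C (PowerSeries.C π)) := by
    rw [hp1, PowerSeries.algebraMap_apply, PowerSeries.algebraMap_apply,
      PowerSeries.algebraMap_apply]
  haveI : (Ideal.span {π}).IsPrime := (Ideal.span_singleton_prime h.prm.ne_zero).2 h.prm
  let R0 := R ⧸ Ideal.span {π}
  let μ : S3 R →+* S3 R0 :=
    PowerSeries.map (PowerSeries.map (PowerSeries.map (Ideal.Quotient.mk (Ideal.span {π}))))
  have hμ : ∀ f, μ f = 0 ↔ ϖ' ∣ f := by
    intro f
    rw [hp1']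
    refine ps_ker _ _ (ps_ker _ _ (ps_ker _ _ fun x => ?_)) f
    rw [Ideal.Quotient.eq_zero_iff_mem, Ideal.mem_span_singleton]
  have hμb : μ (vb R) = vb R0 := by
    simp only [μ, vb, PowerSeries.map_C, PowerSeries.map_X]
  have hμz : μ (vz R) = vz R0 := by
    simp only [μ, vz, PowerSeries.map_C, PowerSeries.map_X]
  have hμw : μ (vw R) = vw R0 := by
    simp only [μ, vw, PowerSeries.map_X]
  have hμd : μ d = 0 := (hμ d).2 hd
  let F : DR (vb R) (vz R) (vw R) d →+* DR (vb R0) (vz R0) (vw R0) 0 :=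
    DR.mapHom μ hμb hμz hμw hμd
  haveI : IsDomain (DR (vb R0) (vz R0) (vw R0) 0) := isDomain_DR0 R0
  have hF : ∀ f, F f = 0 ↔ algebraMap (S3 R) (DR (vb R) (vz R) (vw R) d) ϖ' ∣ f := by
    intro f
    constructor
    · intro hf
      have e0 := (hμ _).1 (congrArg DR.e0 hf)
      have e1 := (hμ _).1 (congrArg DR.e1 hf)
      have e2 := (hμ _).1 (congrArg DR.e2 hf)
      have e3 := (hμ _).1 (congrArg DR.e3 hf)
      obtain ⟨f0, e0⟩ := e0
      obtain ⟨f1, e1⟩ := e1
      obtain ⟨f2, e2⟩ := e2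
      obtain ⟨f3, e3⟩ := e3
      refine ⟨⟨f0, f1, f2, f3⟩, ?_⟩
      rw [← Algebra.smul_def, DR.smul_def']
      exact DR.ext e0 e1 e2 e3
    · rintro ⟨g, rfl⟩
      rw [map_mul]
      have h1 : F (algebraMap (S3 R) (DR (vb R) (vz R) (vw R) d) ϖ') = 0 := by
        have h2 : μ ϖ' = 0 := (hμ ϖ').2 dvd_rfl
        rw [DR.algebraMap_def]
        change (⟨μ ϖ', μ 0, μ 0, μ 0⟩ : DR (vb R0) (vz R0) (vw R0) 0) = 0
        rw [h2, map_zero]
        rfl
      rw [h1, zero_mul]
  haveI : Nontrivial (DR (vb R) (vz R) (vw R) d) :=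
    ⟨0, 1, fun h => zero_ne_one (congrArg DR.e0 h)⟩
  have hdom : ∀ f g, algebraMap (S3 R) (DR (vb R) (vz R) (vw R) d) ϖ' ∣ f * g →
      algebraMap (S3 R) (DR (vb R) (vz R) (vw R) d) ϖ' ∣ f ∨
      algebraMap (S3 R) (DR (vb R) (vz R) (vw R) d) ϖ' ∣ g := by
    intro f g hfg
    rw [← hF, map_mul] at hfg
    rw [← hF, ← hF]
    exact mul_eq_zero.1 hfg
  have hp10 : ϖ' ≠ 0 := h3.prm.ne_zero
  have hsm : ∀ (s : S3 R) (f : DR (vb R) (vz R) (vw R) d),
      algebraMap (S3 R) (DR (vb R) (vz R) (vw R) d) s * f =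
        ⟨s * f.e0, s * f.e1, s * f.e2, s * f.e3⟩ := by
    intro s f
    rw [← Algebra.smul_def, DR.smul_def']
  have hcan : ∀ (f : DR (vb R) (vz R) (vw R) d),
      algebraMap (S3 R) (DR (vb R) (vz R) (vw R) d) ϖ' * f = 0 → f = 0 := by
    intro f hf
    rw [hsm] at hf
    have e0 := congrArg DR.e0 hf
    have e1 := congrArg DR.e1 hf
    have e2 := congrArg DR.e2 hf
    have e3 := congrArg DR.e3 hf
    exact DR.ext ((mul_eq_zero.1 e0).resolve_left hp10) ((mul_eq_zero.1 e1).resolve_left hp10)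
      ((mul_eq_zero.1 e2).resolve_left hp10) ((mul_eq_zero.1 e3).resolve_left hp10)
  have hinf0 : ∀ x : S3 R, (∀ n : ℕ, ϖ' ^ n ∣ x) → x = 0 := by
    intro x hx
    have h1 := Ideal.iInf_pow_eq_bot_of_isDomain (Ideal.span {ϖ'}) (by
      intro htop
      exact h3.prm.not_isUnit (Ideal.span_singleton_eq_top.1 htop))
    have h2 : x ∈ (⨅ i : ℕ, Ideal.span {ϖ'} ^ i) := by
      rw [Ideal.mem_iInf]
      intro n
      rw [Ideal.span_singleton_pow, Ideal.mem_span_singleton]
      exact hx n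
    rw [h1] at h2
    exact h2
  have hinf : ∀ x : DR (vb R) (vz R) (vw R) d,
      (∀ n : ℕ, algebraMap (S3 R) (DR (vb R) (vz R) (vw R) d) ϖ' ^ n ∣ x) → x = 0 := by
    intro x hx
    have h1 : ∀ n : ℕ, ∃ g : DR (vb R) (vz R) (vw R) d,
        x = ⟨ϖ' ^ n * g.e0, ϖ' ^ n * g.e1, ϖ' ^ n * g.e2, ϖ' ^ n * g.e3⟩ := by
      intro n
      obtain ⟨g, hg⟩ := hx n
      refine ⟨g, ?_⟩
      rw [hg, ← map_pow, hsm]
    refine DR.ext (hinf0 _ fun n => ?_) (hinf0 _ fun n => ?_) (hinf0 _ fun n => ?_)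
      (hinf0 _ fun n => ?_) <;>
    · obtain ⟨g, hg⟩ := h1 n
      rw [hg]
      exact dvd_mul_right _ _
  refine ⟨isDomain_of_quot _ hcan hinf hdom, ?_, ?_, hdom⟩
  · intro h0
    have := congrArg DR.e0 h0
    rw [DR.algebraMap_def] at this
    exact hp10 this
  · intro hu
    have h1 : F (algebraMap (S3 R) (DR (vb R) (vz R) (vw R) d) ϖ') = 0 := (hF _).2 dvd_rfl
    have h2 := hu.map F
    rw [h1] at h2
    exact not_isUnit_zero h2

/-- constants -/
noncomputable def c3 (R : Type) [CommRing R] : R →+* S3 R :=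
  (PowerSeries.C (R := R⟦X⟧⟦X⟧)).comp ((PowerSeries.C (R := R⟦X⟧)).comp (PowerSeries.C (R := R)))

theorem c3_apply (x : R) : c3 R x = PowerSeries.C (PowerSeries.C (PowerSeries.C x)) := rfl

theorem vb_mem : vb R ∈ maximalIdeal (S3 R) := by
  rw [mem_max_ps, vb, PowerSeries.constantCoeff_C, mem_max_ps, PowerSeries.constantCoeff_C,
    mem_max_ps, PowerSeries.constantCoeff_X]
  exact zero_mem _

theorem vz_mem : vz R ∈ maximalIdeal (S3 R) := by
  rw [mem_max_ps, vz, PowerSeries.constantCoeff_C, mem_max_ps, PowerSeries.constantCoeff_X]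
  exact zero_mem _

theorem vw_mem : vw R ∈ maximalIdeal (S3 R) := by
  rw [mem_max_ps, vw, PowerSeries.constantCoeff_X]
  exact zero_mem _

/-- the maximal ideal of `S3` -/
theorem max_s3_le : maximalIdeal (S3 R) ≤
    (maximalIdeal R).map (c3 R) ⊔ Ideal.span {vb R, vz R, vw R} := by
  intro f hf
  rw [mem_max_ps] at hf
  have h1 : f = (f - PowerSeries.C (PowerSeries.constantCoeff f)) +
    PowerSeries.C (PowerSeries.constantCoeff f) := by ring
  rw [h1]
  refine add_mem ?_ ?_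
  · refine (le_sup_right : Ideal.span {vb R, vz R, vw R} ≤ _) ?_
    have h2 : vw R ∣ (f - PowerSeries.C (PowerSeries.constantCoeff f)) := by
      rw [vw, PowerSeries.X_dvd_iff, map_sub, PowerSeries.constantCoeff_C, sub_self]
    obtain ⟨g, hg⟩ := h2
    rw [hg]
    exact Ideal.mul_mem_right _ _ (Ideal.subset_span (by simp))
  · generalize PowerSeries.constantCoeff f = g at hf
    rw [mem_max_ps] at hf
    have h1 : g = (g - PowerSeries.C (PowerSeries.constantCoeff g)) +
      PowerSeries.C (PowerSeries.constantCoeff g) := by ring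
    rw [h1, map_add]
    refine add_mem ?_ ?_
    · refine (le_sup_right : Ideal.span {vb R, vz R, vw R} ≤ _) ?_
      have h2 : PowerSeries.X ∣ (g - PowerSeries.C (PowerSeries.constantCoeff g)) := by
        rw [PowerSeries.X_dvd_iff, map_sub, PowerSeries.constantCoeff_C, sub_self]
      obtain ⟨g, hg⟩ := h2
      rw [hg, map_mul]
      exact Ideal.mul_mem_right _ _ (Ideal.subset_span (by simp [vz]))
    · generalize PowerSeries.constantCoeff g = e at hf
      rw [mem_max_ps] at hf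
      have h1 : e = (e - PowerSeries.C (PowerSeries.constantCoeff e)) +
        PowerSeries.C (PowerSeries.constantCoeff e) := by ring
      rw [h1, map_add, map_add]
      refine add_mem ?_ ?_
      · refine (le_sup_right : Ideal.span {vb R, vz R, vw R} ≤ _) ?_
        have h2 : PowerSeries.X ∣ (e - PowerSeries.C (PowerSeries.constantCoeff e)) := by
          rw [PowerSeries.X_dvd_iff, map_sub, PowerSeries.constantCoeff_C, sub_self]
        obtain ⟨g, hg⟩ := h2
        rw [hg, map_mul, map_mul]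
        exact Ideal.mul_mem_right _ _ (Ideal.subset_span (by simp [vb]))
      · exact (le_sup_left : (maximalIdeal R).map (c3 R) ≤ _)
          (Ideal.mem_map_of_mem _ hf)

/-- the universal property of `S3` -/
theorem exists_eval_s3 {B : Type} [CommRing B] [IsLocalRing B] [IsAdicComplete (maximalIdeal B) B]
    (φ : R →+* B) (b z w : B) (hb : b ∈ maximalIdeal B) (hz : z ∈ maximalIdeal B)
    (hw : w ∈ maximalIdeal B) :
    ∃ ψ : S3 R →+* B, (∀ x, ψ (c3 R x) = φ x) ∧ ψ (vb R) = b ∧ ψ (vz R) = z ∧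
      ψ (vw R) = w := by
  obtain ⟨ψ1, h1, h1'⟩ := exists_eval_ps φ b hb
  obtain ⟨ψ2, h2, h2'⟩ := exists_eval_ps ψ1 z hz
  obtain ⟨ψ3, h3, h3'⟩ := exists_eval_ps ψ2 w hw
  refine ⟨ψ3, fun x => ?_, ?_, ?_, h3'⟩
  · rw [c3_apply, h3, h2, h1]
  · rw [vb, h3, h2, h1']
  · rw [vz, h3, h2']

end Fermat.Agent.StR
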