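import Fermat.Agent.Patch.Main

/-!
# Limits of rectangular matrices, and modules given by matrices
-/

set_option autoImplicit false
set_option linter.unusedSectionVars false
set_option linter.style.haveILetI false

namespace Fermat.Agent.StR

open IsLocalRing Filter RingTheory.Sequence Module Fermat.Agent.Patch

section LimR

variable {S : Type*} [CommRing S] [IsLocalRing S] [IsNoetherianRing S]
  [IsAdicComplete (maximalIdeal S) S] [Finite (ResidueField S)]
variable {α β γ : Type*} [Fintype α] [Fintype β] [Fintype γ]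

/-- The limit of rectangular matrices over `S ⧸ J n`. -/
def LimR (J : ℕ → Ideal S) (X : ∀ n, Matrix α β (S ⧸ J n)) (L : Matrix α β S) : Prop :=
  ∃ x : ℕ → Matrix α β S, (∀ n, (x n).map (Ideal.Quotient.mk (J n)) = X n) ∧
    ∀ i j, LimS J (fun n => x n i j) (L i j)

variable {J : ℕ → Ideal S}

theorem exists_LimR (hJ : ∀ m, ∀ᶠ n in atTop, J n ≤ (maximalIdeal S) ^ m)
    (X : ∀ n, Matrix α β (S ⧸ J n)) : ∃ L, LimR J X L := by
  have h : ∀ n i j, ∃ s : S, Ideal.Quotient.mk (J n) s = X n i j :=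
    fun n i j => Ideal.Quotient.mk_surjective _
  choose x hx using h
  have h2 : ∀ i j, ∃ L, LimS J (fun n => x n i j) L := fun i j => exists_LimS hJ _
  choose L hL using h2
  exact ⟨Matrix.of L, fun n => Matrix.of (x n), fun n => by ext i j; simp [hx], hL⟩

theorem LimR.eq {X X' : ∀ n, Matrix α β (S ⧸ J n)} {L L' : Matrix α β S} (h : LimR J X L)
    (h' : LimR J X' L') (hX : ∀ n, X n = X' n) : L = L' := by
  obtain ⟨x, hx, hL⟩ := h
  obtain ⟨x', hx', hL'⟩ := h'
  ext i j
  refine (hL i j).unique (hL' i j) (Eventually.of_forall fun n => ?_)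
  rw [← Ideal.Quotient.eq]
  have := congrFun (congrFun (hX n) i) j
  rw [← hx, ← hx'] at this
  exact this

theorem LimR.add {X X' : ∀ n, Matrix α β (S ⧸ J n)} {L L' : Matrix α β S} (h : LimR J X L)
    (h' : LimR J X' L') : LimR J (fun n => X n + X' n) (L + L') := by
  obtain ⟨x, hx, hL⟩ := h
  obtain ⟨x', hx', hL'⟩ := h'
  refine ⟨fun n => x n + x' n, fun n => ?_, fun i j => (hL i j).add (hL' i j)⟩
  rw [Matrix.map_add _ (map_add _), hx, hx']

theorem LimR.mul (hJ : ∀ m, ∀ᶠ n in atTop, J n ≤ (maximalIdeal S) ^ m)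
    {X : ∀ n, Matrix α β (S ⧸ J n)} {X' : ∀ n, Matrix β γ (S ⧸ J n)} {L : Matrix α β S}
    {L' : Matrix β γ S} (h : LimR J X L) (h' : LimR J X' L') :
    LimR J (fun n => X n * X' n) (L * L') := by
  obtain ⟨x, hx, hL⟩ := h
  obtain ⟨x', hx', hL'⟩ := h'
  refine ⟨fun n => x n * x' n, fun n => ?_, fun i j => ?_⟩
  · rw [Matrix.map_mul, hx, hx']
  · simp only [Matrix.mul_apply]
    exact LimS.sum hJ _ fun k _ => (hL i k).mul (hL' k j)

theorem LimR.zero (hJ : ∀ m, ∀ᶠ n in atTop, J n ≤ (maximalIdeal S) ^ m) :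
    LimR J (fun _ => (0 : Matrix α β _)) 0 :=
  ⟨fun _ => 0, fun _ => Matrix.map_zero _ (map_zero _), fun _ _ => LimS.const hJ 0⟩

theorem LimR.one [DecidableEq α] (hJ : ∀ m, ∀ᶠ n in atTop, J n ≤ (maximalIdeal S) ^ m) :
    LimR J (fun _ => (1 : Matrix α α _)) 1 :=
  ⟨fun _ => 1, fun _ => Matrix.map_one _ (map_zero _) (map_one _), fun _ _ => LimS.const hJ _⟩

theorem LimR.hom [DecidableEq α] {P : Type*} [CommRing P] [IsLocalRing P] [IsNoetherianRing P]
    [IsAdicComplete (maximalIdeal P) P] [Finite (ResidueField P)]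
    (hJ : ∀ m, ∀ᶠ n in atTop, J n ≤ (maximalIdeal S) ^ m)
    (ρ : ∀ n, P →+* Matrix α α (S ⧸ J n)) (x : P) :
    LimR J (fun n => ρ n x) (limHom hJ ρ x) :=
  LimM_limHom_const hJ ρ x

end LimR

section mods

variable {S : Type*} [CommRing S] [IsLocalRing S] [IsNoetherianRing S]
  [IsAdicComplete (maximalIdeal S) S] [Finite (ResidueField S)]
variable {P : Type*} [CommRing P] [IsLocalRing P] [IsNoetherianRing P]
  [IsAdicComplete (maximalIdeal P) P] [Finite (ResidueField P)]
variable {κ κ' : Type} [Fintype κ] [DecidableEq κ] [Fintype κ'] [DecidableEq κ']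

/-- linear maps given by matrices -/
noncomputable def mlin {f : P →+* Matrix κ κ S} {f' : P →+* Matrix κ' κ' S} (A : Matrix κ κ' S)
    (hA : ∀ a, f a * A = A * f' a) : PMod f' →ₗ[P] PMod f where
  toFun v := show PMod f from A.mulVec (show κ' → S from v)
  map_add' v w := Matrix.mulVec_add A (show κ' → S from v) (show κ' → S from w)
  map_smul' a v := by
    have h : ∀ v : κ' → S, A.mulVec ((f' a).mulVec v) = (f a).mulVec (A.mulVec v) := fun v => by
      rw [Matrix.mulVec_mulVec, Matrix.mulVec_mulVec, hA]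
    exact h v

theorem mlin_apply {f : P →+* Matrix κ κ S} {f' : P →+* Matrix κ' κ' S} (A : Matrix κ κ' S)
    (hA : ∀ a, f a * A = A * f' a) (v : κ' → S) : mlin A hA v = A.mulVec v := rfl

theorem psmul_apply (f : P →+* Matrix κ κ S) (a : P) (v : κ → S) :
    (a • (show PMod f from v) : PMod f) = (f a).mulVec v := rfl

/-- weak regularity of the cokernel of a split injection -/
theorem reg_coker {f : P →+* Matrix κ κ S} {f' : P →+* Matrix κ' κ' S} (A B : Matrix κ κ' S)
    (hA : ∀ a, f a * A = A * f' a) (hB : ∀ a, f a * B = B * f' a) (l m : Matrix κ' κ S)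
    (hl1 : l * A = 1) (hl2 : l * B = 0) (hm1 : m * A = 0) (hm2 : m * B = 1) {rs : List S}
    (hreg : IsWeaklyRegular S rs) {as : List P}
    (has : List.Forall₂ (fun (a : P) (s : S) => f a = Matrix.scalar κ s) as rs) :
    IsWeaklyRegular (PMod f ⧸ (LinearMap.range (mlin A hA) ⊔ LinearMap.range (mlin B hB))) as := by
  let W : Submodule P (PMod f) := LinearMap.range (mlin A hA) ⊔ LinearMap.range (mlin B hB)
  let A' : (κ' → S) →ₗ[S] (κ → S) := Matrix.mulVecLin A
  let B' : (κ' → S) →ₗ[S] (κ → S) := Matrix.mulVecLin B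
  let W' : Submodule S (κ → S) := LinearMap.range A' ⊔ LinearMap.range B'
  have hWW' : ∀ v : κ → S, (show PMod f from v) ∈ W ↔ v ∈ W' := by
    intro v
    constructor
    · intro hv
      obtain ⟨_, ⟨x, rfl⟩, _, ⟨y, rfl⟩, h⟩ := Submodule.mem_sup.1 hv
      have h' : A.mulVec x + B.mulVec y = v := h
      rw [← h']
      exact Submodule.add_mem_sup ⟨x, rfl⟩ ⟨y, rfl⟩
    · intro hv
      obtain ⟨_, ⟨x, rfl⟩, _, ⟨y, rfl⟩, h⟩ := Submodule.mem_sup.1 hv
      have h' : A.mulVec x + B.mulVec y = v := h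
      rw [← h']
      exact Submodule.add_mem_sup ⟨x, rfl⟩ ⟨y, rfl⟩
  let E : (PMod f ⧸ W) ≃+ ((κ → S) ⧸ W') :=
    { toFun := Quotient.map' (fun v => (show κ → S from v)) (fun v w h => by
        rw [← Quotient.eq''] at h
        have h1 : (Submodule.Quotient.mk v : PMod f ⧸ W) = Submodule.Quotient.mk w := h
        rw [Submodule.Quotient.eq] at h1
        have h2 : (Submodule.Quotient.mk (show κ → S from v) : (κ → S) ⧸ W') =
          Submodule.Quotient.mk (show κ → S from w) := (Submodule.Quotient.eq _).2 ((hWW' _).1 h1)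
        exact Quotient.eq''.1 h2)
      invFun := Quotient.map' (fun v => (show PMod f from v)) (fun v w h => by
        rw [← Quotient.eq''] at h
        have h1 : (Submodule.Quotient.mk v : (κ → S) ⧸ W') = Submodule.Quotient.mk w := h
        rw [Submodule.Quotient.eq] at h1
        have h2 : (Submodule.Quotient.mk (show PMod f from v) : PMod f ⧸ W) =
          Submodule.Quotient.mk (show PMod f from w) := (Submodule.Quotient.eq _).2 ((hWW' _).2 h1)
        exact Quotient.eq''.1 h2)
      left_inv := by rintro ⟨v⟩; rfl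
      right_inv := by rintro ⟨v⟩; rfl
      map_add' := by rintro ⟨v⟩ ⟨w⟩; rfl }
  have hE : ∀ (a : P) (s : S), f a = Matrix.scalar κ s → ∀ x, E (a • x) = s • E x := by
    intro a s has x
    obtain ⟨v, rfl⟩ := Submodule.mkQ_surjective _ x
    have h1 : a • v = s • v := smul_eq_smul f has v
    have h2 : E (Submodule.mkQ W (a • v)) = s • E (Submodule.mkQ W v) := by
      rw [h1]
      rfl
    have h3 : a • (Submodule.mkQ W v) = Submodule.mkQ W (a • v) := (map_smul _ _ _).symm
    exact (congrArg E h3).trans h2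
  refine (E.isWeaklyRegular_congr (has.imp fun a s hs x => hE a s hs x)).2 ?_
  -- `(κ → S) ⧸ W'` is projective
  let π : (κ → S) →ₗ[S] (κ → S) := LinearMap.id - A'.comp (Matrix.mulVecLin l) -
    B'.comp (Matrix.mulVecLin m)
  have hπ : ∀ v, π v = v - A.mulVec (l.mulVec v) - B.mulVec (m.mulVec v) := fun v => rfl
  have hker : W' ≤ LinearMap.ker π := by
    refine sup_le ?_ ?_
    · rintro _ ⟨x, rfl⟩
      rw [LinearMap.mem_ker, hπ]
      change A.mulVec x - A.mulVec (l.mulVec (A.mulVec x)) - B.mulVec (m.mulVec (A.mulVec x)) = 0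
      rw [Matrix.mulVec_mulVec x l A, hl1, Matrix.mulVec_mulVec x m A, hm1, Matrix.one_mulVec,
        Matrix.zero_mulVec, Matrix.mulVec_zero, sub_self, sub_zero]
    · rintro _ ⟨x, rfl⟩
      rw [LinearMap.mem_ker, hπ]
      change B.mulVec x - A.mulVec (l.mulVec (B.mulVec x)) - B.mulVec (m.mulVec (B.mulVec x)) = 0
      rw [Matrix.mulVec_mulVec x l B, hl2, Matrix.mulVec_mulVec x m B, hm2, Matrix.one_mulVec,
        Matrix.zero_mulVec, Matrix.mulVec_zero, sub_zero, sub_self]
  let σ : ((κ → S) ⧸ W') →ₗ[S] (κ → S) := W'.liftQ π hker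
  have hσ : W'.mkQ.comp σ = LinearMap.id := by
    refine LinearMap.ext fun x => ?_
    obtain ⟨v, rfl⟩ := Submodule.mkQ_surjective _ x
    change W'.mkQ (σ (W'.mkQ v)) = W'.mkQ v
    have h1 : σ (W'.mkQ v) = π v := Submodule.liftQ_apply _ _ _
    rw [h1, hπ, ← sub_eq_zero, ← map_sub]
    rw [Submodule.mkQ_apply, Submodule.Quotient.mk_eq_zero]
    have h2 : v - A.mulVec (l.mulVec v) - B.mulVec (m.mulVec v) - v =
      A.mulVec (-(l.mulVec v)) + B.mulVec (-(m.mulVec v)) := by
      rw [Matrix.mulVec_neg, Matrix.mulVec_neg]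
      abel
    rw [h2]
    exact Submodule.add_mem_sup ⟨_, rfl⟩ ⟨_, rfl⟩
  haveI : Module.Projective S ((κ → S) ⧸ W') := Module.Projective.of_split σ W'.mkQ hσ
  have h1 := IsWeaklyRegular.isWeaklyRegular_lTensor (M₂ := (κ → S) ⧸ W') hreg
  exact ((TensorProduct.rid S ((κ → S) ⧸ W')).isWeaklyRegular_congr rs).1 h1

/-- weak regularity of the module itself -/
theorem reg_self {f : P →+* Matrix κ κ S} {rs : List S}
    (hreg : IsWeaklyRegular S rs) {as : List P}
    (has : List.Forall₂ (fun (a : P) (s : S) => f a = Matrix.scalar κ s) as rs) :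
    IsWeaklyRegular (PMod f) as := by
  let E : PMod f ≃+ (κ → S) := AddEquiv.refl (κ → S)
  exact (E.isWeaklyRegular_congr (has.imp fun a s hs x => smul_eq_smul f hs x)).2
    (isWeaklyRegular_pi hreg)

theorem finite_PMod {f : P →+* Matrix κ κ S} {rs : List S} (h : Good f rs) :
    Module.Finite P (PMod f) := by
  cases isEmpty_or_nonempty κ
  · haveI : Subsingleton (PMod f) := inferInstanceAs (Subsingleton (κ → S))
    infer_instance
  · exact h.finite

end mods

end Fermat.Agent.StR
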