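import Fermat.Agent.StR.Lim
import Fermat.Agent.StR.Iface
import Fermat.Agent.Patch.Lev

/-!
# From level data to module data over the big ring
-/

set_option autoImplicit false
set_option linter.unusedSectionVars false
set_option linter.style.haveILetI false

namespace Fermat.Agent.StR

open IsLocalRing Filter RingTheory.Sequence Module Fermat.Agent.Patch Fermat.Agent.TW Matrix

section mapT

variable {t : ℕ} {ty : Fin t → Ty} {q : Fin t → ℕ} {P T T' : Type} [CommRing P] [CommRing T]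
  [CommRing T'] {Φ N : Fin t → Matrix (Fin 2) (Fin 2) P} {d : ℕ} {dU : Fin t → ℕ} {dM : ℕ}

theorem mul_map {α β γ : Type} [Fintype β] {e : T →+* T'} {A : Matrix α β T} {B : Matrix β γ T}
    {C : Matrix α γ T} (h : A * B = C) : A.map e * B.map e = C.map e := by
  rw [← Matrix.map_mul, h]

theorem mul_map2 {α β β' γ : Type} [Fintype β] [Fintype β'] {e : T →+* T'} {A : Matrix α β T}
    {B : Matrix β γ T} {C : Matrix α β' T} {D : Matrix β' γ T} (h : A * B = C * D) :
    A.map e * B.map e = C.map e * D.map e := by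
  rw [← Matrix.map_mul, h, Matrix.map_mul]

/-- change of the base ring -/
def MDat.mapT (X : MDat P T t ty q Φ N d dU dM) (e : T →+* T') :
    MDat P T' t ty q Φ N d dU dM where
  ρ := e.mapMatrix.comp X.ρ
  ρU j := e.mapMatrix.comp (X.ρU j)
  ρM := e.mapMatrix.comp X.ρM
  i1 j := (X.i1 j).map e
  i2 j := (X.i2 j).map e
  l1 j := (X.l1 j).map e
  l2 j := (X.l2 j).map e
  s1 j := (X.s1 j).map e
  s2 j := (X.s2 j).map e
  k1 j := (X.k1 j).map e
  k2 j := (X.k2 j).map e
  G1 j := (X.G1 j).map e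
  G2 j := (X.G2 j).map e
  j0 := X.j0.map e
  l0 := X.l0.map e
  hi1 j a := mul_map2 (X.hi1 j a)
  hi2 j a := mul_map2 (X.hi2 j a)
  hl11 j := (mul_map (X.hl11 j)).trans (Matrix.map_one _ (map_zero e) (map_one e))
  hl12 j := (mul_map (X.hl12 j)).trans (Matrix.map_zero _ (map_zero e))
  hl21 j := (mul_map (X.hl21 j)).trans (Matrix.map_zero _ (map_zero e))
  hl22 j := (mul_map (X.hl22 j)).trans (Matrix.map_one _ (map_zero e) (map_one e))
  hs1 j a := mul_map2 (X.hs1 j a)
  hs2 j a := mul_map2 (X.hs2 j a)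
  hk11 j := (mul_map (X.hk11 j)).trans (Matrix.map_one _ (map_zero e) (map_one e))
  hk12 j := (mul_map (X.hk12 j)).trans (Matrix.map_zero _ (map_zero e))
  hk21 j := (mul_map (X.hk21 j)).trans (Matrix.map_zero _ (map_zero e))
  hk22 j := (mul_map (X.hk22 j)).trans (Matrix.map_one _ (map_zero e) (map_one e))
  hsi11 j := mul_map (X.hsi11 j)
  hsi12 j := mul_map (X.hsi12 j)
  hsi21 j := mul_map (X.hsi21 j)
  hsi22 j := mul_map (X.hsi22 j)
  new j := by
    have h := congrArg (fun M => M.map e) (X.new j)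
    rw [Matrix.map_add _ (map_add e), Matrix.map_mul, Matrix.map_mul] at h
    exact h
  hj0 a := mul_map2 (X.hj0 a)
  hl0 := (mul_map X.hl0).trans (Matrix.map_one _ (map_zero e) (map_one e))
  hQ j x hx := by
    rw [RingHom.comp_apply, X.hQ j x hx, map_zero]
  hNM j a b := by
    rw [RingHom.comp_apply, X.hNM j a b, map_zero]

end mapT

section lev

variable {O : Type} [CommRing O] [IsDomain O] [IsLocalRing O] [IsNoetherianRing O] [CharZero O]
  [IsAdicComplete (maximalIdeal O) O] [Finite (ResidueField O)] {ϖ : O}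
  (hϖ0 : ϖ ≠ 0) (hϖ : maximalIdeal O = Ideal.span {ϖ}) {p : ℕ} [hp : Fact p.Prime]
  (hpO : (p : O) ∈ maximalIdeal O)

include hϖ hpO in
/-- the group ring as a quotient of the power series ring -/
theorem exists_GRJ {r n n' : ℕ} (hn : n ≤ n') (Pm : Fin r → ℕ)
    (hP : ∀ i, ∃ m, Pm i = p ^ m ∧ n' ≤ m) :
    ∃ (J : Ideal (MvPowerSeries (Fin r) O)) (e : GR O Pm →+* MvPowerSeries (Fin r) O ⧸ J),
      J ≤ maximalIdeal (MvPowerSeries (Fin r) O) ^ (n + 1) ∧
      (∀ i, e (GR.δ O Pm i - 1) = Ideal.Quotient.mk J (MvPowerSeries.X i)) ∧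
      ∀ o, e (algebraMap O _ o) = Ideal.Quotient.mk J (algebraMap O _ o) := by
  have hP' : ∀ i, ∃ m, Pm i = p ^ m := fun i => by
    obtain ⟨m, hm, -⟩ := hP i
    exact ⟨m, hm⟩
  have hP0 : ∀ i, 0 < Pm i := fun i => by
    obtain ⟨m, hm⟩ := hP' i
    rw [hm]
    exact pow_pos hp.out.pos m
  haveI : IsLocalRing (GR O Pm) := GR.isLocalRing hpO hP'
  haveI : IsNoetherianRing (GR O Pm) := GR.isNoetherianRing
  haveI : Module.Finite O (GR O Pm) := GR.finite hP0
  haveI : IsLocalHom (algebraMap O (GR O Pm)) := GR.isLocalHom hpO hP'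
  haveI : IsAdicComplete (maximalIdeal (GR O Pm)) (GR O Pm) :=
    IsLocalRing.isAdicComplete_of_module_finite (𝒪 := O)
  obtain ⟨F, hF⟩ := exists_eval (O := O) (fun i => GR.δ O Pm i - 1)
    (fun i => GR.δ1 hpO hP' i)
  have hFs : Function.Surjective F := surjective_of_gen F (fun t => GR.resD hpO hP' t)
    (by simpa only [hF] using GR.genD hpO hP')
  let J : Ideal (MvPowerSeries (Fin r) O) := RingHom.ker F
  let E : (MvPowerSeries (Fin r) O ⧸ J) ≃+* GR O Pm :=
    RingHom.quotientKerEquivOfSurjective (f := F.toRingHom) hFs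
  have hE : ∀ x, E.symm (F x) = Ideal.Quotient.mk J x := by
    intro x
    rw [RingEquiv.symm_apply_eq]
    rfl
  refine ⟨J, E.symm.toRingHom, ker_le_max_pow hpO F hF (fun B _ _ u hu => GR.univ (fun i => by
      obtain ⟨m, hm, hnm⟩ := hP i
      exact ⟨m, hm, hn.trans hnm⟩) B u hu), fun i => ?_, fun o => ?_⟩
  · change E.symm _ = _
    rw [← hF, hE]
  · change E.symm _ = _
    rw [← F.commutes, hE]

variable {t : ℕ} {ty : Fin t → Ty} {q : Fin t → ℕ} {ε : Fin t → ℤ}

theorem par_le_locI {A : Type} [CommRing A] [IsLocalRing A] {ty : Ty} {q : ℕ} {ε : ℤ}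
    {Φ N : Matrix (Fin 2) (Fin 2) A} (h : QD ty q ε Φ N) {x : A} (hx : x ∈ par ty q ε Φ N) :
    x ∈ locI ty q ε Φ N := by
  cases ty
  · rcases hx with ⟨a, b, rfl⟩ | ⟨a, b, rfl⟩
    · exact locI_N _ _ _ _ _ a b
    · have h2 : Φ0 A Ty.sc q ε = (ε : A) • (1 : Matrix (Fin 2) (Fin 2) A) := by
        refine Matrix.ext fun i j => ?_
        fin_cases i <;> fin_cases j <;> simp [Φ0]
      rw [← h2]
      exact locI_Φ _ _ _ _ _ a b
  · rcases hx with ⟨a, b, rfl⟩ | hx
    · exact locI_N _ _ _ _ _ a b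
    · rw [Set.mem_singleton_iff] at hx
      have h1 := locI_Φ Ty.ns q ε Φ N 1 1
      have h2 := congrFun (congrFun (h.hτ rfl).2 1) 1
      rw [Matrix.sub_apply, h2] at h1
      rw [hx]
      revert h1
      simp only [Φ0]
      m22
      exact id

variable {g : ℕ} {P : Type} [CommRing P] [IsLocalRing P] [Algebra O P] {z : Fin g → P}
  {Φ N : Fin t → Matrix (Fin 2) (Fin 2) P}

theorem IsFD.surj (h : IsFD O ϖ g t ty q ε P z Φ N) (hϖm : ϖ ∈ maximalIdeal O) {A : Type}
    [CommRing A] [IsLocalRing A]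
    [IsNoetherianRing A] [Algebra O A] (hA : algebraMap O A ϖ ∈ maximalIdeal A)
    (f : P →ₐ[O] A) {zA : Fin g → A}
    {ΦA NA : Fin t → Matrix (Fin 2) (Fin 2) A} (hz : ∀ i, f (z i) = zA i)
    (hzA : ∀ i, zA i ∈ maximalIdeal A) (hΦ : ∀ j, (Φ j).map f = ΦA j ∧ (N j).map f = NA j)
    (qd : ∀ j, QD (ty j) (q j) (ε j) (ΦA j) (NA j))
    (resA : ∀ a : A, ∃ o : O, a - algebraMap O A o ∈ maximalIdeal A)
    (hgen : maximalIdeal A ≤ Ideal.span {algebraMap O A ϖ} ⊔ Ideal.span (Set.range zA) ⊔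
      Ideal.span {x | ∃ j, x ∈ par (ty j) (q j) (ε j) (ΦA j) (NA j)} ⊔ maximalIdeal A ^ 2) :
    Function.Surjective f := by
  haveI := h.cpl
  have hloc : ∀ x ∈ maximalIdeal P, f x ∈ maximalIdeal A :=
    h.local f hA (fun i => by rw [hz]; exact hzA i)
      (fun j => by rw [(hΦ j).1, (hΦ j).2]; exact (qd j).locI_le)
  refine surjective_of_gen' f hloc resA (hgen.trans (sup_le_sup (sup_le (sup_le ?_ ?_) ?_) le_rfl))
  · rw [Ideal.span_le, Set.singleton_subset_iff]
    have h1 : f.toRingHom (algebraMap O P ϖ) = algebraMap O A ϖ := f.commutes ϖ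
    rw [← h1]
    exact Ideal.mem_map_of_mem _ (h.loc _ hϖm)
  · rw [Ideal.span_le]
    rintro _ ⟨i, rfl⟩
    rw [← hz]
    exact Ideal.mem_map_of_mem f.toRingHom (h.hz i)
  · rw [Ideal.span_le]
    rintro x ⟨j, hx⟩
    have h1 := par_le_locI (qd j) hx
    have h2 : (Φ j).map f.toRingHom = ΦA j := (hΦ j).1
    have h3 : (N j).map f.toRingHom = NA j := (hΦ j).2
    rw [← h2, ← h3, ← locI_map] at h1
    exact Ideal.map_mono (h.hl j) h1

attribute [local instance] MLev.crA MLev.lrA MLev.nrA MLev.algA MLev.finA MLev.lhA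

variable {r B n : ℕ}

theorem MLev.mem_of (X : MLev O ϖ p r g t B ty q ε n) {o : O} (ho : o ∈ maximalIdeal O) :
    algebraMap O X.A o ∈ maximalIdeal X.A := by
  rw [mem_maximalIdeal, mem_nonunits_iff]
  intro hu
  exact (mem_nonunits_iff.1 ((mem_maximalIdeal _).1 ho)) (isUnit_of_map_unit (algebraMap O X.A) o hu)

/-- the module data of a level -/
theorem MLev.exists_dat (X : MLev O ϖ p r g t B ty q ε n) :
    ∃ D : MDat X.A (GR O X.P) t ty q X.Φ X.N X.d X.dU X.dM, D.ρ = X.f.toRingHom ∧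
      (∀ j, D.ρU j = (X.fU j).toRingHom) ∧ D.ρM = X.fM.toRingHom := by
  choose G1 G2 hG using X.new
  exact ⟨{ ρ := X.f.toRingHom
           ρU := fun j => (X.fU j).toRingHom
           ρM := X.fM.toRingHom
           i1 := X.i1, i2 := X.i2, l1 := X.l1, l2 := X.l2, s1 := X.s1, s2 := X.s2
           k1 := X.k1, k2 := X.k2, G1 := G1, G2 := G2, j0 := X.j0, l0 := X.l0
           hi1 := X.hi1
           hi2 := X.hi2
           hl11 := fun j => (X.hl j).1
           hl12 := fun j => (X.hl j).2.1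
           hl21 := fun j => (X.hl j).2.2.1
           hl22 := fun j => (X.hl j).2.2.2
           hs1 := X.hs1
           hs2 := X.hs2
           hk11 := fun j => (X.hk j).1
           hk12 := fun j => (X.hk j).2.1
           hk21 := fun j => (X.hk j).2.2.1
           hk22 := fun j => (X.hk j).2.2.2
           hsi11 := fun j => (X.hsi j).1
           hsi12 := fun j => (X.hsi j).2.1
           hsi21 := fun j => (X.hsi j).2.2.1
           hsi22 := fun j => (X.hsi j).2.2.2
           new := hG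
           hj0 := X.hj0
           hl0 := X.hl0
           hQ := fun j x hx => by
             have h1 : x = 0 := relQ_zero (X.qd j).rq hx
             rw [h1, map_zero]
           hNM := X.hNM },
    rfl, fun _ => rfl, rfl⟩

end lev

end Fermat.Agent.StR
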