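import Fermat.Agent.StR.Tower

/-!
# Relations, and points
-/

set_option autoImplicit false
set_option linter.unusedSectionVars false
set_option linter.style.haveILetI false

namespace Fermat.Agent.StR

open IsLocalRing Matrix

/-- The relations of the local data, without integrality conditions. -/
structure RQ {A : Type} [CommRing A] (ty : Ty) (q : ℕ) (Φ N : Matrix (Fin 2) (Fin 2) A) :
    Prop where
  detΦ : Φ.det = q
  trN : N.trace = 0
  sqN : N * N = 0
  comm : Φ * N = (q : A) • (N * Φ)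
  hτ : ty = Ty.ns → Φ = !![0, -(q : A); 1, Φ.trace]

/-- the relations of a component -/
structure RC {A : Type} [CommRing A] (st : Bool) (q : ℕ) (ε : ℤ) (Φ N : Matrix (Fin 2) (Fin 2) A) :
    Prop where
  tr : st = true → Φ.trace = ε * (q + 1)
  mul : st = true → N * (Φ - (ε : A) • (1 : Matrix (Fin 2) (Fin 2) A)) = 0
  ur : st = false → N = 0

/-- the relations, as a set -/
def relQ {A : Type} [CommRing A] (ty : Ty) (q : ℕ) (Φ N : Matrix (Fin 2) (Fin 2) A) : Set A :=
  {x | x = Φ.det - q ∨ x = N.trace ∨ (∃ i j, x = (N * N) i j) ∨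
    (∃ i j, x = (Φ * N - (q : A) • (N * Φ)) i j) ∨
    (ty = Ty.ns ∧ ∃ i j, x = (Φ - !![0, -(q : A); 1, Φ.trace]) i j)}

/-- the relations of a component, as a set -/
def relC {A : Type} [CommRing A] (st : Bool) (q : ℕ) (ε : ℤ) (Φ N : Matrix (Fin 2) (Fin 2) A) :
    Set A :=
  {x | (st = true ∧ (x = Φ.trace - ε * (q + 1) ∨
    ∃ i j, x = (N * (Φ - (ε : A) • (1 : Matrix (Fin 2) (Fin 2) A))) i j)) ∨
    (st = false ∧ ∃ i j, x = N i j)}

section maps

variable {A B : Type} [CommRing A] [CommRing B] (f : A →+* B)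

theorem trace_map2 (Φ : Matrix (Fin 2) (Fin 2) A) : (Φ.map f).trace = f Φ.trace := by
  rw [Matrix.trace_fin_two, Matrix.map_apply, Matrix.map_apply, ← map_add,
    ← Matrix.trace_fin_two]

theorem map_sub_smul_one (Φ : Matrix (Fin 2) (Fin 2) A) (ε : ℤ) :
    ((Φ - (ε : A) • (1 : Matrix (Fin 2) (Fin 2) A)).map f) =
      Φ.map f - (ε : B) • (1 : Matrix (Fin 2) (Fin 2) B) := by
  rw [Matrix.map_sub _ (map_sub f), Matrix.map_smul' _ _ _ (map_mul f), map_intCast,
    Matrix.map_one _ (map_zero f) (map_one f)]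

theorem relQ_map {ty : Ty} {q : ℕ} {Φ N : Matrix (Fin 2) (Fin 2) A} :
    (∀ x ∈ relQ ty q Φ N, f x = 0) ↔ RQ ty q (Φ.map f) (N.map f) := by
  have hdet : (Φ.map f).det = f Φ.det := by
    rw [← RingHom.mapMatrix_apply, ← RingHom.map_det]
  constructor
  · intro h
    refine ⟨?_, ?_, ?_, ?_, fun h1 => ?_⟩
    · rw [hdet, ← sub_eq_zero, ← map_natCast f, ← map_sub]
      exact h _ (Or.inl rfl)
    · rw [trace_map2]
      exact h _ (Or.inr (Or.inl rfl))
    · rw [← Matrix.map_mul]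
      refine Matrix.ext fun i j => ?_
      exact h _ (Or.inr (Or.inr (Or.inl ⟨i, j, rfl⟩)))
    · rw [← Matrix.map_mul, ← Matrix.map_mul, ← sub_eq_zero]
      refine Matrix.ext fun i j => ?_
      have := h _ (Or.inr (Or.inr (Or.inr (Or.inl ⟨i, j, rfl⟩))))
      rw [Matrix.sub_apply, map_sub, Matrix.smul_apply, smul_eq_mul, map_mul, map_natCast] at this
      exact this
    · refine Matrix.ext fun i j => ?_
      have := h _ (Or.inr (Or.inr (Or.inr (Or.inr ⟨h1, i, j, rfl⟩))))
      rw [Matrix.sub_apply, map_sub, sub_eq_zero] at this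
      rw [Matrix.map_apply, this, trace_map2]
      fin_cases i <;> fin_cases j <;> simp
  · intro h x hx
    rcases hx with rfl | rfl | ⟨i, j, rfl⟩ | ⟨i, j, rfl⟩ | ⟨h1, i, j, rfl⟩
    · rw [map_sub, ← hdet, h.detΦ, map_natCast, sub_self]
    · rw [← trace_map2, h.trN]
    · have := congrFun (congrFun h.sqN i) j
      rw [← Matrix.map_mul] at this
      exact this
    · have := congrFun (congrFun h.comm i) j
      rw [← Matrix.map_mul, ← Matrix.map_mul] at this
      rw [Matrix.sub_apply, map_sub, Matrix.smul_apply, smul_eq_mul, map_mul, map_natCast,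
        sub_eq_zero]
      exact this
    · have := congrFun (congrFun (h.hτ h1) i) j
      rw [Matrix.sub_apply, map_sub, sub_eq_zero]
      rw [Matrix.map_apply, trace_map2] at this
      rw [this]
      fin_cases i <;> fin_cases j <;> simp

theorem relQ_image {ty : Ty} {q : ℕ} {Φ N : Matrix (Fin 2) (Fin 2) A} {x : A}
    (hx : x ∈ relQ ty q Φ N) : f x ∈ relQ ty q (Φ.map f) (N.map f) := by
  have hdet : (Φ.map f).det = f Φ.det := by
    rw [← RingHom.mapMatrix_apply, ← RingHom.map_det]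
  rcases hx with rfl | rfl | ⟨i, j, rfl⟩ | ⟨i, j, rfl⟩ | ⟨h1, i, j, rfl⟩
  · refine Or.inl ?_
    rw [map_sub, ← hdet, map_natCast]
  · refine Or.inr (Or.inl ?_)
    rw [trace_map2]
  · refine Or.inr (Or.inr (Or.inl ⟨i, j, ?_⟩))
    rw [← Matrix.map_mul]
    rfl
  · refine Or.inr (Or.inr (Or.inr (Or.inl ⟨i, j, ?_⟩)))
    rw [← Matrix.map_mul, ← Matrix.map_mul, Matrix.sub_apply, Matrix.sub_apply, map_sub,
      Matrix.smul_apply, Matrix.smul_apply, smul_eq_mul, smul_eq_mul, map_mul, map_natCast]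
    rfl
  · refine Or.inr (Or.inr (Or.inr (Or.inr ⟨h1, i, j, ?_⟩)))
    rw [Matrix.sub_apply, Matrix.sub_apply, map_sub, Matrix.map_apply, trace_map2]
    congr 1
    fin_cases i <;> fin_cases j <;> simp

theorem relQ_zero {ty : Ty} {q : ℕ} {Φ N : Matrix (Fin 2) (Fin 2) A} (h : RQ ty q Φ N) {x : A}
    (hx : x ∈ relQ ty q Φ N) : x = 0 :=
  (relQ_map (RingHom.id A) (ty := ty) (q := q) (Φ := Φ) (N := N)).2
    (by simpa [Matrix.map_id] using h) x hx

theorem relC_map {st : Bool} {q : ℕ} {ε : ℤ} {Φ N : Matrix (Fin 2) (Fin 2) A} :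
    (∀ x ∈ relC st q ε Φ N, f x = 0) ↔ RC st q ε (Φ.map f) (N.map f) := by
  constructor
  · intro h
    refine ⟨fun h1 => ?_, fun h1 => ?_, fun h1 => ?_⟩
    · have := h _ (Or.inl ⟨h1, Or.inl rfl⟩)
      rw [map_sub, sub_eq_zero, map_mul, map_add, map_one, map_natCast, map_intCast] at this
      rw [trace_map2, this]
    · rw [← map_sub_smul_one, ← Matrix.map_mul]
      refine Matrix.ext fun i j => ?_
      exact h _ (Or.inl ⟨h1, Or.inr ⟨i, j, rfl⟩⟩)
    · refine Matrix.ext fun i j => ?_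
      exact h _ (Or.inr ⟨h1, i, j, rfl⟩)
  · intro h x hx
    rcases hx with ⟨h1, rfl | ⟨i, j, rfl⟩⟩ | ⟨h1, i, j, rfl⟩
    · rw [map_sub, ← trace_map2, h.tr h1, map_mul, map_add, map_one, map_natCast, map_intCast,
        sub_self]
    · have := congrFun (congrFun (h.mul h1) i) j
      rw [← map_sub_smul_one, ← Matrix.map_mul] at this
      exact this
    · exact congrFun (congrFun (h.ur h1) i) j

end maps

section loc

variable {A : Type} [CommRing A] [IsLocalRing A] {st : Bool} {ty : Ty} {q : ℕ} {ε : ℤ}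
  {Φ N : Matrix (Fin 2) (Fin 2) A}

theorem QD.rq (h : QD ty q ε Φ N) : RQ ty q Φ N :=
  ⟨h.detΦ, h.trN, h.sqN, h.comm, fun h1 => (h.hτ h1).2⟩

theorem LR.rc (h : LR st ty q ε Φ N) : RC st q ε Φ N := ⟨h.tr, h.mul, h.ur⟩

theorem LR.of (h1 : RQ ty q Φ N) (h2 : RC st q ε Φ N) (h3 : locI ty q ε Φ N ≤ maximalIdeal A) :
    LR st ty q ε Φ N := by
  refine ⟨⟨h1.detΦ, h1.trN, h1.sqN, h1.comm, fun a b => h3 (locI_N _ _ _ _ _ a b),
    fun h a b => ?_, fun h => ⟨?_, h1.hτ h⟩⟩, h2.tr, h2.mul, h2.ur⟩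
  · subst h
    have h4 := h3 (locI_Φ Ty.sc q ε Φ N a b)
    have h5 : Φ0 A Ty.sc q ε = (ε : A) • (1 : Matrix (Fin 2) (Fin 2) A) := by
      refine Matrix.ext fun i j => ?_
      fin_cases i <;> fin_cases j <;> simp [Φ0]
    rwa [h5] at h4
  · subst h
    have h4 := h3 (locI_Φ Ty.ns q ε Φ N 1 1)
    have h5 := congrFun (congrFun (h1.hτ rfl) 1) 1
    rw [Matrix.sub_apply, h5] at h4
    revert h4
    simp only [Φ0]
    m22
    exact id

end loc

section domain

variable {B : Type} [CommRing B] [IsDomain B] {ty : Ty} {q : ℕ} {Φ N : Matrix (Fin 2) (Fin 2) B}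

theorem RQ.aux (h : RQ ty q Φ N) (hN : ∃ i j, N i j ≠ 0) :
    ((1 + (q : B)) • (N * Φ) = Φ.trace • N) ∧
      (q : B) • ((Φ.trace ^ 2 - ((q : B) + 1) ^ 2) • N) = 0 := by
  obtain ⟨i, j, hij⟩ := hN
  have hn : N 1 1 = - N 0 0 := by
    have := h.trN
    rw [Matrix.trace_fin_two] at this
    linear_combination this
  have hs00 := congrFun (congrFun h.sqN 0) 0
  rw [Matrix.mul_apply, Fin.sum_univ_two, Matrix.zero_apply] at hs00
  have hd := h.detΦ
  rw [Matrix.det_fin_two] at hd
  have c00 := congrFun (congrFun h.comm 0) 0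
  have c01 := congrFun (congrFun h.comm 0) 1
  have c10 := congrFun (congrFun h.comm 1) 0
  have c11 := congrFun (congrFun h.comm 1) 1
  simp only [Matrix.mul_apply, Matrix.smul_apply, Fin.sum_univ_two, smul_eq_mul, hn] at c00 c01 c10 c11
  -- `τ = tr (N Φ)` kills `N`
  set τ : B := N 0 0 * Φ 0 0 + N 0 1 * Φ 1 0 + (N 1 0 * Φ 0 1 - N 0 0 * Φ 1 1) with hτ
  have hNN : ∀ a b, N a b * τ = 0 := by
    intro a b
    -- `N Φ N = τ N` and `N Φ N = q N N Φ = 0`
    have h1 : N * (Φ * N) = 0 := by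
      rw [h.comm, Matrix.mul_smul, ← Matrix.mul_assoc, h.sqN, Matrix.zero_mul, smul_zero]
    have h2 := congrFun (congrFun h1 a) b
    simp only [Matrix.mul_apply, Fin.sum_univ_two, Matrix.zero_apply] at h2
    fin_cases a <;> fin_cases b <;>
      simp only [Fin.zero_eta, Fin.mk_one, Fin.isValue, hn] at h2 ⊢
    · linear_combination h2 - Φ 1 1 * hs00
    · linear_combination h2 + Φ 0 1 * hs00
    · linear_combination h2 + Φ 1 0 * hs00
    · linear_combination h2 - Φ 0 0 * hs00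
  have hτ0 : τ = 0 := (mul_eq_zero.1 (hNN i j)).resolve_left hij
  rw [hτ] at hτ0
  have hM : (1 + (q : B)) • (N * Φ) = Φ.trace • N := by
    refine Matrix.ext fun a b => ?_
    simp only [Matrix.smul_apply, Matrix.mul_apply, Fin.sum_univ_two, smul_eq_mul,
      Matrix.trace_fin_two]
    fin_cases a <;> fin_cases b <;> simp only [Fin.zero_eta, Fin.mk_one, Fin.isValue, hn]
    · linear_combination hτ0 - c00
    · linear_combination -c01
    · linear_combination -c10
    · linear_combination hτ0 - c11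
  refine ⟨hM, ?_⟩
  have hCH : Φ * Φ = Φ.trace • Φ - (q : B) • (1 : Matrix (Fin 2) (Fin 2) B) := by
    refine Matrix.ext fun a b => ?_
    simp only [Matrix.mul_apply, Fin.sum_univ_two, Matrix.sub_apply, Matrix.smul_apply,
      smul_eq_mul, Matrix.trace_fin_two]
    fin_cases a <;> fin_cases b <;> m22
    · linear_combination -hd
    · ring
    · ring
    · linear_combination -hd
  -- multiply by `Φ`
  have h3 : (1 + (q : B)) • (Φ.trace • (N * Φ) - (q : B) • N) = Φ.trace • (N * Φ) := by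
    have h4 := congrArg (· * Φ) hM
    simp only [Matrix.smul_mul, Matrix.mul_assoc] at h4
    rw [hCH, Matrix.mul_sub, Matrix.mul_smul, Matrix.mul_smul, Matrix.mul_one] at h4
    exact h4
  refine Matrix.ext fun a b => ?_
  have h5 := congrFun (congrFun hM a) b
  have h6 := congrFun (congrFun h3 a) b
  simp only [Matrix.smul_apply, Matrix.sub_apply, smul_eq_mul] at h5 h6
  simp only [Matrix.smul_apply, smul_eq_mul, Matrix.zero_apply]
  linear_combination (1 + (q : B)) * h6 - (q : B) * Φ.trace * h5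

theorem RQ.D_mul (h : RQ ty q Φ N) (hq : (q : B) ≠ 0) (a b : Fin 2) :
    (Φ.trace ^ 2 - ((q : B) + 1) ^ 2) * N a b = 0 := by
  by_cases hN : ∃ i j, N i j ≠ 0
  · have h1 := congrFun (congrFun (h.aux hN).2 a) b
    simp only [Matrix.smul_apply, smul_eq_mul, Matrix.zero_apply] at h1
    exact (mul_eq_zero.1 h1).resolve_left hq
  · push Not at hN
    rw [hN, mul_zero]

theorem RQ.rc_true (h : RQ ty q Φ N) {ε : ℤ} (hq1 : (q : B) + 1 ≠ 0)
    (htr : Φ.trace = ε * (q + 1)) : RC true q ε Φ N := by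
  refine ⟨fun _ => htr, fun _ => ?_, fun h => Bool.noConfusion h⟩
  by_cases hN : ∃ i j, N i j ≠ 0
  · have h1 := (h.aux hN).1
    rw [Matrix.mul_sub, Matrix.mul_smul, Matrix.mul_one]
    refine Matrix.ext fun a b => ?_
    have h2 := congrFun (congrFun h1 a) b
    simp only [Matrix.smul_apply, smul_eq_mul, htr] at h2
    simp only [Matrix.sub_apply, Matrix.smul_apply, smul_eq_mul, Matrix.zero_apply]
    apply mul_left_cancel₀ hq1
    linear_combination h2
  · push Not at hN
    have : N = 0 := Matrix.ext fun a b => hN a b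
    rw [this, Matrix.zero_mul]

end domain

end Fermat.Agent.StR
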