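import Fermat.Agent.StR.DRA
import Fermat.Agent.StR.Iface

/-!
# Local deformation rings over an admissible base
-/

set_option autoImplicit false
set_option linter.unusedSectionVars false
set_option linter.style.haveILetI false

namespace Fermat.Agent.StR

open IsLocalRing Matrix
open scoped PowerSeries

/-- The relations of a component: `st = true` is the Steinberg component, `st = false` the
unramified one. -/
structure LR {A : Type} [CommRing A] [IsLocalRing A] (st : Bool) (ty : Ty) (q : ℕ) (ε : ℤ)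
    (Φ N : Matrix (Fin 2) (Fin 2) A) : Prop where
  qd : QD ty q ε Φ N
  tr : st = true → Φ.trace = ε * (q + 1)
  mul : st = true → N * (Φ - (ε : A) • (1 : Matrix (Fin 2) (Fin 2) A)) = 0
  ur : st = false → N = 0

/-- the base point -/
def Φ0 (A : Type) [CommRing A] (ty : Ty) (q : ℕ) (ε : ℤ) : Matrix (Fin 2) (Fin 2) A :=
  match ty with
  | Ty.sc => !![(ε : A), 0; 0, (ε : A)]
  | Ty.ns => !![0, -(q : A); 1, (ε : A) * (q + 1)]

/-- the ideal of local parameters -/
def locI {A : Type} [CommRing A] (ty : Ty) (q : ℕ) (ε : ℤ) (Φ N : Matrix (Fin 2) (Fin 2) A) :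
    Ideal A :=
  Ideal.span (Set.range (fun i : Fin 2 × Fin 2 => (Φ - Φ0 A ty q ε) i.1 i.2) ∪
    Set.range (fun i : Fin 2 × Fin 2 => N i.1 i.2))

theorem locI_Φ {A : Type} [CommRing A] (ty : Ty) (q : ℕ) (ε : ℤ) (Φ N : Matrix (Fin 2) (Fin 2) A)
    (i j : Fin 2) : (Φ - Φ0 A ty q ε) i j ∈ locI ty q ε Φ N :=
  Ideal.subset_span (Or.inl ⟨(i, j), rfl⟩)

theorem locI_N {A : Type} [CommRing A] (ty : Ty) (q : ℕ) (ε : ℤ) (Φ N : Matrix (Fin 2) (Fin 2) A)
    (i j : Fin 2) : N i j ∈ locI ty q ε Φ N :=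
  Ideal.subset_span (Or.inr ⟨(i, j), rfl⟩)

/-- universal extension of a ring by local data -/
structure IsStep (O : Type) [CommRing O] [IsLocalRing O] (ϖ : O) (R : Type) [CommRing R]
    [IsLocalRing R] [Algebra O R] (st : Bool) (ty : Ty) (q : ℕ) (ε : ℤ) (R' : Type) [CommRing R']
    [IsLocalRing R'] [Algebra O R'] (ι : R →ₐ[O] R') (Φ N : Matrix (Fin 2) (Fin 2) R') : Prop where
  adm : Adm O ϖ R'
  loc : ∀ x ∈ maximalIdeal R, ι x ∈ maximalIdeal R'
  lr : LR st ty q ε Φ N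
  gen : maximalIdeal R' ≤ (maximalIdeal R).map ι ⊔ locI ty q ε Φ N
  dim : ∃ ws : List R', ws.length = ty.dl ∧ (∀ w ∈ ws, w ∈ maximalIdeal R') ∧
    maximalIdeal R' ≤ ((maximalIdeal R).map ι ⊔ Ideal.ofList ws).radical
  univ : ∀ (B : Type) [CommRing B] [IsLocalRing B] [IsAdicComplete (maximalIdeal B) B]
    (φ : R →+* B), (∀ x ∈ maximalIdeal R, φ x ∈ maximalIdeal B) →
    ∀ Φ' N' : Matrix (Fin 2) (Fin 2) B, LR st ty q ε Φ' N' →
      ∃ ψ : R' →+* B, (∀ x, ψ (ι x) = φ x) ∧ Φ.map ψ = Φ' ∧ N.map ψ = N'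

variable {O : Type} [CommRing O] [IsLocalRing O] {ϖ : O}
variable {R : Type} [CommRing R] [IsLocalRing R] [Algebra O R]

section aux

variable {A : Type} [CommRing A] [IsLocalRing A]

theorem QD.hΦ' {q : ℕ} {ε : ℤ} {Φ N : Matrix (Fin 2) (Fin 2) A}
    (h : QD Ty.sc q ε Φ N) (i j : Fin 2) : (Φ - Φ0 A Ty.sc q ε) i j ∈ maximalIdeal A := by
  have h1 := h.hΦ rfl i j
  have h2 : Φ0 A Ty.sc q ε = (ε : A) • (1 : Matrix (Fin 2) (Fin 2) A) := by
    ext i j
    fin_cases i <;> fin_cases j <;> simp [Φ0]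
  rw [h2]
  exact h1

theorem map_sub_Φ0 {B : Type} [CommRing B] (f : A →+* B) (ty : Ty) (q : ℕ) (ε : ℤ) :
    (Φ0 A ty q ε).map f = Φ0 B ty q ε := by
  ext i j
  cases ty <;> fin_cases i <;> fin_cases j <;> simp [Φ0]

section lr

variable (q : ℕ) (ε : ℤ)

/-- simp set for 2 × 2 matrices -/
macro "m22" : tactic => `(tactic| simp only [Matrix.mul_apply, Fin.sum_univ_two, Matrix.of_apply,
  Matrix.cons_val', Matrix.cons_val_zero, Matrix.cons_val_one, Matrix.cons_val_fin_one,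
  Fin.zero_eta, Fin.mk_one, Matrix.zero_apply, Matrix.smul_apply, smul_eq_mul, Fin.isValue,
  Matrix.sub_apply, Matrix.one_apply_eq, ne_eq, zero_ne_one, one_ne_zero, not_false_eq_true,
  Matrix.one_apply_ne])

theorem lr_ns_st (e2 : (ε : A) ^ 2 = 1) {x : A} (hx : x ∈ maximalIdeal A) :
    LR true Ty.ns q ε !![0, -(q : A); 1, (ε : A) * (q + 1)] !![x, ε * x; -(ε * x), -x] := by
  have htr : (!![0, -(q : A); 1, (ε : A) * (q + 1)] : Matrix (Fin 2) (Fin 2) A).trace =
    ε * (q + 1) := by simp [Matrix.trace_fin_two]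
  refine ⟨⟨?_, ?_, ?_, ?_, ?_, fun h => Ty.noConfusion h, fun _ => ⟨?_, ?_⟩⟩, fun _ => htr,
      fun _ => ?_, fun h => Bool.noConfusion h⟩
  · simp [Matrix.det_fin_two]
  · simp [Matrix.trace_fin_two]
  · refine Matrix.ext fun i j => ?_
    fin_cases i <;> fin_cases j <;> m22
    · linear_combination (-x * x) * e2
    · ring
    · ring
    · linear_combination (-x * x) * e2
  · refine Matrix.ext fun i j => ?_
    fin_cases i <;> fin_cases j <;> m22
    · ring
    · linear_combination (-(q : A) * (q + 1) * x) * e2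
    · linear_combination (-((q : A) + 1) * x) * e2
    · ring
  · intro i j
    fin_cases i <;> fin_cases j <;> m22
    · exact hx
    · exact Ideal.mul_mem_left _ _ hx
    · exact neg_mem (Ideal.mul_mem_left _ _ hx)
    · exact neg_mem hx
  · rw [htr, sub_self]
    exact zero_mem _
  · rw [htr]
  · refine Matrix.ext fun i j => ?_
    fin_cases i <;> fin_cases j <;> m22
    · ring
    · linear_combination ((q : A) * x) * e2
    · linear_combination x * e2
    · ring

theorem lr_ns_ur {x : A} (hx : x ∈ maximalIdeal A) :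
    LR false Ty.ns q ε !![0, -(q : A); 1, (ε : A) * (q + 1) + x] 0 := by
  have htr : (!![0, -(q : A); 1, (ε : A) * (q + 1) + x] : Matrix (Fin 2) (Fin 2) A).trace =
    ε * (q + 1) + x := by simp [Matrix.trace_fin_two]
  refine ⟨⟨?_, ?_, ?_, ?_, ?_, fun h => Ty.noConfusion h, fun _ => ⟨?_, ?_⟩⟩,
    fun h => Bool.noConfusion h, fun h => Bool.noConfusion h, fun _ => rfl⟩
  · simp [Matrix.det_fin_two]
  · simp
  · simp
  · simp
  · intro i j
    exact zero_mem _
  · rw [htr, add_sub_cancel_left]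
    exact hx
  · rw [htr]

theorem lr_sc_ur (e2 : (ε : A) ^ 2 = 1) {a b c e : A} (ha : a ∈ maximalIdeal A)
    (hb : b ∈ maximalIdeal A) (hc : c ∈ maximalIdeal A) (he : (1 + a) * e = q + b * c)
    (hq : (q : A) - 1 ∈ maximalIdeal A) :
    LR false Ty.sc q ε !![ε * (1 + a), ε * b; ε * c, ε * e] 0 := by
  refine ⟨⟨?_, ?_, ?_, ?_, ?_, fun _ => ?_, fun h => Ty.noConfusion h⟩,
    fun h => Bool.noConfusion h, fun h => Bool.noConfusion h, fun _ => rfl⟩
  · rw [Matrix.det_fin_two]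
    m22
    linear_combination (ε : A) ^ 2 * he + (q : A) * e2
  · simp
  · simp
  · simp
  · intro i j
    exact zero_mem _
  · have he1 : e - 1 ∈ maximalIdeal A := by
      have h1 : e - 1 = ((q : A) - 1) + b * c - a * e := by linear_combination he
      rw [h1]
      exact sub_mem (add_mem hq (Ideal.mul_mem_right _ _ hb)) (Ideal.mul_mem_right _ _ ha)
    intro i j
    fin_cases i <;> fin_cases j <;> m22
    · have : (ε : A) * (1 + a) - ε * 1 = ε * a := by ring
      rw [this]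
      exact Ideal.mul_mem_left _ _ ha
    · rw [mul_zero, sub_zero]
      exact Ideal.mul_mem_left _ _ hb
    · rw [mul_zero, sub_zero]
      exact Ideal.mul_mem_left _ _ hc
    · rw [← mul_sub]
      exact Ideal.mul_mem_left _ _ he1

theorem lr_sc_st (e2 : (ε : A) ^ 2 = 1) {a b c x z w d : A} (hd : d = (q : A) - 1)
    (ha : a ∈ maximalIdeal A)
    (hb : b ∈ maximalIdeal A) (hc : c ∈ maximalIdeal A) (hx : x ∈ maximalIdeal A)
    (hz : z ∈ maximalIdeal A) (hw : w ∈ maximalIdeal A) (hdm : d ∈ maximalIdeal A)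
    (haa : a * a = d * a - b * c) (hxc : x * c = z * a)
    (hax : a * x = d * x - b * z) (hcc : c * c = w * c + d * x - b * z)
    (hac : a * c = d * c + w * a - b * x - w * d) (hxx : x * x = z * c - w * z) :
    LR true Ty.sc q ε !![ε * (1 + a), ε * b; ε * c, ε * (1 + d - a)] !![x, w - c; z, -x] := by
  refine ⟨⟨?_, ?_, ?_, ?_, ?_, fun _ => ?_, fun h => Ty.noConfusion h⟩,
    fun _ => ?_, fun _ => ?_, fun h => Bool.noConfusion h⟩
  · rw [Matrix.det_fin_two]
    m22
    linear_combination (-(ε : A) ^ 2) * haa + (ε : A) ^ 2 * hd + (q : A) * e2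
  · simp [Matrix.trace_fin_two]
  · refine Matrix.ext fun i j => ?_
    fin_cases i <;> fin_cases j <;> m22
    · linear_combination hxx
    · ring
    · ring
    · linear_combination hxx
  · refine Matrix.ext fun i j => ?_
    fin_cases i <;> fin_cases j <;> m22
    · linear_combination (ε * (1 - (q : A))) * hax + (ε * (q : A)) * hcc + (ε * x) * hd
    · linear_combination (-ε : A) * (1 + (q : A)) * hac + ε * (w - c) * hd
    · linear_combination (ε * (q : A) + ε) * hxc + ε * z * hd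
    · linear_combination (ε * (1 - (q : A))) * hax - ε * hcc - ε * x * hd
  · intro i j
    fin_cases i <;> fin_cases j <;> m22
    · exact hx
    · exact sub_mem hw hc
    · exact hz
    · exact neg_mem hx
  · intro i j
    fin_cases i <;> fin_cases j <;> m22
    · have : (ε : A) * (1 + a) - ε * 1 = ε * a := by ring
      rw [this]
      exact Ideal.mul_mem_left _ _ ha
    · rw [mul_zero, sub_zero]
      exact Ideal.mul_mem_left _ _ hb
    · rw [mul_zero, sub_zero]
      exact Ideal.mul_mem_left _ _ hc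
    · have : (ε : A) * (1 + d - a) - ε * 1 = ε * (d - a) := by ring
      rw [this]
      exact Ideal.mul_mem_left _ _ (sub_mem hdm ha)
  · rw [Matrix.trace_fin_two]
    m22
    linear_combination (ε : A) * hd
  · refine Matrix.ext fun i j => ?_
    fin_cases i <;> fin_cases j <;> m22
    · linear_combination (ε : A) * hax - ε * hcc
    · linear_combination (ε : A) * hac
    · linear_combination (-ε : A) * hxc
    · linear_combination (ε : A) * hax

theorem QD.N11 {ty : Ty} {q : ℕ} {ε : ℤ} {Φ N : Matrix (Fin 2) (Fin 2) A} (h : QD ty q ε Φ N) :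
    N 1 1 = - N 0 0 := by
  have := h.trN
  rw [Matrix.trace_fin_two] at this
  linear_combination this

theorem det_ns_st (e2 : (ε : A) ^ 2 = 1) {Φ N : Matrix (Fin 2) (Fin 2) A}
    (h : LR true Ty.ns q ε Φ N) : Φ = !![0, -(q : A); 1, (ε : A) * (q + 1)] ∧
      N = !![N 0 0, ε * N 0 0; -(ε * N 0 0), -N 0 0] := by
  have hΦ := (h.qd.hτ rfl).2
  rw [h.tr rfl] at hΦ
  refine ⟨hΦ, ?_⟩
  have h3 := h.mul rfl
  have h4 := h.qd.N11
  have h5 : N 0 1 = ε * N 0 0 := by
    have := congrFun (congrFun h3 0) 0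
    rw [hΦ] at this
    revert this
    m22
    intro this
    linear_combination this
  have h6 : N 1 0 = -(ε * N 0 0) := by
    have := congrFun (congrFun h3 1) 0
    rw [hΦ] at this
    revert this
    m22
    rw [h4]
    intro this
    linear_combination (-(ε : A)) * this - (N 1 0) * e2
  refine Matrix.ext fun i j => ?_
  fin_cases i <;> fin_cases j <;> m22
  · exact h5
  · exact h6
  · exact h4

theorem det_ns_ur {Φ N : Matrix (Fin 2) (Fin 2) A}
    (h : LR false Ty.ns q ε Φ N) :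
    Φ = !![0, -(q : A); 1, (ε : A) * (q + 1) + (Φ.trace - ε * (q + 1))] := by
  have h1 : (ε : A) * (q + 1) + (Φ.trace - ε * (q + 1)) = Φ.trace := by ring
  rw [h1]
  exact (h.qd.hτ rfl).2

theorem det_sc (e2 : (ε : A) ^ 2 = 1) {Φ N : Matrix (Fin 2) (Fin 2) A}
    (h : QD Ty.sc q ε Φ N) :
    (ε * Φ 0 0 - 1 ∈ maximalIdeal A ∧ ε * Φ 0 1 ∈ maximalIdeal A ∧ ε * Φ 1 0 ∈ maximalIdeal A) ∧
    (1 + (ε * Φ 0 0 - 1)) * (ε * Φ 1 1) = q + (ε * Φ 0 1) * (ε * Φ 1 0) ∧
    Φ = !![ε * (1 + (ε * Φ 0 0 - 1)), ε * (ε * Φ 0 1); ε * (ε * Φ 1 0), ε * (ε * Φ 1 1)] := by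
  have hm := h.hΦ rfl
  refine ⟨⟨?_, ?_, ?_⟩, ?_, ?_⟩
  · have h1 := hm 0 0
    revert h1
    m22
    intro h1
    have h2 : (ε : A) * Φ 0 0 - 1 = ε * (Φ 0 0 - ε * 1) := by linear_combination e2
    rw [h2]
    exact Ideal.mul_mem_left _ _ h1
  · have h1 := hm 0 1
    revert h1
    m22
    intro h1
    rw [mul_zero, sub_zero] at h1
    exact Ideal.mul_mem_left _ _ h1
  · have h1 := hm 1 0
    revert h1
    m22
    intro h1
    rw [mul_zero, sub_zero] at h1
    exact Ideal.mul_mem_left _ _ h1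
  · have h1 := h.detΦ
    rw [Matrix.det_fin_two] at h1
    linear_combination h1 + (Φ 0 0 * Φ 1 1 - Φ 0 1 * Φ 1 0) * e2
  · refine Matrix.ext fun i j => ?_
    fin_cases i <;> fin_cases j <;> m22
    · linear_combination (-Φ 0 0) * e2
    · linear_combination (-Φ 0 1) * e2
    · linear_combination (-Φ 1 0) * e2
    · linear_combination (-Φ 1 1) * e2

theorem det_sc_st (e2 : (ε : A) ^ 2 = 1) {Φ N : Matrix (Fin 2) (Fin 2) A}
    (h : LR true Ty.sc q ε Φ N) {a b c x z w d : A} (ha : a = ε * Φ 0 0 - 1) (hb : b = ε * Φ 0 1)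
    (hc : c = ε * Φ 1 0) (hx : x = N 0 0) (hz : z = N 1 0) (hw : w = N 0 1 + c)
    (hd : d = (q : A) - 1) :
    Φ = !![ε * (1 + a), ε * b; ε * c, ε * (1 + d - a)] ∧ N = !![x, w - c; z, -x] ∧
    a * a = d * a - b * c ∧ x * c = z * a ∧ a * x = d * x - b * z ∧
    c * c = w * c + d * x - b * z ∧ a * c = d * c + w * a - b * x - w * d ∧
    x * x = z * c - w * z := by
  obtain ⟨-, h1, h2⟩ := det_sc q ε e2 h.qd
  have htr := h.tr rfl
  rw [Matrix.trace_fin_two] at htr
  have h11 : ε * Φ 1 1 = 1 + d - a := by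
    rw [ha, hd]
    linear_combination (ε : A) * htr + ((q : A) + 1) * e2
  have hN11 := h.qd.N11
  have hmul := h.mul rfl
  have hsq := h.qd.sqN
  have m00 := congrFun (congrFun hmul 0) 0
  have m01 := congrFun (congrFun hmul 0) 1
  have m10 := congrFun (congrFun hmul 1) 0
  have m11 := congrFun (congrFun hmul 1) 1
  have s00 := congrFun (congrFun hsq 0) 0
  have hΦ : Φ = !![ε * (1 + a), ε * b; ε * c, ε * (1 + d - a)] := by
    rw [h2, ← ha, ← hb, ← hc, h11]
  have hN : N = !![x, w - c; z, -x] := by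
    refine Matrix.ext fun i j => ?_
    fin_cases i <;> fin_cases j <;> m22
    · exact hx.symm
    · rw [hw]; ring
    · exact hz.symm
    · rw [hN11, hx]
  rw [← ha, ← hb, ← hc, h11] at h1
  rw [hN, hΦ] at m00 m01 m10 m11
  rw [hN] at s00
  revert m00 m01 m10 m11 s00
  m22
  intro m00 m01 m10 m11 s00
  refine ⟨hΦ, hN, ?_, ?_, ?_, ?_, ?_, ?_⟩
  · linear_combination (-1 : A) * h1 + hd
  · linear_combination (-(ε : A)) * m10 + (z * a - x * c) * e2
  · linear_combination (ε : A) * m11 - (z * b - x * (d - a)) * e2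
  · linear_combination (-(ε : A)) * m00 + (x * a + (w - c) * c) * e2 + (ε : A) * m11 -
      (z * b - x * (d - a)) * e2
  · linear_combination (ε : A) * m01 - (x * b + (w - c) * (d - a)) * e2
  · linear_combination s00

end lr

end aux


theorem cast_sq {ε : ℤ} (hε : ε ^ 2 = 1) (A : Type) [CommRing A] : (ε : A) ^ 2 = 1 := by
  rw [← Int.cast_pow, hε, Int.cast_one]

theorem map22 {A B : Type} [CommRing A] [CommRing B] (ψ : A →+* B) (a b c d : A) :
    (!![a, b; c, d] : Matrix (Fin 2) (Fin 2) A).map ψ = !![ψ a, ψ b; ψ c, ψ d] := by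
  refine Matrix.ext fun i j => ?_
  fin_cases i <;> fin_cases j <;> rfl

theorem map0 {A B : Type} [CommRing A] [CommRing B] (ψ : A →+* B) :
    (0 : Matrix (Fin 2) (Fin 2) A).map ψ = 0 := by
  refine Matrix.ext fun i j => ?_
  simp

theorem X_mem : (PowerSeries.X : R⟦X⟧) ∈ maximalIdeal R⟦X⟧ := by
  rw [mem_max_ps, PowerSeries.constantCoeff_X]
  exact zero_mem _

/-- constants in `R⟦X⟧` -/
noncomputable def ιps (O : Type) [CommRing O] (R : Type) [CommRing R] [Algebra O R] :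
    R →ₐ[O] R⟦X⟧ :=
  { (PowerSeries.C (R := R)) with
    commutes' := fun o => by
      rw [PowerSeries.algebraMap_apply]
      rfl }

theorem ιps_apply (x : R) : ιps O R x = PowerSeries.C x := rfl

/-- the case of a non-scalar Frobenius, Steinberg component -/
theorem step_ns_st (h : Adm O ϖ R) (q : ℕ) {ε : ℤ} (hε : ε ^ 2 = 1) :
    ∃ (R' : Type) (_ : CommRing R') (_ : IsLocalRing R') (_ : Algebra O R') (ι : R →ₐ[O] R')
      (Φ N : Matrix (Fin 2) (Fin 2) R'), IsStep O ϖ R true Ty.ns q ε R' ι Φ N := by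
  have hmax : maximalIdeal R⟦X⟧ ≤ (maximalIdeal R).map (ιps O R) ⊔ Ideal.span {PowerSeries.X} :=
    max_ps_le
  have hXm := X_mem (R := R)
  obtain ⟨X, hX⟩ : ∃ X : R⟦X⟧, X = PowerSeries.X := ⟨_, rfl⟩
  rw [← hX] at hmax hXm
  refine ⟨R⟦X⟧, inferInstance, inferInstance, inferInstance, ιps O R, _, _, h.ps, ?_,
    lr_ns_st q ε (cast_sq hε _) hXm, ?_, ?_, ?_⟩
  · intro x hx
    rw [ιps_apply, mem_max_ps, PowerSeries.constantCoeff_C]
    exact hx
  · refine hmax.trans (sup_le_sup le_rfl ?_)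
    rw [Ideal.span_le, Set.singleton_subset_iff]
    exact locI_N Ty.ns q ε _ _ 0 0
  · refine ⟨[X], rfl, ?_, ?_⟩
    · intro w hw
      rw [List.mem_singleton] at hw
      rw [hw]
      exact hXm
    · refine (hmax.trans ?_).trans Ideal.le_radical
      rw [Ideal.ofList_singleton]
  · intro B _ _ _ φ hφ Φ' N' hLR
    obtain ⟨h1, h2⟩ := det_ns_st q ε (cast_sq hε B) hLR
    obtain ⟨ψ, h3, h4⟩ := exists_eval_ps φ (N' 0 0) (hLR.qd.hN 0 0)
    rw [← hX] at h4
    refine ⟨ψ, h3, ?_, ?_⟩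
    · rw [h1, map22, map_zero, map_neg, map_natCast, map_one, map_mul, map_add, map_natCast,
        map_one, map_intCast]
    · rw [h2, map22, map_neg, map_neg, map_mul, map_intCast, h4]

/-- the case of a non-scalar Frobenius, unramified component -/
theorem step_ns_ur (h : Adm O ϖ R) (q : ℕ) (ε : ℤ) :
    ∃ (R' : Type) (_ : CommRing R') (_ : IsLocalRing R') (_ : Algebra O R') (ι : R →ₐ[O] R')
      (Φ N : Matrix (Fin 2) (Fin 2) R'), IsStep O ϖ R false Ty.ns q ε R' ι Φ N := by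
  have hmax : maximalIdeal R⟦X⟧ ≤ (maximalIdeal R).map (ιps O R) ⊔ Ideal.span {PowerSeries.X} :=
    max_ps_le
  have hXm := X_mem (R := R)
  obtain ⟨X, hX⟩ : ∃ X : R⟦X⟧, X = PowerSeries.X := ⟨_, rfl⟩
  rw [← hX] at hmax hXm
  refine ⟨R⟦X⟧, inferInstance, inferInstance, inferInstance, ιps O R, _, 0, h.ps, ?_,
    lr_ns_ur q ε hXm, ?_, ?_, ?_⟩
  · intro x hx
    rw [ιps_apply, mem_max_ps, PowerSeries.constantCoeff_C]
    exact hx
  · refine hmax.trans (sup_le_sup le_rfl ?_)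
    rw [Ideal.span_le, Set.singleton_subset_iff]
    have := locI_Φ Ty.ns q ε (!![0, -(q : R⟦X⟧); 1, (ε : R⟦X⟧) * (q + 1) + X]) 0 1 1
    have h2 : ((!![0, -(q : R⟦X⟧); 1, (ε : R⟦X⟧) * (q + 1) + X]) -
        Φ0 R⟦X⟧ Ty.ns q ε) 1 1 = X := by
      simp [Φ0]
    rw [h2] at this
    exact this
  · refine ⟨[X], rfl, ?_, ?_⟩
    · intro w hw
      rw [List.mem_singleton] at hw
      rw [hw]
      exact hXm
    · refine (hmax.trans ?_).trans Ideal.le_radical
      rw [Ideal.ofList_singleton]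
  · intro B _ _ _ φ hφ Φ' N' hLR
    obtain ⟨ψ, h3, h4⟩ := exists_eval_ps φ _ (hLR.qd.hτ rfl).1
    rw [← hX] at h4
    refine ⟨ψ, h3, ?_, ?_⟩
    · rw [map22, map_zero, map_neg, map_natCast, map_one, map_add, map_mul, map_add, map_natCast,
        map_one, map_intCast, h4]
      exact (det_ns_ur q ε hLR).symm
    · rw [hLR.ur rfl, map0]

/-- constants in `S3 R` -/
noncomputable def ιs3 (O : Type) [CommRing O] (R : Type) [CommRing R] [Algebra O R] :
    R →ₐ[O] S3 R :=
  { (c3 R) with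
    commutes' := fun o => by
      rw [PowerSeries.algebraMap_apply, PowerSeries.algebraMap_apply, PowerSeries.algebraMap_apply]
      rfl }

theorem ιs3_apply (x : R) : ιs3 O R x = c3 R x := rfl

theorem c3_mem {x : R} (hx : x ∈ maximalIdeal R) : c3 R x ∈ maximalIdeal (S3 R) := by
  rw [c3_apply, mem_max_ps, PowerSeries.constantCoeff_C, mem_max_ps, PowerSeries.constantCoeff_C,
    mem_max_ps, PowerSeries.constantCoeff_C]
  exact hx

theorem Adm.q_mem (h : Adm O ϖ R) (hϖ : ϖ ∈ maximalIdeal O) {q : ℕ} (hq : ϖ ∣ (q : O) - 1) :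
    (q : R) - 1 ∈ maximalIdeal R := by
  obtain ⟨c, hc⟩ := hq
  have h1 : (q : R) - 1 = algebraMap O R ϖ * algebraMap O R c := by
    rw [← map_mul, ← hc, map_sub, map_natCast, map_one]
  rw [h1]
  exact Ideal.mul_mem_right _ _ (h.loc _ hϖ)

/-- the case of a scalar Frobenius, unramified component -/
theorem step_sc_ur (h : Adm O ϖ R) (hϖ : ϖ ∈ maximalIdeal O) {q : ℕ} (hq : ϖ ∣ (q : O) - 1)
    {ε : ℤ} (hε : ε ^ 2 = 1) :
    ∃ (R' : Type) (_ : CommRing R') (_ : IsLocalRing R') (_ : Algebra O R') (ι : R →ₐ[O] R')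
      (Φ N : Matrix (Fin 2) (Fin 2) R'), IsStep O ϖ R false Ty.sc q ε R' ι Φ N := by
  have hu : IsUnit (1 + vb R) := by
    by_contra hcon
    have h1 : 1 + vb R ∈ maximalIdeal (S3 R) := (mem_maximalIdeal _).2 hcon
    have h2 : (1 : S3 R) ∈ maximalIdeal (S3 R) := by
      have := sub_mem h1 (vb_mem (R := R))
      rwa [add_sub_cancel_right] at this
    exact (Ideal.ne_top_iff_one _).1 (maximalIdeal.isMaximal (S3 R)).ne_top h2
  obtain ⟨u, hu'⟩ := hu.exists_right_inv
  have he : (1 + vb R) * ((q + vz R * vw R) * u) = q + vz R * vw R := by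
    linear_combination ((q : S3 R) + vz R * vw R) * hu'
  have e2 := cast_sq hε (S3 R)
  refine ⟨S3 R, inferInstance, inferInstance, inferInstance, ιs3 O R,
    !![ε * (1 + vb R), ε * vz R; ε * vw R, ε * ((q + vz R * vw R) * u)], 0, h.s3, ?_,
    lr_sc_ur q ε e2 vb_mem vz_mem vw_mem he (h.s3.q_mem hϖ hq), ?_, ?_, ?_⟩
  · intro x hx
    exact c3_mem hx
  · refine max_s3_le.trans (sup_le_sup le_rfl ?_)
    set Φ : Matrix (Fin 2) (Fin 2) (S3 R) :=
      !![ε * (1 + vb R), ε * vz R; ε * vw R, ε * ((q + vz R * vw R) * u)] with hΦ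
    have k00 := locI_Φ Ty.sc q ε Φ 0 0 0
    have k01 := locI_Φ Ty.sc q ε Φ 0 0 1
    have k10 := locI_Φ Ty.sc q ε Φ 0 1 0
    generalize locI Ty.sc q ε Φ 0 = I at k00 k01 k10 ⊢
    rw [hΦ] at k00 k01 k10
    simp only [Φ0] at k00 k01 k10
    revert k00 k01 k10
    m22
    intro k00 k01 k10
    rw [Ideal.span_le]
    rintro y (rfl | rfl | rfl)
    · have : vb R = ε * (ε * (1 + vb R) - ε) := by linear_combination (-vb R) * e2
      rw [this]
      exact Ideal.mul_mem_left _ _ k00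
    · have : vz R = ε * (ε * vz R - 0) := by linear_combination (-vz R) * e2
      rw [this]
      exact Ideal.mul_mem_left _ _ k01
    · have : vw R = ε * (ε * vw R - 0) := by linear_combination (-vw R) * e2
      rw [this]
      exact Ideal.mul_mem_left _ _ k10
  · refine ⟨[vb R, vz R, vw R], rfl, ?_, ?_⟩
    · intro w hw
      simp only [List.mem_cons, List.not_mem_nil, or_false] at hw
      rcases hw with rfl | rfl | rfl
      · exact vb_mem
      · exact vz_mem
      · exact vw_mem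
    · refine (max_s3_le.trans ?_).trans Ideal.le_radical
      refine sup_le_sup le_rfl (Ideal.span_mono ?_)
      intro y hy
      simpa using hy
  · intro B _ _ _ φ hφ Φ' N' hLR
    obtain ⟨⟨ha, hb, hc⟩, h1, h2⟩ := det_sc q ε (cast_sq hε B) hLR.qd
    obtain ⟨ψ, h3, h4, h5, h6⟩ := exists_eval_s3 φ _ _ _ ha hb hc
    refine ⟨ψ, h3, ?_, ?_⟩
    · have h7 : ψ ((q + vz R * vw R) * u) = ε * Φ' 1 1 := by
        have e1 : ψ (1 + vb R) * ψ u = 1 := by rw [← map_mul, hu', map_one]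
        have e3 : ψ (1 + vb R) = 1 + (ε * Φ' 0 0 - 1) := by rw [map_add, map_one, h4]
        rw [map_mul, map_add, map_natCast, map_mul, h5, h6, ← h1, ← e3]
        linear_combination (ε * Φ' 1 1) * e1
      rw [map22, map_mul, map_mul, map_mul, map_mul, map_intCast, h7, map_add, map_one, h4, h5, h6]
      exact h2.symm
    · rw [hLR.ur rfl, map0]

/-- the case of a scalar Frobenius, Steinberg component, abstract form -/
theorem step_sc_st_aux {q : ℕ} {ε : ℤ} (hε : ε ^ 2 = 1) (D : Type) [CommRing D] [IsLocalRing D]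
    [Algebra O D] (hadm : Adm O ϖ D) (j : S3 R →+* D) (dS : S3 R) (hdS : dS = (q : S3 R) - 1)
    (hjO : ∀ o, j (algebraMap O (S3 R) o) = algebraMap O D o)
    (hjm : ∀ s ∈ maximalIdeal (S3 R), j s ∈ maximalIdeal D) (a c x d : D) (hd : d = (q : D) - 1)
    (hdm : d ∈ maximalIdeal D) (ha : a ∈ maximalIdeal D) (hc : c ∈ maximalIdeal D)
    (hx : x ∈ maximalIdeal D)
    (r1 : a * a = d * a - j (vb R) * c) (r2 : x * c = j (vz R) * a)
    (r3 : a * x = d * x - j (vb R) * j (vz R))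
    (r4 : c * c = j (vw R) * c + d * x - j (vb R) * j (vz R))
    (r5 : a * c = d * c + j (vw R) * a - j (vb R) * x - j (vw R) * d)
    (r6 : x * x = j (vz R) * c - j (vw R) * j (vz R))
    (hmax : maximalIdeal D ≤ (maximalIdeal (S3 R)).map j ⊔ Ideal.span {a, c, x})
    (hrad : maximalIdeal D ≤ ((maximalIdeal (S3 R)).map j).radical)
    (huniv : ∀ (B : Type) [CommRing B] (f : S3 R →+* B) (a' c' x' : B),
      a' * a' = f dS * a' - f (vb R) * c' → x' * c' = f (vz R) * a' →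
      a' * x' = f dS * x' - f (vb R * vz R) →
      c' * c' = f (vw R) * c' + f dS * x' - f (vb R * vz R) →
      a' * c' = f dS * c' + f (vw R) * a' - f (vb R) * x' -
        f (vw R * dS) →
      x' * x' = f (vz R) * c' - f (vw R * vz R) →
      ∃ F : D →+* B, (∀ s, F (j s) = f s) ∧ F a = a' ∧ F c = c' ∧ F x = x') :
    ∃ (ι : R →ₐ[O] D) (Φ N : Matrix (Fin 2) (Fin 2) D), IsStep O ϖ R true Ty.sc q ε D ι Φ N := by
  let ι : R →ₐ[O] D :=
    { j.comp (c3 R) with
      commutes' := fun o => by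
        have h1 : ιs3 O R (algebraMap O R o) = algebraMap O (S3 R) o := (ιs3 O R).commutes o
        have h2 : c3 R (algebraMap O R o) = algebraMap O (S3 R) o := h1
        change j (c3 R (algebraMap O R o)) = _
        rw [h2, hjO] }
  have hι : ∀ x, ι x = j (c3 R x) := fun _ => rfl
  have hιmap : (maximalIdeal (S3 R)).map j ≤
      (maximalIdeal R).map ι ⊔ Ideal.span {j (vb R), j (vz R), j (vw R)} := by
    refine (Ideal.map_mono max_s3_le).trans ?_
    rw [Ideal.map_sup, Ideal.map_map, Ideal.map_span]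
    refine sup_le_sup le_rfl (Ideal.span_mono ?_)
    rintro _ ⟨y, (rfl | rfl | rfl), rfl⟩ <;> simp
  have e2 := cast_sq hε D
  have hlr := lr_sc_st q ε e2 hd ha (hjm _ vb_mem) hc hx (hjm _ vz_mem) (hjm _ vw_mem)
    hdm r1 r2 r3 r4 r5 r6
  have hvb := hjm _ (vb_mem (R := R))
  have hvz := hjm _ (vz_mem (R := R))
  have hvw := hjm _ (vw_mem (R := R))
  refine ⟨ι, _, _, hadm, ?_, hlr, ?_, ?_, ?_⟩
  · intro x hx
    rw [hι]
    exact hjm _ (c3_mem hx)
  · clear huniv hlr
    generalize (maximalIdeal R).map ι = mR at hιmap ⊢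
    generalize (maximalIdeal (S3 R)).map j = mS at hιmap hmax
    generalize j (vb R) = b at *
    generalize j (vz R) = z at *
    generalize j (vw R) = w at *
    obtain ⟨Φ, hΦ⟩ : ∃ Φ : Matrix (Fin 2) (Fin 2) D,
      Φ = !![(ε : D) * (1 + a), ε * b; ε * c, ε * (1 + d - a)] := ⟨_, rfl⟩
    obtain ⟨N, hN⟩ : ∃ N : Matrix (Fin 2) (Fin 2) D, N = !![x, w - c; z, -x] := ⟨_, rfl⟩
    rw [← hΦ, ← hN]
    have k00 := locI_Φ Ty.sc q ε Φ N 0 0
    have k01 := locI_Φ Ty.sc q ε Φ N 0 1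
    have k10 := locI_Φ Ty.sc q ε Φ N 1 0
    have n00 := locI_N Ty.sc q ε Φ N 0 0
    have n01 := locI_N Ty.sc q ε Φ N 0 1
    have n10 := locI_N Ty.sc q ε Φ N 1 0
    generalize locI Ty.sc q ε Φ N = I at k00 k01 k10 n00 n01 n10 ⊢
    rw [hΦ] at k00 k01 k10
    rw [hN] at n00 n01 n10
    simp only [Φ0] at k00 k01 k10
    revert k00 k01 k10 n00 n01 n10
    m22
    intro k00 k01 k10 n00 n01 n10
    have haI : a ∈ I := by
      have : a = ε * ((ε : D) * (1 + a) - ε) := by linear_combination (-a) * e2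
      rw [this]
      exact Ideal.mul_mem_left _ _ k00
    have hcI : c ∈ I := by
      have : c = ε * (ε * c - 0) := by linear_combination (-c) * e2
      rw [this]
      exact Ideal.mul_mem_left _ _ k10
    have hbI : b ∈ I := by
      have : b = ε * (ε * b - 0) := by linear_combination (-b) * e2
      rw [this]
      exact Ideal.mul_mem_left _ _ k01
    have hwI : w ∈ I := by
      have : w = (w - c) + c := by ring
      rw [this]
      exact add_mem n01 hcI
    refine hmax.trans (sup_le (hιmap.trans (sup_le_sup le_rfl ?_)) (le_trans ?_ le_sup_right))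
    · rw [Ideal.span_le]
      rintro y (rfl | rfl | rfl)
      · exact hbI
      · exact n10
      · exact hwI
    · rw [Ideal.span_le]
      rintro y (rfl | rfl | rfl)
      · exact haI
      · exact hcI
      · exact n00
  · refine ⟨[j (vb R), j (vz R), j (vw R)], rfl, ?_, ?_⟩
    · intro w hw
      simp only [List.mem_cons, List.not_mem_nil, or_false] at hw
      rcases hw with rfl | rfl | rfl
      · exact hvb
      · exact hvz
      · exact hvw
    · refine hrad.trans (Ideal.radical_mono (hιmap.trans ?_))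
      refine sup_le_sup le_rfl (Ideal.span_mono ?_)
      intro y hy
      simpa using hy
  · intro B _ _ _ φ hφ Φ' N' hLR
    obtain ⟨⟨ham, hbm, hcm⟩, -, -⟩ := det_sc q ε (cast_sq hε B) hLR.qd
    obtain ⟨hΦ', hN', q1, q2, q3, q4, q5, q6⟩ := det_sc_st q ε (cast_sq hε B) hLR
      (a := ε * Φ' 0 0 - 1) (b := ε * Φ' 0 1) (c := ε * Φ' 1 0) (x := N' 0 0) (z := N' 1 0)
      (w := N' 0 1 + ε * Φ' 1 0) (d := (q : B) - 1) rfl rfl rfl rfl rfl rfl rfl
    obtain ⟨ψ0, h3, h4, h5, h6⟩ := exists_eval_s3 φ _ _ _ hbm (hLR.qd.hN 1 0)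
      (add_mem (hLR.qd.hN 0 1) hcm)
    have hψd : ψ0 dS = (q : B) - 1 := by rw [hdS, map_sub, map_natCast, map_one]
    obtain ⟨ψ, g1, g2, g3, g4⟩ := huniv B ψ0
      (ε * Φ' 0 0 - 1) (ε * Φ' 1 0) (N' 0 0)
      (by rw [h4, hψd]; exact q1) (by rw [h5]; exact q2)
      (by rw [map_mul, h4, h5, hψd]; exact q3) (by rw [map_mul, h4, h5, h6, hψd]; exact q4)
      (by rw [map_mul, h4, h6, hψd]; exact q5) (by rw [map_mul, h5, h6]; exact q6)
    refine ⟨ψ, fun x => ?_, ?_, ?_⟩
    · rw [hι, g1, h3]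
    · rw [map22, map_mul, map_mul, map_mul, map_mul, map_intCast, map_sub, map_add, map_add,
        map_one, g2, g3, g1, h4, hd, map_sub, map_natCast, map_one]
      exact hΦ'.symm
    · rw [map22, map_sub, map_neg, g1, g1, g3, g4, h5, h6]
      exact hN'.symm

set_option maxHeartbeats 2000000 in
/-- the case of a scalar Frobenius, Steinberg component -/
theorem step_sc_st (h : Adm O ϖ R) (hϖ : ϖ ∈ maximalIdeal O) {q : ℕ} (hq : ϖ ∣ (q : O) - 1)
    {ε : ℤ} (hε : ε ^ 2 = 1) :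
    ∃ (R' : Type) (_ : CommRing R') (_ : IsLocalRing R') (_ : Algebra O R') (ι : R →ₐ[O] R')
      (Φ N : Matrix (Fin 2) (Fin 2) R'), IsStep O ϖ R true Ty.sc q ε R' ι Φ N := by
  have h3 := h.s3
  haveI := h3.noe
  haveI := h3.cpl
  obtain ⟨dS, hdS⟩ : ∃ dS : S3 R, dS = (q : S3 R) - 1 := ⟨_, rfl⟩
  have hdm : dS ∈ maximalIdeal (S3 R) := by rw [hdS]; exact h3.q_mem hϖ hq
  have hdϖ : algebraMap O (S3 R) ϖ ∣ dS := by
    obtain ⟨c, hc⟩ := hq
    exact ⟨algebraMap O (S3 R) c, by rw [hdS, ← map_mul, ← hc, map_sub, map_natCast, map_one]⟩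
  obtain ⟨hdom, hprm⟩ := DR.dom_prime h dS hdϖ
  haveI := hdom
  letI hloc : IsLocalRing (DR (vb R) (vz R) (vw R) dS) :=
    DR.isLocalRing vb_mem vz_mem vw_mem hdm
  letI halg : Algebra O (DR (vb R) (vz R) (vw R) dS) :=
    ((algebraMap (S3 R) (DR (vb R) (vz R) (vw R) dS)).comp
      (algebraMap O (S3 R))).toAlgebra
  have hmem := DR.mem_max (d := dS) (vb_mem (R := R)) (vz_mem (R := R))
    (vw_mem (R := R)) hdm
  have hjm : ∀ s ∈ maximalIdeal (S3 R),
      algebraMap (S3 R) (DR (vb R) (vz R) (vw R) dS) s ∈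
      maximalIdeal (DR (vb R) (vz R) (vw R) dS) := fun s hs => by
    rw [hmem]
    exact hs
  haveI : IsLocalHom (algebraMap (S3 R) (DR (vb R) (vz R) (vw R) dS)) := ⟨fun s hs => by
    by_contra hcon
    exact (mem_nonunits_iff.1 ((mem_maximalIdeal _).1 (hjm s ((mem_maximalIdeal _).2 hcon)))) hs⟩
  have hadm : Adm O ϖ (DR (vb R) (vz R) (vw R) dS) := by
    refine ⟨hdom, IsNoetherianRing.of_finite (S3 R) _,
      IsLocalRing.isAdicComplete_of_module_finite (𝒪 := S3 R), ?_, ?_, ?_⟩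
    · intro f
      obtain ⟨o, ho⟩ := h3.res f.e0
      refine ⟨o, ?_⟩
      rw [hmem, DR.e0_sub]
      exact ho
    · intro o ho
      exact hjm _ (h3.loc o ho)
    · exact hprm
  have r1 := DR.rel_aa (vb R) (vz R) (vw R) dS
  have r2 := DR.rel_xc (vb R) (vz R) (vw R) dS
  have r3 := DR.rel_ax (vb R) (vz R) (vw R) dS
  have r4 := DR.rel_cc (vb R) (vz R) (vw R) dS
  have r5 := DR.rel_ac (vb R) (vz R) (vw R) dS
  have r6 := DR.rel_xx (vb R) (vz R) (vw R) dS
  rw [map_mul] at r3 r4 r5 r6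
  obtain ⟨ι, Φ, N, H⟩ := step_sc_st_aux (O := O) (ϖ := ϖ) (R := R) (q := q) hε
    (DR (vb R) (vz R) (vw R) dS) hadm
    (algebraMap (S3 R) (DR (vb R) (vz R) (vw R) dS)) dS hdS (fun _ => rfl) hjm
    DR.a DR.c DR.x (algebraMap (S3 R) _ dS)
    (by rw [hdS, map_sub, map_natCast, map_one]) (hjm _ hdm)
    (by rw [hmem]; exact zero_mem _) (by rw [hmem]; exact zero_mem _)
    (by rw [hmem]; exact zero_mem _) r1 r2 r3 r4 r5 r6
    (DR.max_le vb_mem vz_mem vw_mem hdm) (DR.max_le_radical vb_mem vz_mem vw_mem hdm)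
    (fun B _ f a' c' x' h1 h2 h3 h4 h5 h6 => DR.exists_lift f a' c' x' h1 h2 h3 h4 h5 h6)
  exact ⟨_, inferInstance, hloc, halg, ι, Φ, N, H⟩

/-- **Existence of local deformation rings over an admissible base.** -/
theorem exists_step (h : Adm O ϖ R) (hϖ : ϖ ∈ maximalIdeal O) (st : Bool) (ty : Ty) {q : ℕ}
    (hq : ty = Ty.sc → ϖ ∣ (q : O) - 1) {ε : ℤ} (hε : ε ^ 2 = 1) :
    ∃ (R' : Type) (_ : CommRing R') (_ : IsLocalRing R') (_ : Algebra O R') (ι : R →ₐ[O] R')
      (Φ N : Matrix (Fin 2) (Fin 2) R'), IsStep O ϖ R st ty q ε R' ι Φ N := by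
  cases st <;> cases ty
  · exact step_sc_ur h hϖ (hq rfl) hε
  · exact step_ns_ur h q ε
  · exact step_sc_st h hϖ (hq rfl) hε
  · exact step_ns_st h q hε

end Fermat.Agent.StR
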