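import Fermat.Agent.StR.Step

/-!
# Towers of local deformation rings
-/

set_option autoImplicit false
set_option linter.unusedSectionVars false
set_option linter.style.haveILetI false

namespace Fermat.Agent.StR

open IsLocalRing Matrix
open scoped PowerSeries

section map

variable {A B : Type} [CommRing A] [IsLocalRing A] [CommRing B] [IsLocalRing B] (f : A →+* B)
  (hf : ∀ x ∈ maximalIdeal A, f x ∈ maximalIdeal B)

theorem locI_map (ty : Ty) (q : ℕ) (ε : ℤ) (Φ N : Matrix (Fin 2) (Fin 2) A) :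
    (locI ty q ε Φ N).map f = locI ty q ε (Φ.map f) (N.map f) := by
  rw [locI, locI, Ideal.map_span, Set.image_union, ← Set.range_comp, ← Set.range_comp]
  congr 3
  · funext i
    rw [Function.comp_apply, Matrix.sub_apply, Matrix.sub_apply, map_sub, Matrix.map_apply,
      ← map_sub_Φ0 f, Matrix.map_apply]

include hf in
theorem QD.map {ty : Ty} {q : ℕ} {ε : ℤ} {Φ N : Matrix (Fin 2) (Fin 2) A} (h : QD ty q ε Φ N) :
    QD ty q ε (Φ.map f) (N.map f) := by
  have hs : ((Φ - (ε : A) • (1 : Matrix (Fin 2) (Fin 2) A)).map f) =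
      Φ.map f - (ε : B) • (1 : Matrix (Fin 2) (Fin 2) B) := by
    rw [Matrix.map_sub _ (map_sub f), Matrix.map_smul' _ _ _ (map_mul f), map_intCast,
      Matrix.map_one _ (map_zero f) (map_one f)]
  refine ⟨?_, ?_, ?_, ?_, ?_, ?_, ?_⟩
  · rw [← RingHom.mapMatrix_apply, ← RingHom.map_det, h.detΦ, map_natCast]
  · rw [Matrix.trace_fin_two, Matrix.map_apply, Matrix.map_apply, ← map_add,
      ← Matrix.trace_fin_two, h.trN, map_zero]
  · rw [← Matrix.map_mul, h.sqN, Matrix.map_zero _ (map_zero f)]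
  · rw [← Matrix.map_mul, h.comm, Matrix.map_smul' _ _ _ (map_mul f), map_natCast, Matrix.map_mul]
  · intro a b
    exact hf _ (h.hN a b)
  · intro h1 a b
    rw [← hs]
    exact hf _ (h.hΦ h1 a b)
  · intro h1
    obtain ⟨h2, h3⟩ := h.hτ h1
    have htr : (Φ.map f).trace = f Φ.trace := by
      rw [Matrix.trace_fin_two, Matrix.map_apply, Matrix.map_apply, ← map_add,
        ← Matrix.trace_fin_two]
    refine ⟨?_, ?_⟩
    · have := hf _ h2
      rwa [map_sub, map_mul, map_add, map_one, map_natCast, map_intCast, ← htr] at this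
    · rw [htr]
      conv_lhs => rw [h3]
      rw [map22, map_zero, map_neg, map_natCast, map_one]

include hf in
theorem LR.map {st : Bool} {ty : Ty} {q : ℕ} {ε : ℤ} {Φ N : Matrix (Fin 2) (Fin 2) A}
    (h : LR st ty q ε Φ N) : LR st ty q ε (Φ.map f) (N.map f) := by
  have hs : ((Φ - (ε : A) • (1 : Matrix (Fin 2) (Fin 2) A)).map f) =
      Φ.map f - (ε : B) • (1 : Matrix (Fin 2) (Fin 2) B) := by
    rw [Matrix.map_sub _ (map_sub f), Matrix.map_smul' _ _ _ (map_mul f), map_intCast,
      Matrix.map_one _ (map_zero f) (map_one f)]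
  refine ⟨h.qd.map f hf, fun h1 => ?_, fun h1 => ?_, fun h1 => ?_⟩
  · have htr : (Φ.map f).trace = f Φ.trace := by
      rw [Matrix.trace_fin_two, Matrix.map_apply, Matrix.map_apply, ← map_add,
        ← Matrix.trace_fin_two]
    rw [htr, h.tr h1, map_mul, map_add, map_one, map_natCast, map_intCast]
  · rw [← hs, ← Matrix.map_mul, h.mul h1, Matrix.map_zero _ (map_zero f)]
  · rw [h.ur h1, Matrix.map_zero _ (map_zero f)]

theorem QD.locI_le {ty : Ty} {q : ℕ} {ε : ℤ} {Φ N : Matrix (Fin 2) (Fin 2) A}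
    (h : QD ty q ε Φ N) : locI ty q ε Φ N ≤ maximalIdeal A := by
  rw [locI, Ideal.span_le]
  rintro _ (⟨⟨i, j⟩, rfl⟩ | ⟨⟨i, j⟩, rfl⟩)
  · cases ty
    · exact h.hΦ' i j
    · obtain ⟨h1, h2⟩ := h.hτ rfl
      change (Φ - Φ0 A Ty.ns q ε) i j ∈ maximalIdeal A
      rw [h2]
      revert i j
      intro i j
      simp only [Φ0]
      fin_cases i <;> fin_cases j <;> m22
      · rw [sub_self]; exact zero_mem _
      · rw [sub_self]; exact zero_mem _
      · rw [sub_self]; exact zero_mem _
      · exact h1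
  · exact h.hN i j

end map

/-- The universal ring with variables `z` and local data at the primes in `s`. -/
structure IsTow (O : Type) [CommRing O] [IsLocalRing O] (ϖ : O) (g t : ℕ) (ty : Fin t → Ty)
    (q : Fin t → ℕ) (ε : Fin t → ℤ) (C : Fin t → Bool) (s : Finset (Fin t)) (R : Type) [CommRing R]
    [IsLocalRing R] [Algebra O R] (z : Fin g → R) (Φ N : Fin t → Matrix (Fin 2) (Fin 2) R) :
    Prop where
  adm : Adm O ϖ R
  hz : ∀ i, z i ∈ maximalIdeal R
  lr : ∀ j ∈ s, LR (C j) (ty j) (q j) (ε j) (Φ j) (N j)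
  gen : maximalIdeal R ≤ Ideal.span {algebraMap O R ϖ} ⊔ Ideal.span (Set.range z) ⊔
    ⨆ j ∈ s, locI (ty j) (q j) (ε j) (Φ j) (N j)
  dim : ∃ ws : List R, ws.length = 1 + g + ∑ j ∈ s, (ty j).dl ∧ (∀ w ∈ ws, w ∈ maximalIdeal R) ∧
    maximalIdeal R ≤ (Ideal.ofList ws).radical
  univ : ∀ (B : Type) [CommRing B] [IsLocalRing B] [IsAdicComplete (maximalIdeal B) B]
    [Algebra O B], (∀ o ∈ maximalIdeal O, algebraMap O B o ∈ maximalIdeal B) →
    ∀ (z' : Fin g → B), (∀ i, z' i ∈ maximalIdeal B) →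
    ∀ Φ' N' : Fin t → Matrix (Fin 2) (Fin 2) B,
      (∀ j ∈ s, LR (C j) (ty j) (q j) (ε j) (Φ' j) (N' j)) →
      ∃ ψ : R →ₐ[O] B, (∀ i, ψ (z i) = z' i) ∧
        ∀ j ∈ s, (Φ j).map ψ = Φ' j ∧ (N j).map ψ = N' j

variable {O : Type} [CommRing O] [IsDomain O] [IsLocalRing O] [IsNoetherianRing O]
  [IsAdicComplete (maximalIdeal O) O] {ϖ : O}

theorem adm_self (hϖ0 : ϖ ≠ 0) (hϖ : maximalIdeal O = Ideal.span {ϖ}) : Adm O ϖ O := by
  refine ⟨inferInstance, inferInstance, inferInstance, fun x => ⟨x, ?_⟩, fun o ho => ho, ?_⟩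
  · rw [Algebra.algebraMap_self, RingHom.id_apply, sub_self]
    exact zero_mem _
  · rw [Algebra.algebraMap_self, RingHom.id_apply, ← Ideal.span_singleton_prime hϖ0, ← hϖ]
    exact (maximalIdeal.isMaximal O).isPrime

variable {g t : ℕ} {ty : Fin t → Ty} {q : Fin t → ℕ} {ε : Fin t → ℤ}

theorem IsTow.local {C : Fin t → Bool} {s : Finset (Fin t)} {R : Type} [CommRing R]
    [IsLocalRing R] [Algebra O R] {z : Fin g → R} {Φ N : Fin t → Matrix (Fin 2) (Fin 2) R}
    (h : IsTow O ϖ g t ty q ε C s R z Φ N) (hϖ : ϖ ∈ maximalIdeal O) {B : Type} [CommRing B]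
    [IsLocalRing B] [Algebra O B] (hB : ∀ o ∈ maximalIdeal O, algebraMap O B o ∈ maximalIdeal B)
    {z' : Fin g → B} (hz' : ∀ i, z' i ∈ maximalIdeal B)
    {Φ' N' : Fin t → Matrix (Fin 2) (Fin 2) B}
    (hΦ' : ∀ j ∈ s, LR (C j) (ty j) (q j) (ε j) (Φ' j) (N' j)) (ψ : R →ₐ[O] B)
    (h1 : ∀ i, ψ (z i) = z' i) (h2 : ∀ j ∈ s, (Φ j).map ψ = Φ' j ∧ (N j).map ψ = N' j) :
    ∀ x ∈ maximalIdeal R, ψ x ∈ maximalIdeal B := by
  have h3 : maximalIdeal R ≤ (maximalIdeal B).comap ψ.toRingHom := by
    refine h.gen.trans (sup_le (sup_le ?_ ?_) ?_)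
    · rw [Ideal.span_le, Set.singleton_subset_iff]
      change ψ (algebraMap O R ϖ) ∈ maximalIdeal B
      rw [ψ.commutes]
      exact hB _ hϖ
    · rw [Ideal.span_le]
      rintro _ ⟨i, rfl⟩
      change ψ (z i) ∈ maximalIdeal B
      rw [h1]
      exact hz' i
    · refine iSup₂_le fun j hj => ?_
      rw [← Ideal.map_le_iff_le_comap, locI_map]
      have h4 : (Φ j).map ψ.toRingHom = Φ' j := (h2 j hj).1
      have h5 : (N j).map ψ.toRingHom = N' j := (h2 j hj).2
      rw [h4, h5]
      exact (hΦ' j hj).qd.locI_le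
  exact fun x hx => h3 hx

theorem exists_tower0 (hϖ0 : ϖ ≠ 0) (hϖ : maximalIdeal O = Ideal.span {ϖ}) (C : Fin t → Bool) :
    ∃ (R : Type) (_ : CommRing R) (_ : IsLocalRing R) (_ : Algebra O R) (z : Fin g → R)
      (Φ N : Fin t → Matrix (Fin 2) (Fin 2) R), IsTow O ϖ g t ty q ε C ∅ R z Φ N := by
  have hX : ∀ i : Fin g, (MvPowerSeries.X i : MvPowerSeries (Fin g) O) ∈
      maximalIdeal (MvPowerSeries (Fin g) O) := fun i =>
    Patch.vI_le_max (Ideal.subset_span ⟨i, rfl⟩)
  have hϖm : ϖ ∈ maximalIdeal O := by rw [hϖ]; exact Ideal.mem_span_singleton_self _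
  have hgen : maximalIdeal (MvPowerSeries (Fin g) O) ≤
      Ideal.span {algebraMap O (MvPowerSeries (Fin g) O) ϖ} ⊔
        Ideal.span (Set.range MvPowerSeries.X) := by
    intro f hf
    have h1 := Patch.constantCoeff_mem hf
    have h2 : f = MvPowerSeries.C (MvPowerSeries.constantCoeff f) +
      (f - MvPowerSeries.C (MvPowerSeries.constantCoeff f)) := by ring
    rw [h2]
    refine Submodule.add_mem_sup ?_ ?_
    · rw [hϖ, Ideal.mem_span_singleton] at h1
      obtain ⟨c, hc⟩ := h1
      rw [hc, map_mul, Ideal.mem_span_singleton, MvPowerSeries.algebraMap_apply,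
        Algebra.algebraMap_self, RingHom.id_apply]
      exact dvd_mul_right _ _
    · have h3 := Patch.mem_vI_pow (n := g) (O := O) 1
        (f := f - MvPowerSeries.C (MvPowerSeries.constantCoeff f)) (fun d hd => by
          have h4 : d = 0 := by
            rw [Nat.lt_one_iff] at hd
            exact (Finsupp.degree_eq_zero_iff d).1 hd
          rw [h4, map_sub, MvPowerSeries.coeff_zero_eq_constantCoeff_apply,
            MvPowerSeries.coeff_zero_C, sub_self])
      rwa [pow_one] at h3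
  refine ⟨MvPowerSeries (Fin g) O, inferInstance, inferInstance, inferInstance,
    MvPowerSeries.X, fun _ => 0, fun _ => 0, (adm_self hϖ0 hϖ).mvps g, hX, by simp, ?_, ?_, ?_⟩
  · refine hgen.trans le_sup_left
  · refine ⟨algebraMap O _ ϖ :: List.ofFn MvPowerSeries.X, ?_, ?_, ?_⟩
    · simp [add_comm]
    · intro w hw
      rw [List.mem_cons, List.mem_ofFn] at hw
      rcases hw with rfl | ⟨i, rfl⟩
      · exact ((adm_self hϖ0 hϖ).mvps g).loc _ hϖm
      · exact hX i
    · refine hgen.trans (le_trans (sup_le ?_ ?_) Ideal.le_radical)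
      · rw [Ideal.span_le, Set.singleton_subset_iff]
        exact Ideal.subset_span (by simp)
      · rw [Ideal.span_le]
        rintro _ ⟨i, rfl⟩
        refine Ideal.subset_span ?_
        simp
  · intro B _ _ _ _ hB z' hz' Φ' N' _
    obtain ⟨ψ, hψ⟩ := Patch.exists_eval (O := O) z' hz'
    exact ⟨ψ, hψ, by simp⟩

theorem Ideal.ofList_map' {A B : Type} [CommRing A] [CommRing B] (f : A →+* B) (l : List A) :
    (Ideal.ofList l).map f = Ideal.ofList (l.map f) := by
  rw [Ideal.ofList, Ideal.ofList, Ideal.map_span]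
  congr 1
  ext y
  simp

/-- **Existence of the tower.** -/
theorem exists_tower (hϖ0 : ϖ ≠ 0) (hϖ : maximalIdeal O = Ideal.span {ϖ})
    (hq : ∀ j, ty j = Ty.sc → ϖ ∣ (q j : O) - 1) (hε : ∀ j, ε j ^ 2 = 1) (C : Fin t → Bool)
    (s : Finset (Fin t)) :
    ∃ (R : Type) (_ : CommRing R) (_ : IsLocalRing R) (_ : Algebra O R) (z : Fin g → R)
      (Φ N : Fin t → Matrix (Fin 2) (Fin 2) R), IsTow O ϖ g t ty q ε C s R z Φ N := by
  classical
  have hϖm : ϖ ∈ maximalIdeal O := by rw [hϖ]; exact Ideal.mem_span_singleton_self _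
  induction s using Finset.induction_on with
  | empty => exact exists_tower0 hϖ0 hϖ C
  | insert j s hj ih =>
    obtain ⟨R, i1, i2, i3, z, Φ, N, H⟩ := ih
    obtain ⟨R', k1, k2, k3, ι, Φj, Nj, K⟩ := exists_step H.adm hϖm (C j) (ty j) (hq j) (hε j)
    have hιloc : ∀ x ∈ maximalIdeal R, ι.toRingHom x ∈ maximalIdeal R' := K.loc
    let Φ' : Fin t → Matrix (Fin 2) (Fin 2) R' :=
      Function.update (fun i => (Φ i).map ι.toRingHom) j Φj
    let N' : Fin t → Matrix (Fin 2) (Fin 2) R' :=
      Function.update (fun i => (N i).map ι.toRingHom) j Nj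
    have e1 : Φ' j = Φj := Function.update_self _ _ _
    have e2 : N' j = Nj := Function.update_self _ _ _
    have e3 : ∀ i ∈ s, Φ' i = (Φ i).map ι.toRingHom := fun i hi =>
      Function.update_of_ne (fun h : i = j => hj (h ▸ hi)) _ _
    have e4 : ∀ i ∈ s, N' i = (N i).map ι.toRingHom := fun i hi =>
      Function.update_of_ne (fun h : i = j => hj (h ▸ hi)) _ _
    refine ⟨R', k1, k2, k3, fun i => ι (z i), Φ', N', K.adm, fun i => K.loc _ (H.hz i), ?_, ?_, ?_,
      ?_⟩
    · intro i hi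
      rw [Finset.mem_insert] at hi
      rcases hi with rfl | hi
      · rw [e1, e2]
        exact K.lr
      · rw [e3 i hi, e4 i hi]
        exact (H.lr i hi).map ι.toRingHom hιloc
    · refine K.gen.trans (sup_le ?_ ?_)
      · have h1 := Ideal.map_mono (f := ι.toRingHom) H.gen
        refine le_trans h1 ?_
        rw [Ideal.map_sup, Ideal.map_sup, Ideal.map_span, Ideal.map_span, Set.image_singleton,
          ← Set.range_comp, Ideal.map_iSup]
        refine sup_le_sup (sup_le_sup ?_ le_rfl) ?_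
        · have : ι.toRingHom (algebraMap O R ϖ) = algebraMap O R' ϖ := ι.commutes ϖ
          rw [this]
        · refine iSup_le fun i => ?_
          rw [Ideal.map_iSup]
          refine iSup_le fun hi => ?_
          rw [locI_map, ← e3 i hi, ← e4 i hi]
          exact le_iSup₂_of_le i (Finset.mem_insert_of_mem hi) le_rfl
      · refine le_trans ?_ le_sup_right
        refine le_iSup₂_of_le j (Finset.mem_insert_self _ _) ?_
        rw [e1, e2]
    · obtain ⟨ws, h1, h2, h3⟩ := H.dim
      obtain ⟨vs, h4, h5, h6⟩ := K.dim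
      refine ⟨ws.map ι ++ vs, ?_, ?_, ?_⟩
      · rw [List.length_append, List.length_map, h1, h4, Finset.sum_insert hj]
        ring
      · intro w hw
        rw [List.mem_append, List.mem_map] at hw
        rcases hw with ⟨v, hv, rfl⟩ | hw
        · exact K.loc _ (h2 v hv)
        · exact h5 w hw
      · refine h6.trans ?_
        rw [← Ideal.radical_idem (Ideal.ofList (ws.map ι ++ vs))]
        refine Ideal.radical_mono (sup_le ?_ ?_)
        · have h7 : (maximalIdeal R).map ι.toRingHom ≤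
              ((Ideal.ofList ws).map ι.toRingHom).radical :=
            (Ideal.map_mono h3).trans (Ideal.map_radical_le _)
          refine h7.trans (Ideal.radical_mono ?_)
          rw [Ideal.ofList_map']
          refine Ideal.span_mono ?_
          intro y hy
          rw [Set.mem_ofPred_eq, List.mem_append]
          exact Or.inl hy
        · refine le_trans ?_ Ideal.le_radical
          refine Ideal.span_mono ?_
          intro y hy
          rw [Set.mem_ofPred_eq, List.mem_append]
          exact Or.inr hy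
    · intro B _ _ _ _ hB z' hz' Φ'' N'' hLR
      have hLR' : ∀ i ∈ s, LR (C i) (ty i) (q i) (ε i) (Φ'' i) (N'' i) := fun i hi =>
        hLR i (Finset.mem_insert_of_mem hi)
      obtain ⟨ψ0, h1, h2⟩ := H.univ B hB z' hz' Φ'' N'' hLR'
      have h3 := H.local hϖm hB hz' hLR' ψ0 h1 h2
      obtain ⟨ψ, h4, h5, h6⟩ := K.univ B ψ0.toRingHom h3 (Φ'' j) (N'' j)
        (hLR j (Finset.mem_insert_self _ _))
      have h4' : ∀ x, ψ (ι x) = ψ0 x := h4
      let ψ' : R' →ₐ[O] B :=
        { ψ with
          commutes' := fun o => by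
            change ψ (algebraMap O R' o) = _
            rw [← ι.commutes, h4', ψ0.commutes] }
      have hψ' : ∀ x, ψ' x = ψ x := fun _ => rfl
      refine ⟨ψ', fun i => ?_, fun i hi => ?_⟩
      · rw [hψ', h4', h1]
      · rw [Finset.mem_insert] at hi
        rcases hi with rfl | hi
        · rw [e1, e2]
          exact ⟨h5, h6⟩
        · rw [e3 i hi, e4 i hi]
          obtain ⟨h7, h8⟩ := h2 i hi
          constructor
          · rw [← h7]
            refine Matrix.ext fun a b => ?_
            exact h4' _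
          · rw [← h8]
            refine Matrix.ext fun a b => ?_
            exact h4' _

end Fermat.Agent.StR
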